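import Fermat.Agent.Jac.Chart.Exists
import Fermat.Agent.Jac.Chart.UnitH1

/-! # S25: the chart bijection -/

set_option autoImplicit false

universe u

open TensorProduct

namespace FLTAgent.Jac

open LineData

variable {k : Type u} [Field k] {M : Model k} {A : Type u} [CommRing A] [Algebra k A]
  {B : Type u} [CommRing B] [Algebra k B]

/-- The standing numerical hypotheses of a chart `(n, J)`. -/
structure ChartData (M : Model k) (n : ℕ) (J : Ideal M.Rp) : Prop where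
  le : M.genus ≤ n * M.d
  finite : Module.Finite k (M.Rp ⧸ J)
  rank : Module.finrank k (M.Rp ⧸ J) = n * M.d - M.genus

variable {n : ℕ} {J : Ideal M.Rp} {e : M.Rm →ₐ[k] k}

open ChartAux

theorem exists_unique_corresp [IsAlgClosed k] (hD : ChartData M n J) (he : e M.y = 0)
    {L : LineData M A} (hL : L.InChart n J) (hr : Rigidifiable e L) :
    ∃! I : Ideal (M.Ap A), IsDivDeg I M.genus ∧ L.Corresp n J I := by
  have := hD.finite
  obtain ⟨L₁, h1⟩ := exists_isSub (L.twist n) (isDivDeg_constIdeal (A := A) (J := J))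
  obtain ⟨φ, hφ⟩ :=
    (rigidifiable_isSub_iff he isDivDeg_constIdeal h1).1 ((rigidifiable_twist_iff _).2 hr)
  have hl : ∀ q : M.Rm →ₐ[k] k, q M.y = 0 → ∀ m : L₁.Mm, ∃ v ∈ L₁.H0,
      v.2 - m ∈ RingHom.ker (M.ptM (Model.constPt q A)) • (⊤ : Submodule (M.Am A) L₁.Mm) :=
    fun q hq m => by
      obtain ⟨L₂, h2⟩ := exists_isSubm_pole L₁ q
      exact pole_lift hq h2 (hL.2 q hq L₁ L₂ h1 h2) m
  have hA : L₁.Acyclic := by
    obtain ⟨L₂, h2⟩ := exists_isSubm_pole L₁ e
    exact acyclic_of_pole h2 (hL.2 e he L₁ L₂ h1 h2)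
  have hrank : ∀ p : PrimeSpectrum A, Module.rankAtStalk (R := A) L₁.H0 p = 1 := fun p => by
    let K := AlgebraicClosure p.asIdeal.ResidueField
    obtain ⟨L₁', b⟩ := exists_bc (IsScalarTower.toAlgHom k A K) L₁
    have hker : p.asIdeal = RingHom.ker (IsScalarTower.toAlgHom k A K) := by
      conv_lhs => rw [← Ideal.ker_algebraMap_residueField p.asIdeal]
      ext a
      rw [RingHom.mem_ker, RingHom.mem_ker, IsScalarTower.coe_toAlgHom',
        IsScalarTower.algebraMap_apply A p.asIdeal.ResidueField K,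
        map_eq_zero (algebraMap p.asIdeal.ResidueField K)]
    have h := Acyclic.rankAtStalk_H0 hA (IsScalarTower.toAlgHom k A K) b p hker
    rw [chi_fibre hD.le hD.rank hL.1 h1 _ b] at h
    exact_mod_cast h
  obtain ⟨s, hs, hs1, hH, hg⟩ := exists_gen_section he hA hrank φ hφ hl
  have hs' := (mem_H0_iff L₁).1 hs
  obtain ⟨eq⟩ := hg.exists_quotEquiv hs' hA hH
  have := unit_H1_free M A
  have := unit_H1_finite M A
  have : Module.Finite A
      (L₁.Mp ⧸ coeffIdeal (R := M.Ap A) s.1 • (⊤ : Submodule (M.Ap A) L₁.Mp)) :=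
    Module.Finite.equiv eq.symm
  have : Module.Projective A
      (L₁.Mp ⧸ coeffIdeal (R := M.Ap A) s.1 • (⊤ : Submodule (M.Ap A) L₁.Mp)) :=
    Module.Projective.of_equiv eq.symm
  refine ⟨coeffIdeal s.1, ⟨⟨finite_quotient_of_invertible (P := L₁.Mp) _,
    projective_quotient_of_invertible (P := L₁.Mp) _, fun p => ?_⟩, L₁, h1, hg.isSub hs'⟩, ?_⟩
  · rw [rankAtStalk_quotient_of_invertible (P := L₁.Mp), Module.rankAtStalk_eq_of_equiv eq,
      unit_H1_rank]
  rintro I' ⟨hI', L₁', h1', h2'⟩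
  obtain ⟨f, -, -, -, hp, hsat⟩ :=
    IsSub.congr h2' (IsSub.unique h1' h1) (Equivalent.refl (LineData.unit M A))
  have := hI'.finite
  have hv : (f.fp (1 : M.Ap A), f.fm (1 : M.Am A)) ∈ L₁.H0 := by
    rw [mem_H0_iff, ← f.comm_p, ← f.comm_m]
    congr 1
    show M.ipA A 1 = M.imA A 1
    rw [map_one, map_one]
  obtain ⟨a, ha⟩ := hH _ hv
  have ha1 : f.fp (1 : M.Ap A) = a • s.1 := congrArg Prod.fst ha
  have ha2 : f.fm (1 : M.Am A) = a • s.2 := congrArg Prod.snd ha
  have hu : IsUnit a := by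
    have h := isUnit_of_isSub he φ hφ f hp hsat
    rwa [ha2, map_smul_base, hs1, mul_one] at h
  refine eq_of_smul_top_eq (P := L₁.Mp) ?_
  rw [← hp, coeffIdeal_smul_top, ← Submodule.span_singleton_smul_eq
    (hu.map (algebraMap A (M.Ap A))) s.1, IsScalarTower.algebraMap_smul, ← ha1]
  apply le_antisymm
  · rintro _ ⟨c, rfl⟩
    refine Submodule.mem_span_singleton.2 ⟨c, ?_⟩
    rw [← map_smul, smul_eq_mul, mul_one]
  · rw [Submodule.span_singleton_le_iff_mem]
    exact ⟨_, rfl⟩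

theorem exists_of_divisor (hD : ChartData M n J) (he : e M.y = 0) {I : Ideal (M.Ap A)}
    (hI : IsDivDeg I M.genus) :
    ∃ L : LineData M A, L.Corresp n J I ∧ Rigidifiable e L ∧ L.FibreDeg 0 := by
  have := hD.finite
  obtain ⟨L₁, h2⟩ := exists_isSub_of_right (LineData.unit M A) hI
  obtain ⟨L', h1⟩ := exists_isSub_of_right L₁ (isDivDeg_constIdeal (A := A) (J := J))
  have h1' : IsSub ((L'.twist (-(n : ℤ))).twist n) L₁ (M.constIdeal A J) :=
    IsSub.congr h1 (equivalent_twist_twist L' (neg_add_cancel _)) (Equivalent.refl L₁)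
  refine ⟨L'.twist (-(n : ℤ)), ⟨L₁, h1', h2⟩, ?_, fibreDeg_zero hD.le hD.rank hI h1' h2⟩
  exact (rigidifiable_twist_iff _).2 ((rigidifiable_isSub_iff he isDivDeg_constIdeal h1).2
    ((rigidifiable_isSub_iff he hI h2).2 (rigidifiable_unit e)))

theorem Corresp.equivalent (hD : ChartData M n J) {I : Ideal (M.Ap A)}
    (hI : IsDivDeg I M.genus) {L L' : LineData M A} (h : L.Corresp n J I)
    (h' : L'.Corresp n J I) : Equivalent L L' := by
  have := hD.finite
  obtain ⟨L₁, h1, h2⟩ := h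
  obtain ⟨L₁', h1', h2'⟩ := h'
  exact (equivalent_twist_iff _).1 (IsSub.unique_left isDivDeg_constIdeal h1
    (IsSub.congr h1' (Equivalent.refl _) (IsSub.unique_left hI h2' h2)))

theorem Corresp.congr {I : Ideal (M.Ap A)} {L L' : LineData M A} (h : L.Corresp n J I)
    (h' : Equivalent L L') : L'.Corresp n J I := by
  obtain ⟨L₁, h1, h2⟩ := h
  exact ⟨L₁, IsSub.congr h1 ((equivalent_twist_iff _).2 h') (Equivalent.refl L₁), h2⟩

theorem Corresp.bc (hD : ChartData M n J) {I : Ideal (M.Ap A)} (hI : IsDivDeg I M.genus)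
    {f : A →ₐ[k] B} {L : LineData M A} {L' : LineData M B} (h : L.Corresp n J I)
    (b : IsBC f L L') : L'.Corresp n J (I.map (M.mapP f)) := by
  have := hD.finite
  obtain ⟨L₁, h1, h2⟩ := h
  obtain ⟨L₁', b₁⟩ := exists_bc f L₁
  exact ⟨L₁', isSub_bc_constIdeal h1 b b₁, IsSub.bc hI h2 b₁ (isBC_unit f)⟩

theorem InChart.congr {L L' : LineData M A} (h : L.InChart n J) (h' : Equivalent L L') :
    L'.InChart n J := by
  refine ⟨fun K _ _ _ f N b => h.1 K f N (IsBC.congr b (Equivalent.symm h') (Equivalent.refl N)),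
    fun q hq L₁ L₂ h1 h2 => h.2 q hq L₁ L₂ ?_ h2⟩
  exact IsSub.congr h1 ((equivalent_twist_iff _).2 (Equivalent.symm h')) (Equivalent.refl L₁)

theorem InChart.bc (hD : ChartData M n J) {f : A →ₐ[k] B} {L : LineData M A} {L' : LineData M B}
    (h : L.InChart n J) (b : IsBC f L L') : L'.InChart n J := by
  have := hD.finite
  refine ⟨fun K _ _ _ g N bN => h.1 K (g.comp f) N (IsBC.trans b bN),
    fun q hq L₁' L₂' h1' h2' => ?_⟩
  obtain ⟨L₁, h1⟩ := exists_isSub (L.twist n) (isDivDeg_constIdeal (A := A) (J := J))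
  obtain ⟨L₂, h2⟩ := exists_isSubm_pole L₁ q
  obtain ⟨N₂, b₂⟩ := exists_bc f L₂
  exact (pole_acyclic_iff h1 h2 b h1' h2' b₂).2 (Acyclic.bc (h.2 q hq L₁ L₂ h1 h2) b₂)

theorem exists_inChart_locus (hD : ChartData M n J) {L : LineData M A} (hL : L.FibreDeg 0) :
    ∃ U : Set (PrimeSpectrum A), IsOpen U ∧
      ∀ {B : Type u} [CommRing B] [Algebra k B] (f : A →ₐ[k] B) (L' : LineData M B),
        IsBC f L L' → (L'.InChart n J ↔ Set.range (PrimeSpectrum.comap f.toRingHom) ⊆ U) := by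
  have := hD.finite
  obtain ⟨L₁, h1⟩ := exists_isSub (L.twist n) (isDivDeg_constIdeal (A := A) (J := J))
  choose L₂ h2 using fun q => exists_isSubm_pole L₁ q
  choose U hU _ hU' using fun q => exists_acyclic_locus (L₂ q)
  refine ⟨⋂ q ∈ {q : M.Rm →ₐ[k] k | q M.y = 0}, U q,
    (finite_poles_aux M).isOpen_biInter fun q _ => hU q, fun {B} _ _ f L' b => ?_⟩
  rw [Set.subset_iInter₂_iff]
  constructor
  · intro h q hq
    obtain ⟨L₁', h1'⟩ := exists_isSub (L'.twist n) (isDivDeg_constIdeal (A := B) (J := J))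
    obtain ⟨L₂', h2'⟩ := exists_isSubm_pole L₁' q
    obtain ⟨N₂, b₂⟩ := exists_bc f (L₂ q)
    exact (hU' q f N₂ b₂).1 ((pole_acyclic_iff h1 (h2 q) b h1' h2' b₂).1
      (h.2 q hq L₁' L₂' h1' h2'))
  · refine fun h => ⟨fun K _ _ _ g N bN => hL K (g.comp f) N (IsBC.trans b bN),
      fun q hq L₁' L₂' h1' h2' => ?_⟩
    obtain ⟨N₂, b₂⟩ := exists_bc f (L₂ q)
    exact (pole_acyclic_iff h1 (h2 q) b h1' h2' b₂).2 ((hU' q f N₂ b₂).2 (h q hq))

theorem finite_poles (M : Model k) : {q : M.Rm →ₐ[k] k | q M.y = 0}.Finite :=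
  finite_poles_aux M

end FLTAgent.Jac
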