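import Fermat.Agent.Jac.Coh.Twist

/-! # S25: cohomology and base change -/

set_option autoImplicit false

universe u

open TensorProduct

namespace FLTAgent.Jac

open LineData

variable {k : Type u} [Field k] {M : Model k} {A : Type u} [CommRing A] [Algebra k A]
  {B : Type u} [CommRing B] [Algebra k B]

theorem finite_H1 (L : LineData M A) : Module.Finite A L.H1 := Coh.finite_quot L

theorem finite_H0_of_field {K : Type u} [Field K] [Algebra k K] (L : LineData M K) :
    Module.Finite K L.H0 := Coh.finite_ker_field L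

theorem Acyclic.finite_H0 {L : LineData M A} (h : L.Acyclic) : Module.Finite A L.H0 :=
  Coh.finite_ker_of_surjective h

theorem Acyclic.projective_H0 {L : LineData M A} (h : L.Acyclic) :
    Module.Projective A L.H0 := Coh.projective_ker_of_surjective h

theorem Acyclic.bc {f : A →ₐ[k] B} {L : LineData M A} {L' : LineData M B} (h : L.Acyclic)
    (b : IsBC f L L') : L'.Acyclic := by
  obtain ⟨φ, hp, -⟩ := b
  exact Coh.diff_surjective_bc h φ hp

/-- `H⁰` commutes with base change for acyclic bundles. -/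
theorem Acyclic.span_H0 {f : A →ₐ[k] B} {L : LineData M A} {L' : LineData M B} (h : L.Acyclic)
    (φ : BCHom f L L') (hp : Submodule.span (M.Ap B) (Set.range φ.fp) = ⊤)
    (hm : Submodule.span (M.Am B) (Set.range φ.fm) = ⊤) :
    Submodule.span B ((fun v : L.Mp × L.Mm => (φ.fp v.1, φ.fm v.2)) '' (L.H0 : Set _)) =
      L'.H0 := Coh.span_ker_of_surjective h φ hp hm

theorem Acyclic.rankAtStalk_H0 {L : LineData M A} (h : L.Acyclic) {K : Type u} [Field K]
    [Algebra k K] (f : A →ₐ[k] K) {L' : LineData M K} (b : IsBC f L L')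
    (p : PrimeSpectrum A) (hp : p.asIdeal = RingHom.ker f) :
    (Module.rankAtStalk (R := A) L.H0 p : ℤ) = L'.chi := by
  obtain ⟨φ, hfp, hfm⟩ := b
  let _ : Algebra A K := f.toRingHom.toAlgebra
  obtain ⟨e⟩ := Coh.exists_equiv_ker h φ hfp hfm
  have := Acyclic.finite_H0 h
  have := Acyclic.projective_H0 h
  have h' : L'.Acyclic := Coh.diff_surjective_bc h φ hfp
  have : Subsingleton L'.H1 := Submodule.Quotient.subsingleton_iff.mpr
    (LinearMap.range_eq_top.mpr h')
  let q : PrimeSpectrum K := ⟨⊥, Ideal.bot_prime⟩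
  have hq : PrimeSpectrum.comap (algebraMap A K) q = p := PrimeSpectrum.ext hp.symm
  have key : Module.rankAtStalk (R := A) L.H0 p = Module.finrank K L'.H0 := by
    rw [← hq, ← Module.rankAtStalk_baseChange (M := L.H0) (S := K) q,
      Module.rankAtStalk_eq_finrank_of_free]
    exact e.finrank_eq
  rw [key, LineData.chi, Module.finrank_zero_of_subsingleton (R := K) (M := L'.H1)]
  simp

/-- The locus where `H¹` of the fibre vanishes is open and computes vanishing after base change. -/
theorem exists_acyclic_locus (L : LineData M A) :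
    ∃ U : Set (PrimeSpectrum A), IsOpen U ∧ (L.Acyclic ↔ U = Set.univ) ∧
      ∀ {B : Type u} [CommRing B] [Algebra k B] (f : A →ₐ[k] B) (L' : LineData M B),
        IsBC f L L' → (L'.Acyclic ↔ Set.range (PrimeSpectrum.comap f.toRingHom) ⊆ U) := by
  have := Coh.finite_quot L
  refine ⟨(Module.support A L.H1)ᶜ, (Module.isClosed_support).isOpen_compl, ?_, ?_⟩
  · rw [Set.compl_univ_iff, Module.support_eq_empty_iff, Submodule.Quotient.subsingleton_iff,
      LinearMap.range_eq_top]
    rfl
  · intro B _ _ f L' b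
    obtain ⟨φ, hp, hm⟩ := b
    let _ : Algebra A B := f.toRingHom.toAlgebra
    rw [Coh.acyclic_iff_subsingleton φ hp hm, Coh.subsingleton_tensor_iff]
    rfl

theorem exists_acyclic_twist (L : LineData M A) :
    ∃ n₀ : ℕ, ∀ n : ℕ, n₀ ≤ n → (L.twist n).Acyclic := Coh.exists_twist_surjective L

theorem chi_twist {K : Type u} [Field K] [Algebra k K] (L : LineData M K) (i : ℤ) :
    (L.twist i).chi = L.chi + i * M.d := Coh.chi_twist_eq L i

theorem chi_congr {K : Type u} [Field K] [Algebra k K] {L L' : LineData M K}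
    (h : Equivalent L L') : L.chi = L'.chi := by
  obtain ⟨f, hp, hm, hn⟩ := h
  let ep : L.Mp ≃ₗ[K] L'.Mp := (LinearEquiv.ofBijective f.fp hp).restrictScalars K
  let em : L.Mm ≃ₗ[K] L'.Mm := (LinearEquiv.ofBijective f.fm hm).restrictScalars K
  let en : L.N ≃ₗ[K] L'.N := (LinearEquiv.ofBijective f.fn hn).restrictScalars K
  let e := ep.prodCongr em
  have hd : L'.diff.comp e.toLinearMap = en.toLinearMap.comp L.diff := by
    refine LinearMap.ext fun v => ?_
    show L'.ρp (f.fp v.1) - L'.ρm (f.fm v.2) = f.fn (L.ρp v.1 - L.ρm v.2)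
    rw [map_sub, f.comm_p, f.comm_m]
  have h0 : L.H0.map e.toLinearMap = L'.H0 := by
    ext v
    obtain ⟨w, rfl⟩ := e.surjective v
    rw [Submodule.mem_map_equiv, e.symm_apply_apply, LinearMap.mem_ker, LinearMap.mem_ker,
      ← LinearEquiv.coe_toLinearMap, ← LinearMap.comp_apply, hd, LinearMap.comp_apply,
      LinearEquiv.coe_toLinearMap, LinearEquiv.map_eq_zero_iff]
  have h1 : (LinearMap.range L.diff).map en.toLinearMap = LinearMap.range L'.diff := by
    rw [← LinearMap.range_comp, ← hd, LinearMap.range_comp, LinearEquiv.range, Submodule.map_top]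
  rw [LineData.chi, LineData.chi, (e.ofSubmodules _ _ h0).finrank_eq,
    (Submodule.Quotient.equiv _ _ en h1).finrank_eq]

namespace Coh

/-- Twisting a base change map. -/
noncomputable def twistHom {f : A →ₐ[k] B} {L : LineData M A} {L' : LineData M B}
    (φ : BCHom f L L') (n : ℕ) : BCHom f (L.twist n) (L'.twist n) where
  fp := φ.fp
  fm := φ.fm
  fn := φ.fn
  comm_p := φ.comm_p
  comm_m m := by
    show φ.fn ((↑(M.xU A ^ (n : ℤ)) : M.Apm A) • L.ρm m) =
      (↑(M.xU B ^ (n : ℤ)) : M.Apm B) • L'.ρm (φ.fm m)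
    rw [LinearMap.map_smulₛₗ, ← φ.comm_m, zpow_natCast, zpow_natCast, Units.val_pow_eq_pow_val,
      Units.val_pow_eq_pow_val]
    congr 1
    show M.mapPM f ((M.xU A : M.Apm A) ^ n) = _
    rw [map_pow, mapPM_xU]

theorem bc_self (L : LineData M A) : IsBC (AlgHom.id k A) L L :=
  ⟨{ fp := ⟨AddHom.mk id fun _ _ => rfl, fun c m => by simp [Model.mapP]⟩
     fm := ⟨AddHom.mk id fun _ _ => rfl, fun c m => by simp [Model.mapM]⟩
     fn := ⟨AddHom.mk id fun _ _ => rfl, fun c m => by simp [Model.mapPM]⟩
     comm_p := fun _ => rfl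
     comm_m := fun _ => rfl }, eq_top_iff.mpr fun v _ => Submodule.subset_span ⟨v, rfl⟩,
    eq_top_iff.mpr fun v _ => Submodule.subset_span ⟨v, rfl⟩⟩

theorem bc_unit (f : A →ₐ[k] B) : IsBC f (LineData.unit M A) (LineData.unit M B) := by
  have hP : ∀ z, M.mapPM f (M.ipA A z) = M.ipA B (M.mapP f z) := by
    intro z
    induction z using TensorProduct.induction_on with
    | zero => simp
    | tmul a r => simp [Model.mapPM, Model.mapP, Model.ipA]
    | add z z' h h' => simp only [map_add, h, h']
  have hM : ∀ z, M.mapPM f (M.imA A z) = M.imA B (M.mapM f z) := by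
    intro z
    induction z using TensorProduct.induction_on with
    | zero => simp
    | tmul a r => simp [Model.mapPM, Model.mapM, Model.imA]
    | add z z' h h' => simp only [map_add, h, h']
  exact ⟨{ fp := ⟨⟨M.mapP f, map_add _⟩, map_mul (M.mapP f)⟩
           fm := ⟨⟨M.mapM f, map_add _⟩, map_mul (M.mapM f)⟩
           fn := ⟨⟨M.mapPM f, map_add _⟩, map_mul (M.mapPM f)⟩
           comm_p := hP
           comm_m := hM },
    eq_top_iff.mpr fun v _ => by
      have := Submodule.smul_mem
        (Submodule.span (M.Ap B) (Set.range fun z => M.mapP f z)) v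
        (Submodule.subset_span ⟨1, map_one _⟩)
      rwa [smul_eq_mul, mul_one] at this,
    eq_top_iff.mpr fun v _ => by
      have := Submodule.smul_mem
        (Submodule.span (M.Am B) (Set.range fun z => M.mapM f z)) v
        (Submodule.subset_span ⟨1, map_one _⟩)
      rwa [smul_eq_mul, mul_one] at this⟩

end Coh

theorem exists_isLocallyConstant_chi (L : LineData M A) :
    ∃ χ : PrimeSpectrum A → ℤ, IsLocallyConstant χ ∧
      ∀ {K : Type u} [Field K] [Algebra k K] (f : A →ₐ[k] K) (L' : LineData M K),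
        IsBC f L L' → ∀ p : PrimeSpectrum A, p.asIdeal = RingHom.ker f → L'.chi = χ p := by
  obtain ⟨n, hn⟩ := Coh.exists_twist_surjective L
  have h := hn n le_rfl
  have := Acyclic.finite_H0 h
  have := Acyclic.projective_H0 h
  have := Module.finitePresentation_of_projective A (L.twist n).H0
  refine ⟨fun p => (Module.rankAtStalk (R := A) (L.twist n).H0 p : ℤ) - n * M.d,
    (Module.isLocallyConstant_rankAtStalk.comp fun r : ℕ => (r : ℤ) - n * M.d), ?_⟩
  intro K _ _ f L' b p hp
  obtain ⟨φ, hfp, hfm⟩ := b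
  show L'.chi = (Module.rankAtStalk (R := A) (L.twist n).H0 p : ℤ) - n * M.d
  rw [Acyclic.rankAtStalk_H0 h f ⟨Coh.twistHom φ n, hfp, hfm⟩ p hp, Coh.chi_twist_eq]
  ring

theorem chi_bc {K K' : Type u} [Field K] [Algebra k K] [Field K'] [Algebra k K']
    (f : K →ₐ[k] K') {L : LineData M K} {L' : LineData M K'} (b : IsBC f L L') :
    L'.chi = L.chi := by
  obtain ⟨χ, -, hχ⟩ := exists_isLocallyConstant_chi L
  let p : PrimeSpectrum K := ⟨⊥, Ideal.bot_prime⟩
  rw [hχ f L' b p (RingHom.ker_eq_bot_iff_eq_zero _ |>.mpr fun x hx => by simpa using hx).symm,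
    hχ (AlgHom.id k K) L (Coh.bc_self L) p
      (RingHom.ker_eq_bot_iff_eq_zero _ |>.mpr fun x hx => by simpa using hx).symm]

/-- `Γ(C_A, O) = A`. -/
theorem glob_A (a : M.Ap A) (b : M.Am A) (h : M.ipA A a = M.imA A b) :
    ∃ r : A, a = algebraMap A (M.Ap A) r ∧ b = algebraMap A (M.Am A) r :=
  Coh.sections_const a b h

theorem chi_unit (K : Type u) [Field K] [Algebra k K] :
    (LineData.unit M K).chi = 1 - (M.genus : ℤ) := by
  rw [chi_bc (Algebra.ofId k K) (Coh.bc_unit (M := M) (Algebra.ofId k K))]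
  let ι : k →ₗ[k] (LineData.unit M k).H0 :=
    LinearMap.codRestrict _
      ((Algebra.linearMap k (M.Ap k)).prod (Algebra.linearMap k (M.Am k)))
      fun c => by
        show M.ipA k (algebraMap k (M.Ap k) c) - M.imA k (algebraMap k (M.Am k) c) = 0
        rw [AlgHom.commutes, AlgHom.commutes, sub_self]
  have hι : Function.Bijective ι := by
    refine ⟨fun c c' h => ?_, fun ⟨v, hv⟩ => ?_⟩
    · have h1 : M.ipA k (algebraMap k (M.Ap k) c) = M.ipA k (algebraMap k (M.Ap k) c') :=
        congrArg (fun z : (LineData.unit M k).H0 => M.ipA k (z : M.Ap k × M.Am k).1) h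
      have e := Algebra.TensorProduct.lid k M.Rpm
      rw [AlgHom.commutes, AlgHom.commutes] at h1
      have h2 := congrArg (Algebra.TensorProduct.lid k M.Rpm) h1
      simp only [AlgEquiv.commutes] at h2
      exact (algebraMap k M.Rpm).injective h2
    · obtain ⟨r, h1, h2⟩ := Coh.sections_const v.1 v.2 (sub_eq_zero.mp hv)
      exact ⟨r, Subtype.ext (Prod.ext h1.symm h2.symm)⟩
  rw [LineData.chi, ← (LinearEquiv.ofBijective ι hι).finrank_eq, Module.finrank_self]
  rfl

end FLTAgent.Jac
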