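import Fermat.Agent.Jac.Deg.Points

/-! # S25: degrees over an algebraically closed field and the covering -/

set_option autoImplicit false
set_option linter.style.haveILetI false

universe u

open TensorProduct

namespace FLTAgent.Jac

open LineData

variable {k : Type u} [Field k] {M : Model k} {A : Type u} [CommRing A] [Algebra k A]
  {B : Type u} [CommRing B] [Algebra k B]

variable {K : Type u} [Field K] [Algebra k K]

theorem IsSub.chi {L L' : LineData M K} {I : Ideal (M.Ap K)} {r : ℕ} (hI : IsDivDeg I r)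
    (h : IsSub L L' I) : L'.chi = L.chi - r := isSub_chi hI h

theorem IsSubm.chi {L L' : LineData M K} {J : Ideal (M.Am K)}
    {r : ℕ} (hJ : IsDivDeg (M := M.swap) J r) (h : IsSubm L L' J) : L'.chi = L.chi - r :=
  isSubm_chi hJ h

theorem IsSub.acyclic {L L' : LineData M A} {I : Ideal (M.Ap A)} {r : ℕ} (hI : IsDivDeg I r)
    (h : IsSub L L' I) (h' : L'.Acyclic) : L.Acyclic := isSub_acyclic hI h h'

/-- A nonzero section cuts out an effective divisor. -/
theorem exists_divisor_of_H0_ne_bot [IsAlgClosed K] (L : LineData M K) (h : L.H0 ≠ ⊥) :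
    ∃ (L₁ : LineData M K) (I : Ideal (M.Ap K)) (J : Ideal (M.Am K)) (r s : ℕ),
      IsDivDeg I r ∧ IsDivDeg (M := M.swap) J s ∧ IsSub L L₁ I ∧
        IsSubm L₁ (LineData.unit M K) J ∧ L.chi = 1 - (M.genus : ℤ) + r + s :=
  exists_divisor L h

theorem H0_eq_bot_of_chi_lt [IsAlgClosed K] (L : LineData M K)
    (h : L.chi < 1 - (M.genus : ℤ)) : L.H0 = ⊥ := by
  by_contra hne
  obtain ⟨_, _, _, r, s, -, -, -, -, he⟩ := exists_divisor L hne
  omega

/-- A bundle of degree zero with a section is trivial. -/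
theorem equivalent_unit_of_chi_eq [IsAlgClosed K] (L : LineData M K) (h : L.H0 ≠ ⊥)
    (hchi : L.chi = 1 - (M.genus : ℤ)) : Equivalent L (LineData.unit M K) := by
  obtain ⟨L₁, I, J, r, s, hI, hJ, h₁, h₂, he⟩ := exists_divisor L h
  obtain rfl : r = 0 := by omega
  obtain rfl : s = 0 := by omega
  rw [eq_top_of_isDivDeg_zero hI] at h₁
  rw [show J = ⊤ from eq_top_of_isDivDeg_zero (M := M.swap) hJ] at h₂
  exact Equivalent.symm (Equivalent.trans (equivalent_of_isSubm_top h₂)
    (equivalent_of_isSub_top h₁))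

variable (M) in
/-- Uniform vanishing of `H¹` in large degree. -/
theorem exists_degree_bound : ∃ N₀ : ℤ, ∀ (K : Type u) [Field K] [Algebra k K] [IsAlgClosed K]
    (L : LineData M K), N₀ ≤ L.chi → L.Acyclic := by
  obtain ⟨n₀, hn₀⟩ := exists_acyclic_twist (LineData.unit M k)
  refine ⟨1 + (n₀ : ℤ) * M.d, fun K _ _ _ L hL => ?_⟩
  have hu : ((LineData.unit M K).twist n₀).Acyclic :=
    Acyclic.bc (hn₀ n₀ le_rfl) (IsBC.twist (isBC_unit (Algebra.ofId k K)) n₀)
  have hc := chi_twist L (-(n₀ : ℤ))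
  have hne : (L.twist (-(n₀ : ℤ))).H0 ≠ ⊥ := fun h0 => by
    rw [LineData.chi, h0, finrank_bot] at hc
    rw [neg_mul] at hc
    omega
  obtain ⟨L₁, I, J, r, s, hI, hJ, h₁, h₂, -⟩ := exists_divisor _ hne
  exact acyclic_twist_cancel L n₀
    (isSub_acyclic hI (isSub_twist h₁ n₀) (isSubm_acyclic hJ (isSubm_twist h₂ n₀) hu))

variable (M) in
/-- Every bundle of degree zero lies in one of the charts attached to a fixed twist. -/
theorem exists_chart_param [IsAlgClosed k] :
    ∃ n : ℕ, M.genus ≤ n * M.d ∧ ∀ (K : Type u) [Field K] [Algebra k K] [IsAlgClosed K]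
      (L : LineData M K), L.chi = (LineData.unit M k).chi →
        ∃ J : Ideal M.Rp, Module.Finite k (M.Rp ⧸ J) ∧
          Module.finrank k (M.Rp ⧸ J) = n * M.d - M.genus ∧ L.InChart n J := by
  obtain ⟨N₀, hN₀⟩ := exists_degree_bound M
  set n : ℕ := M.genus + N₀.toNat + M.genus + 1
  have hnd : n ≤ n * M.d := Nat.le_mul_of_pos_right n M.d_pos
  refine ⟨n, by omega, fun K _ _ _ L hL => ?_⟩
  rw [chi_unit] at hL
  have hT : (L.twist n).chi = 1 - (M.genus : ℤ) + ((n * M.d : ℕ) : ℤ) := by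
    rw [chi_twist, hL, Nat.cast_mul]
  have step : ∀ j : ℕ, j ≤ n * M.d - M.genus → ∃ J : Ideal M.Rp, Module.Finite k (M.Rp ⧸ J) ∧
      Module.finrank k (M.Rp ⧸ J) = j ∧ GoodDiv n L J := by
    intro j
    induction j with
    | zero =>
      intro _
      haveI : Subsingleton (M.Rp ⧸ (⊤ : Ideal M.Rp)) :=
        Ideal.Quotient.subsingleton_iff.2 rfl
      refine ⟨⊤, inferInstance, Module.finrank_zero_of_subsingleton,
        fun q _ L₁ L₂ h₁ h₂ => hN₀ K L₂ ?_⟩
      rw [chi_of_subs h₁ h₂, Module.finrank_zero_of_subsingleton, hT]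
      omega
    | succ j ih =>
      intro hj
      obtain ⟨J, hfin, hrk, hgood⟩ := ih (by omega)
      haveI := hfin
      obtain ⟨J', hfin', hrk', hgood'⟩ := exists_good_step
        (by rw [hT, hrk]; omega) hgood
      exact ⟨J', hfin', by rw [hrk', hrk], hgood'⟩
  obtain ⟨J, hfin, hrk, hgood⟩ := step _ le_rfl
  refine ⟨J, hfin, hrk, fun K' _ _ _ f L' hb => ?_, hgood⟩
  rw [chi_bc f hb, hL, chi_unit, add_zero]

end FLTAgent.Jac
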