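import Fermat.Agent.Jac.Geom
import Fermat.Agent.Jac.Dict.Sections
import Fermat.Agent.Jac.Dict.Unit
import Fermat.Agent.Jac.Dict.Pullback
import Fermat.Agent.Jac.Dict.Rigid

/-! # S25: sheaves on `C × Spec A` versus line bundle data -/

set_option autoImplicit false

universe u

open CategoryTheory CategoryTheory.Limits AlgebraicGeometry AlgebraicGeometry.RelPicard
  NeronModelInfra

namespace FLTAgent.Jac

variable {k : Type u} [Field k] {C : Scheme.{u}} {c : C ⟶ Spec (CommRingCat.of k)}
  {ε : SchemeHomOver (𝟙 (Spec (CommRingCat.of k))) c} {M : Model k}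

/-- `L` describes the sheaf `F`: its sections on the two charts and the overlap. -/
def Realizes (φ : CurveChart c ε M) {A : Type u} [CommRing A] [Algebra k A] (L : LineData M A)
    (F : (pullback c (specOver k A)).Modules) : Prop :=
  Nonempty (F ≅ Dict.sheafOf φ L)

/-- The morphism over `k` given by an algebra map. -/
noncomputable def specHom {A B : Type u} [CommRing A] [Algebra k A] [CommRing B] [Algebra k B]
    (f : A →ₐ[k] B) : SchemeHomOver (specOver k B) (specOver k A) :=
  ⟨Spec.map (CommRingCat.ofHom f.toRingHom), by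
    rw [specOver, ← Spec.map_comp]; congr 1; ext r; exact f.commutes r⟩

variable (φ : CurveChart c ε M) {A : Type u} [CommRing A] [Algebra k A]
  {B : Type u} [CommRing B] [Algebra k B]

theorem exists_realizes {F : (pullback c (specOver k A)).Modules}
    (hF : Scheme.Modules.IsInvertible F) : ∃ L : LineData M A, Realizes φ L F :=
  Dict.exists_lineData φ hF

theorem exists_sheaf (L : LineData M A) :
    ∃ F : (pullback c (specOver k A)).Modules,
      Scheme.Modules.IsInvertible F ∧ Realizes φ L F :=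
  ⟨Dict.sheafOf φ L, Dict.isInvertible_sheafOf L, ⟨Iso.refl _⟩⟩

theorem realizes_iso_iff {L L' : LineData M A} {F F' : (pullback c (specOver k A)).Modules}
    (h : Realizes φ L F) (h' : Realizes φ L' F') :
    Nonempty (F ≅ F') ↔ LineData.Equivalent L L' := by
  obtain ⟨e⟩ := h
  obtain ⟨e'⟩ := h'
  refine ⟨fun ⟨a⟩ => Dict.equivalent_of_iso (e.symm ≪≫ a ≪≫ e'), fun hL => ?_⟩
  obtain ⟨a⟩ := Dict.nonempty_iso_of_equivalent (φ := φ) hL
  exact ⟨e ≪≫ a ≪≫ e'.symm⟩

theorem realizes_unit :
    Realizes φ (LineData.unit M A)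
      (SheafOfModules.unit (pullback c (specOver k A)).ringCatSheaf) :=
  Dict.unit_iso_sheafOf φ

theorem realizes_pullback (f : A →ₐ[k] B) {L : LineData M A} {L' : LineData M B}
    {F : (pullback c (specOver k A)).Modules} (h : Realizes φ L F)
    (b : LineData.IsBC f L L') :
    Realizes φ L' ((Scheme.Modules.pullback (baseChangeSnd c (specHom f))).obj F) := by
  obtain ⟨e⟩ := h
  obtain ⟨e'⟩ := Dict.pullback_sheafOf φ f b
  exact ⟨(Scheme.Modules.pullback (Dict.bcMap c f)).mapIso e ≪≫ e'⟩

theorem realizes_rigidifiable_iff {L : LineData M A} {F : (pullback c (specOver k A)).Modules}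
    (h : Realizes φ L F) :
    Nonempty ((Scheme.Modules.pullback (rigSection c (specOver k A) ε)).obj F ≅
      SheafOfModules.unit (Spec (CommRingCat.of A)).ringCatSheaf) ↔
      LineData.Rigidifiable φ.e L := by
  obtain ⟨e⟩ := h
  rw [← Dict.rigid_iff]
  exact ⟨fun ⟨a⟩ => ⟨((Scheme.Modules.pullback _).mapIso e).symm ≪≫ a ≪≫
      (tildeSelf (R := CommRingCat.of A)).symm⟩,
    fun ⟨a⟩ => ⟨(Scheme.Modules.pullback _).mapIso e ≪≫ a ≪≫
      tildeSelf (R := CommRingCat.of A)⟩⟩

theorem rigidAut (φ : CurveChart c ε M) : RigidAut c ε :=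
  Dict.rigidAut_of_chart φ

end FLTAgent.Jac
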