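import Fermat.Agent.Jac.Ops.Sub

/-! # S25: operations on line bundle data -/

set_option autoImplicit false

universe u

open TensorProduct Polynomial

namespace FLTAgent.Jac

open LineData

variable {k : Type u} [Field k] {M : Model k} {A : Type u} [CommRing A] [Algebra k A]
  {B : Type u} [CommRing B] [Algebra k B]

theorem isDomain_Rp (M : Model k) : IsDomain M.Rp := M.ip_inj.isDomain M.ip.toRingHom

theorem Equivalent.refl (L : LineData M A) : Equivalent L L :=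
  ⟨⟨LinearMap.id, LinearMap.id, LinearMap.id, fun _ => rfl, fun _ => rfl⟩,
    Function.bijective_id, Function.bijective_id, Function.bijective_id⟩

theorem Equivalent.symm {L L' : LineData M A} (h : Equivalent L L') : Equivalent L' L := by
  obtain ⟨f, hp, hm, hn⟩ := h
  let ep := LinearEquiv.ofBijective f.fp hp
  let em := LinearEquiv.ofBijective f.fm hm
  let en := LinearEquiv.ofBijective f.fn hn
  have hp' : ∀ m, f.fp (ep.symm m) = m := ep.apply_symm_apply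
  have hm' : ∀ m, f.fm (em.symm m) = m := em.apply_symm_apply
  have hn' : ∀ m, f.fn (en.symm m) = m := en.apply_symm_apply
  exact ⟨⟨ep.symm.toLinearMap, em.symm.toLinearMap, en.symm.toLinearMap,
    fun m => hn.1 ((hn' _).trans (((f.comm_p _).trans (by rw [LinearEquiv.coe_toLinearMap, hp'])).symm)),
    fun m => hn.1 ((hn' _).trans (((f.comm_m _).trans (by rw [LinearEquiv.coe_toLinearMap, hm'])).symm))⟩,
    ep.symm.bijective, em.symm.bijective, en.symm.bijective⟩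

theorem Equivalent.trans {L L' L'' : LineData M A} (h : Equivalent L L') (h' : Equivalent L' L'') :
    Equivalent L L'' := by
  obtain ⟨f, hp, hm, hn⟩ := h
  obtain ⟨g, hp', hm', hn'⟩ := h'
  exact ⟨⟨g.fp ∘ₗ f.fp, g.fm ∘ₗ f.fm, g.fn ∘ₗ f.fn,
    fun m => by rw [LinearMap.comp_apply, f.comm_p, g.comm_p]; rfl,
    fun m => by rw [LinearMap.comp_apply, f.comm_m, g.comm_m]; rfl⟩,
    hp'.comp hp, hm'.comp hm, hn'.comp hn⟩

theorem equivalent_twist_iff {L L' : LineData M A} (i : ℤ) :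
    Equivalent (L.twist i) (L'.twist i) ↔ Equivalent L L' := by
  constructor
  · rintro ⟨⟨fp, fm, fn, hcp, hcm⟩, hp, hm, hn⟩
    refine ⟨⟨fp, fm, fn, hcp, fun m => ?_⟩, hp, hm, hn⟩
    have h : fn ((↑(M.xU A ^ i) : M.Apm A) • L.ρm m) =
        (↑(M.xU A ^ i) : M.Apm A) • L'.ρm (fm m) := hcm m
    rw [map_smul] at h
    exact (M.xU A ^ i).isUnit.smul_left_cancel.1 h
  · rintro ⟨⟨fp, fm, fn, hcp, hcm⟩, hp, hm, hn⟩
    exact ⟨⟨fp, fm, fn, hcp, fun m => by
      show fn ((↑(M.xU A ^ i) : M.Apm A) • L.ρm m) = (↑(M.xU A ^ i) : M.Apm A) • L'.ρm (fm m)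
      rw [map_smul, hcm]⟩, hp, hm, hn⟩

/-- Twisting back. -/
theorem equivalent_twist_neg_twist (L : LineData M A) (i : ℤ) :
    Equivalent ((L.twist (-i)).twist i) L :=
  ⟨⟨LinearMap.id, LinearMap.id, LinearMap.id, fun _ => rfl, fun m => by
    show (↑(M.xU A ^ i) : M.Apm A) • ((↑(M.xU A ^ (-i)) : M.Apm A) • L.ρm m) = L.ρm m
    rw [smul_smul, ← Units.val_mul, ← zpow_add, add_neg_cancel, zpow_zero, Units.val_one, one_smul]⟩,
    Function.bijective_id, Function.bijective_id, Function.bijective_id⟩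

theorem exists_bc (f : A →ₐ[k] B) (L : LineData M A) : ∃ L', IsBC f L L' := by
  obtain ⟨P, i1, i2, i3, gp, hgp⟩ := Semi.exists_baseChange (M.mapP f).toRingHom L.Mp
  obtain ⟨Q, j1, j2, j3, gm, hgm⟩ := Semi.exists_baseChange (M.mapM f).toRingHom L.Mm
  obtain ⟨N, l1, l2, l3, gn, hgn⟩ := Semi.exists_baseChange (M.mapPM f).toRingHom L.N
  letI : Module (M.Ap B) N := Module.compHom N (M.ipA B).toRingHom
  letI : Module (M.Am B) N := Module.compHom N (M.imA B).toRingHom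
  let kp : L.Mp →ₛₗ[(M.mapP f).toRingHom] N :=
    { toFun := fun m => gn (L.ρp m)
      map_add' := fun a b => by rw [map_add, map_add]
      map_smul' := fun r m => by
        show gn (L.ρp (r • m)) = M.ipA B (M.mapP f r) • gn (L.ρp m)
        rw [Ops.ρp_smul, map_smulₛₗ]
        exact congrArg (· • _) (M.mapPM_ipA f r) }
  let km : L.Mm →ₛₗ[(M.mapM f).toRingHom] N :=
    { toFun := fun m => gn (L.ρm m)
      map_add' := fun a b => by rw [map_add, map_add]
      map_smul' := fun r m => by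
        show gn (L.ρm (r • m)) = M.imA B (M.mapM f r) • gn (L.ρm m)
        rw [Ops.ρm_smul, map_smulₛₗ]
        exact congrArg (· • _) (M.mapPM_imA f r) }
  obtain ⟨rp, hrp, -⟩ := Semi.exists_unique_lift gp hgp kp
  obtain ⟨rm, hrm, -⟩ := Semi.exists_unique_lift gm hgm km
  let ρp' : P →ₛₗ[(M.ipA B).toRingHom] N :=
    { toFun := rp, map_add' := map_add rp, map_smul' := fun r m => rp.map_smul r m }
  let ρm' : Q →ₛₗ[(M.imA B).toRingHom] N :=
    { toFun := rm, map_add' := map_add rm, map_smul' := fun r m => rm.map_smul r m }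
  have sp : Submodule.span (M.Apm B) (Set.range ρp') = ⊤ := by
    refine eq_top_iff.2 ((Semi.span_range_comp L.ρp gn (Ops.span_range_ρp L) hgn).ge.trans
      (Submodule.span_mono ?_))
    rintro _ ⟨m, rfl⟩
    exact ⟨gp m, hrp m⟩
  have sm : Submodule.span (M.Apm B) (Set.range ρm') = ⊤ := by
    refine eq_top_iff.2 ((Semi.span_range_comp L.ρm gn (Ops.span_range_ρm L) hgn).ge.trans
      (Submodule.span_mono ?_))
    rintro _ ⟨m, rfl⟩
    exact ⟨gm m, hrm m⟩
  have surp : ∀ n : N, ∃ (i : ℕ) (m : P), (M.xU B : M.Apm B) ^ i • n = ρp' m := by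
    intro n
    have hn : n ∈ Submodule.span (M.Apm B) (Set.range ρp') := sp ▸ trivial
    induction hn using Submodule.span_induction with
    | mem x hx =>
      obtain ⟨m, rfl⟩ := hx
      exact ⟨0, m, by rw [pow_zero, one_smul]⟩
    | zero => exact ⟨0, 0, by rw [smul_zero, map_zero]⟩
    | add x y _ _ hx hy =>
      obtain ⟨i, m, hm⟩ := hx
      obtain ⟨j, m', hm'⟩ := hy
      refine ⟨i + j, M.xA B ^ j • m + M.xA B ^ i • m', ?_⟩
      rw [map_add, map_smulₛₗ, map_smulₛₗ, ← hm, ← hm']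
      simp only [AlgHom.toRingHom_eq_coe, RingHom.coe_coe, map_pow, M.ipA_xA, smul_smul,
        ← pow_add, smul_add, add_comm j i]
    | smul r x _ hx =>
      obtain ⟨i, m, hm⟩ := hx
      obtain ⟨j, s, hs⟩ := LineData.exists_ipA_eq r
      refine ⟨i + j, s • m, ?_⟩
      rw [map_smulₛₗ, ← hm]
      show _ = M.ipA B s • _
      rw [← hs, smul_smul, smul_smul, pow_add]
      congr 1
      ring
  have surm : ∀ n : N, ∃ (i : ℕ) (m : Q), (↑(M.xU B)⁻¹ : M.Apm B) ^ i • n = ρm' m := by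
    intro n
    have hn : n ∈ Submodule.span (M.Apm B) (Set.range ρm') := sm ▸ trivial
    induction hn using Submodule.span_induction with
    | mem x hx =>
      obtain ⟨m, rfl⟩ := hx
      exact ⟨0, m, by rw [pow_zero, one_smul]⟩
    | zero => exact ⟨0, 0, by rw [smul_zero, map_zero]⟩
    | add x y _ _ hx hy =>
      obtain ⟨i, m, hm⟩ := hx
      obtain ⟨j, m', hm'⟩ := hy
      refine ⟨i + j, M.yA B ^ j • m + M.yA B ^ i • m', ?_⟩
      rw [map_add, map_smulₛₗ, map_smulₛₗ, ← hm, ← hm']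
      simp only [AlgHom.toRingHom_eq_coe, RingHom.coe_coe, map_pow, M.imA_yA, smul_smul,
        ← pow_add, smul_add, add_comm j i]
    | smul r x _ hx =>
      obtain ⟨i, m, hm⟩ := hx
      obtain ⟨j, s, hs⟩ := (LineData.unit M B).ρm_surj r
      refine ⟨i + j, s • m, ?_⟩
      rw [map_smulₛₗ, ← hm]
      show _ = M.imA B s • _
      rw [show M.imA B s = (↑(M.xU B)⁻¹ : M.Apm B) ^ j * r from hs.symm, smul_smul, smul_smul,
        pow_add]
      congr 1
      ring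
  letI : Module B P := Module.compHom P (algebraMap B (M.Ap B))
  letI : Module B Q := Module.compHom Q (algebraMap B (M.Am B))
  letI : Module B N := Module.compHom N (algebraMap B (M.Apm B))
  have : IsScalarTower B (M.Ap B) P := IsScalarTower.of_algebraMap_smul fun _ _ => rfl
  have : IsScalarTower B (M.Am B) Q := IsScalarTower.of_algebraMap_smul fun _ _ => rfl
  have : IsScalarTower B (M.Apm B) N := IsScalarTower.of_algebraMap_smul fun _ _ => rfl
  let L' : LineData M B :=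
    { Mp := P
      Mm := Q
      N := N
      ρp := ρp'
      ρm := ρm'
      ρp_inj := Semi.injective_of_span M.ipA_injective ρp' sp
      ρm_inj := Semi.injective_of_span M.imA_injective ρm' sm
      ρp_surj := surp
      ρm_surj := surm }
  exact ⟨L', ⟨gp, gm, gn, fun m => (hrp m).symm, fun m => (hrm m).symm⟩, hgp, hgm⟩

theorem Ops.span_fn {f : A →ₐ[k] B} {L : LineData M A} {L' : LineData M B} (φ : BCHom f L L')
    (hp : Submodule.span (M.Ap B) (Set.range φ.fp) = ⊤) :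
    Submodule.span (M.Apm B) (Set.range φ.fn) = ⊤ := by
  refine eq_top_iff.2 ((Semi.span_range_comp φ.fp L'.ρp hp (Ops.span_range_ρp L')).ge.trans
    (Submodule.span_mono ?_))
  rintro _ ⟨m, rfl⟩
  exact ⟨L.ρp m, φ.comm_p m⟩

theorem IsBC.unique {f : A →ₐ[k] B} {L : LineData M A} {L₁ L₂ : LineData M B}
    (h₁ : IsBC f L L₁) (h₂ : IsBC f L L₂) : Equivalent L₁ L₂ := by
  obtain ⟨φ, hp, hm⟩ := h₁
  obtain ⟨ψ, hp', hm'⟩ := h₂
  obtain ⟨lp, hlp, -⟩ := Semi.exists_unique_lift φ.fp hp ψ.fp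
  obtain ⟨lm, hlm, -⟩ := Semi.exists_unique_lift φ.fm hm ψ.fm
  obtain ⟨ln, hln, -⟩ := Semi.exists_unique_lift φ.fn (Ops.span_fn φ hp) ψ.fn
  have sp : Function.Surjective lp := by
    rw [← LinearMap.range_eq_top, eq_top_iff, ← hp', Submodule.span_le]
    rintro _ ⟨m, rfl⟩
    exact ⟨φ.fp m, hlp m⟩
  have sm : Function.Surjective lm := by
    rw [← LinearMap.range_eq_top, eq_top_iff, ← hm', Submodule.span_le]
    rintro _ ⟨m, rfl⟩
    exact ⟨φ.fm m, hlm m⟩
  have sn : Function.Surjective ln := by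
    rw [← LinearMap.range_eq_top, eq_top_iff, ← Ops.span_fn ψ hp', Submodule.span_le]
    rintro _ ⟨m, rfl⟩
    exact ⟨φ.fn m, hln m⟩
  refine ⟨⟨lp, lm, ln, fun m => ?_, fun m => ?_⟩, Module.Invertible.bijective_of_surjective sp,
    Module.Invertible.bijective_of_surjective sm, Module.Invertible.bijective_of_surjective sn⟩
  · have hm0 : m ∈ Submodule.span (M.Ap B) (Set.range φ.fp) := hp ▸ trivial
    induction hm0 using Submodule.span_induction with
    | mem x hx =>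
      obtain ⟨a, rfl⟩ := hx
      rw [← φ.comm_p, hln, hlp, ψ.comm_p]
    | zero => simp only [map_zero]
    | add x y _ _ hx hy => simp only [map_add, hx, hy]
    | smul r x _ hx => rw [Ops.ρp_smul, map_smul, hx, map_smul, Ops.ρp_smul]
  · have hm0 : m ∈ Submodule.span (M.Am B) (Set.range φ.fm) := hm ▸ trivial
    induction hm0 using Submodule.span_induction with
    | mem x hx =>
      obtain ⟨a, rfl⟩ := hx
      rw [← φ.comm_m, hln, hlm, ψ.comm_m]
    | zero => simp only [map_zero]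
    | add x y _ _ hx hy => simp only [map_add, hx, hy]
    | smul r x _ hx => rw [Ops.ρm_smul, map_smul, hx, map_smul, Ops.ρm_smul]

theorem IsBC.refl (L : LineData M A) : IsBC (AlgHom.id k A) L L := by
  have hp : ∀ r : M.Ap A, M.mapP (AlgHom.id k A) r = r := fun r => by
    simp [Model.mapP]
  have hm : ∀ r : M.Am A, M.mapM (AlgHom.id k A) r = r := fun r => by
    simp [Model.mapM]
  have hn : ∀ r : M.Apm A, M.mapPM (AlgHom.id k A) r = r := fun r => by
    simp [Model.mapPM]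
  refine ⟨⟨⟨⟨id, fun _ _ => rfl⟩, fun r m => ?_⟩, ⟨⟨id, fun _ _ => rfl⟩, fun r m => ?_⟩,
    ⟨⟨id, fun _ _ => rfl⟩, fun r m => ?_⟩, fun _ => rfl, fun _ => rfl⟩, ?_, ?_⟩
  · exact congrArg (· • m) (hp r).symm
  · exact congrArg (· • m) (hm r).symm
  · exact congrArg (· • m) (hn r).symm
  · exact eq_top_iff.2 fun m _ => Submodule.subset_span ⟨m, rfl⟩
  · exact eq_top_iff.2 fun m _ => Submodule.subset_span ⟨m, rfl⟩

theorem IsBC.trans {D : Type u} [CommRing D] [Algebra k D] {f : A →ₐ[k] B} {g : B →ₐ[k] D}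
    {L : LineData M A} {L' : LineData M B} {L'' : LineData M D} (h : IsBC f L L')
    (h' : IsBC g L' L'') : IsBC (g.comp f) L L'' := by
  obtain ⟨φ, hp, hm⟩ := h
  obtain ⟨ψ, hp', hm'⟩ := h'
  have cp : ∀ r, M.mapP g (M.mapP f r) = M.mapP (g.comp f) r := fun r => by
    simp only [Model.mapP, ← AlgHom.comp_apply, ← Algebra.TensorProduct.map_comp, AlgHom.id_comp]
  have cm : ∀ r, M.mapM g (M.mapM f r) = M.mapM (g.comp f) r := fun r => by
    simp only [Model.mapM, ← AlgHom.comp_apply, ← Algebra.TensorProduct.map_comp, AlgHom.id_comp]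
  have cn : ∀ r, M.mapPM g (M.mapPM f r) = M.mapPM (g.comp f) r := fun r => by
    simp only [Model.mapPM, ← AlgHom.comp_apply, ← Algebra.TensorProduct.map_comp, AlgHom.id_comp]
  refine ⟨⟨⟨⟨fun m => ψ.fp (φ.fp m), fun a b => by simp only [map_add]⟩, fun r m => ?_⟩,
    ⟨⟨fun m => ψ.fm (φ.fm m), fun a b => by simp only [map_add]⟩, fun r m => ?_⟩,
    ⟨⟨fun m => ψ.fn (φ.fn m), fun a b => by simp only [map_add]⟩, fun r m => ?_⟩,
    fun m => ?_, fun m => ?_⟩, Semi.span_range_comp φ.fp ψ.fp hp hp',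
    Semi.span_range_comp φ.fm ψ.fm hm hm'⟩
  · show ψ.fp (φ.fp (r • m)) = M.mapP (g.comp f) r • ψ.fp (φ.fp m)
    rw [map_smulₛₗ, map_smulₛₗ]
    exact congrArg (· • _) (cp r)
  · show ψ.fm (φ.fm (r • m)) = M.mapM (g.comp f) r • ψ.fm (φ.fm m)
    rw [map_smulₛₗ, map_smulₛₗ]
    exact congrArg (· • _) (cm r)
  · show ψ.fn (φ.fn (r • m)) = M.mapPM (g.comp f) r • ψ.fn (φ.fn m)
    rw [map_smulₛₗ, map_smulₛₗ]
    exact congrArg (· • _) (cn r)
  · show ψ.fn (φ.fn (L.ρp m)) = L''.ρp (ψ.fp (φ.fp m))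
    rw [φ.comm_p, ψ.comm_p]
  · show ψ.fn (φ.fn (L.ρm m)) = L''.ρm (ψ.fm (φ.fm m))
    rw [φ.comm_m, ψ.comm_m]

theorem IsBC.congr {f : A →ₐ[k] B} {L L₂ : LineData M A} {L' L₂' : LineData M B}
    (h : IsBC f L L') (e : Equivalent L L₂) (e' : Equivalent L' L₂') : IsBC f L₂ L₂' := by
  obtain ⟨φ, hp, hm⟩ := h
  obtain ⟨g, gp, gm, gn⟩ := Equivalent.symm e
  obtain ⟨g', gp', gm', gn'⟩ := e'
  refine ⟨⟨g'.fp.comp (φ.fp.comp g.fp), g'.fm.comp (φ.fm.comp g.fm),
    g'.fn.comp (φ.fn.comp g.fn), fun m => ?_, fun m => ?_⟩, ?_, ?_⟩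
  · show g'.fn (φ.fn (g.fn (L₂.ρp m))) = L₂'.ρp (g'.fp (φ.fp (g.fp m)))
    rw [g.comm_p, φ.comm_p, g'.comm_p]
  · show g'.fn (φ.fn (g.fn (L₂.ρm m))) = L₂'.ρm (g'.fm (φ.fm (g.fm m)))
    rw [g.comm_m, φ.comm_m, g'.comm_m]
  · have : Set.range (g'.fp.comp (φ.fp.comp g.fp)) = g'.fp '' Set.range φ.fp := by
      rw [← Set.range_comp]
      exact gp.2.range_comp fun m => g'.fp (φ.fp m)
    rw [this, Submodule.span_image, hp, Submodule.map_top, LinearMap.range_eq_top.2 gp'.2]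
  · have : Set.range (g'.fm.comp (φ.fm.comp g.fm)) = g'.fm '' Set.range φ.fm := by
      rw [← Set.range_comp]
      exact gm.2.range_comp fun m => g'.fm (φ.fm m)
    rw [this, Submodule.span_image, hm, Submodule.map_top, LinearMap.range_eq_top.2 gm'.2]

theorem IsBC.twist {f : A →ₐ[k] B} {L : LineData M A} {L' : LineData M B} (h : IsBC f L L')
    (i : ℤ) : IsBC f (L.twist i) (L'.twist i) := by
  obtain ⟨⟨fp, fm, fn, hcp, hcm⟩, hp, hm⟩ := h
  refine ⟨⟨fp, fm, fn, hcp, fun m => ?_⟩, hp, hm⟩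
  show fn ((↑(M.xU A ^ i) : M.Apm A) • L.ρm m) = (↑(M.xU B ^ i) : M.Apm B) • L'.ρm (fm m)
  rw [map_smulₛₗ, hcm]
  exact congrArg (· • _) (M.mapPM_xU_zpow f i)

theorem isBC_unit (f : A →ₐ[k] B) : IsBC f (LineData.unit M A) (LineData.unit M B) := by
  refine ⟨⟨⟨⟨M.mapP f, map_add _⟩, map_mul _⟩, ⟨⟨M.mapM f, map_add _⟩, map_mul _⟩,
    ⟨⟨M.mapPM f, map_add _⟩, map_mul _⟩, M.mapPM_ipA f, M.mapPM_imA f⟩, ?_, ?_⟩
  · exact eq_top_iff.2 fun m _ => by
      rw [← mul_one m, ← smul_eq_mul]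
      exact Submodule.smul_mem _ _ (Submodule.subset_span ⟨1, map_one (M.mapP f)⟩)
  · exact eq_top_iff.2 fun m _ => by
      rw [← mul_one m, ← smul_eq_mul]
      exact Submodule.smul_mem _ _ (Submodule.subset_span ⟨1, map_one (M.mapM f)⟩)

theorem IsBC.swap {f : A →ₐ[k] B} {L : LineData M A} {L' : LineData M B} (h : IsBC f L L') :
    IsBC f L.swap L'.swap := by
  obtain ⟨⟨fp, fm, fn, hcp, hcm⟩, hp, hm⟩ := h
  exact ⟨⟨fm, fp, fn, hcm, hcp⟩, hm, hp⟩

theorem isSubm_iff_swap (L L' : LineData M A) (J : Ideal (M.Am A)) :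
    IsSubm L L' J ↔ IsSub L.swap L'.swap J := by
  constructor
  · rintro ⟨⟨fp, fm, fn, hcp, hcm⟩, h1, h2, h3, h4, h5⟩
    exact ⟨⟨fm, fp, fn, hcm, hcp⟩, h2, h1, h3, h4, h5⟩
  · rintro ⟨⟨fp, fm, fn, hcp, hcm⟩, h1, h2, h3, h4, h5⟩
    exact ⟨⟨fm, fp, fn, hcm, hcp⟩, h2, h1, h3, h4, h5⟩

theorem IsDivDeg.map {I : Ideal (M.Ap A)} {r : ℕ} (h : IsDivDeg I r) (f : A →ₐ[k] B) :
    IsDivDeg (I.map (M.mapP f)) r := h.map' f

theorem IsDivDeg.invertible {I : Ideal (M.Ap A)} {r : ℕ} (h : IsDivDeg I r) :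
    Module.Invertible (M.Ap A) I := h.invertible'

theorem isDivDeg_constIdeal {J : Ideal M.Rp} [Module.Finite k (M.Rp ⧸ J)] :
    IsDivDeg (M.constIdeal A J) (Module.finrank k (M.Rp ⧸ J)) := isDivDeg_constIdeal'

theorem isDivDeg_ker_ptP (σ : M.Rp →ₐ[k] A) : IsDivDeg (RingHom.ker (M.ptP σ)) 1 :=
  isDivDeg_ker_ptP' σ

theorem constIdeal_map (f : A →ₐ[k] B) (J : Ideal M.Rp) :
    (M.constIdeal A J).map (M.mapP f) = M.constIdeal B J := by
  have hcomp : (M.mapP f).toRingHom.comp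
      (Algebra.TensorProduct.includeRight (R := k) (A := A) (B := M.Rp)).toRingHom =
      (Algebra.TensorProduct.includeRight (R := k) (A := B) (B := M.Rp)).toRingHom :=
    RingHom.ext fun r => by simp [Model.mapP]
  exact (Ideal.map_map (Algebra.TensorProduct.includeRight (R := k) (A := A) (B := M.Rp)).toRingHom
    (M.mapP f).toRingHom).trans (congrArg (fun g : M.Rp →+* M.Ap B => J.map g) hcomp)

theorem exists_isSub (L : LineData M A) {I : Ideal (M.Ap A)} {r : ℕ} (h : IsDivDeg I r) :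
    ∃ L', IsSub L L' I := by
  obtain ⟨q, I', hq, hI⟩ := Ops.exists_partner h.finite h.projective
  exact Ops.exists_isSub_of_partner L hq hI

theorem IsSub.congr {L L' : LineData M A} {I : Ideal (M.Ap A)} (h : IsSub L L' I)
    {L₂ L₂' : LineData M A} (e : Equivalent L L₂) (e' : Equivalent L' L₂') :
    IsSub L₂ L₂' I := by
  obtain ⟨f, hp, hm, hn, hr, hc⟩ := h
  obtain ⟨g, gp, gm, gn⟩ := e
  obtain ⟨g', gp', gm', gn'⟩ := Equivalent.symm e'
  refine ⟨⟨g.fp ∘ₗ f.fp ∘ₗ g'.fp, g.fm ∘ₗ f.fm ∘ₗ g'.fm, g.fn ∘ₗ f.fn ∘ₗ g'.fn,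
    fun m => ?_, fun m => ?_⟩, gp.1.comp (hp.comp gp'.1), gm.1.comp (hm.comp gm'.1),
    gn.1.comp (hn.comp gn'.1), ?_, fun m => ?_⟩
  · show g.fn (f.fn (g'.fn (L₂'.ρp m))) = L₂.ρp (g.fp (f.fp (g'.fp m)))
    rw [g'.comm_p, f.comm_p, g.comm_p]
  · show g.fn (f.fn (g'.fn (L₂'.ρm m))) = L₂.ρm (g.fm (f.fm (g'.fm m)))
    rw [g'.comm_m, f.comm_m, g.comm_m]
  · rw [LinearMap.range_comp, LinearMap.range_comp_of_range_eq_top _ (LinearMap.range_eq_top.2 gp'.2),
      hr, Submodule.map_smul'', Submodule.map_top, LinearMap.range_eq_top.2 gp.2]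
  · obtain ⟨a, rfl⟩ := gm.2 m
    constructor
    · rintro ⟨b, hb⟩
      obtain ⟨c, hc'⟩ := (hc a).1 ⟨g'.fm b, gm.1 hb⟩
      obtain ⟨d, rfl⟩ := gn'.2 c
      exact ⟨d, (congrArg g.fn hc').trans (g.comm_m a)⟩
    · rintro ⟨b, hb⟩
      obtain ⟨c, hc'⟩ := (hc a).2 ⟨g'.fn b, gn.1 (hb.trans (g.comm_m a).symm)⟩
      obtain ⟨d, rfl⟩ := gm'.2 c
      exact ⟨d, congrArg g.fm hc'⟩

theorem Ops.range_fn_le {L L₁ L₂ : LineData M A} {I : Ideal (M.Ap A)} (f₁ : Hom L₁ L)
    (f₂ : Hom L₂ L) (h₁ : LinearMap.range f₁.fp = I • ⊤) (h₂ : LinearMap.range f₂.fp = I • ⊤) :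
    LinearMap.range f₁.fn ≤ LinearMap.range f₂.fn := by
  rintro _ ⟨n, rfl⟩
  obtain ⟨i, m, hm⟩ := L₁.ρp_surj n
  obtain ⟨m', hm'⟩ : f₁.fp m ∈ LinearMap.range f₂.fp := h₂ ▸ h₁ ▸ LinearMap.mem_range_self f₁.fp m
  refine (Submodule.smul_mem_iff_of_isUnit _ ((M.xU A).isUnit.pow i)).1 ⟨L₂.ρp m', ?_⟩
  rw [f₂.comm_p, hm', ← f₁.comm_p, ← hm, map_smul]

theorem IsSub.unique {L L₁ L₂ : LineData M A} {I : Ideal (M.Ap A)} (h₁ : IsSub L L₁ I)
    (h₂ : IsSub L L₂ I) : Equivalent L₁ L₂ := by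
  obtain ⟨f, hp, hm, hn, hr, hc⟩ := h₁
  obtain ⟨g, gp, gm, gn, gr, gc⟩ := h₂
  have rn : LinearMap.range f.fn = LinearMap.range g.fn :=
    le_antisymm (Ops.range_fn_le f g hr gr) (Ops.range_fn_le g f gr hr)
  have rm : LinearMap.range f.fm = LinearMap.range g.fm := SetLike.ext fun m => by rw [hc, gc, rn]
  have rp : LinearMap.range f.fp = LinearMap.range g.fp := hr.trans gr.symm
  let ep := (LinearEquiv.ofInjective f.fp hp).trans
    ((LinearEquiv.ofEq _ _ rp).trans (LinearEquiv.ofInjective g.fp gp).symm)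
  let em := (LinearEquiv.ofInjective f.fm hm).trans
    ((LinearEquiv.ofEq _ _ rm).trans (LinearEquiv.ofInjective g.fm gm).symm)
  let en := (LinearEquiv.ofInjective f.fn hn).trans
    ((LinearEquiv.ofEq _ _ rn).trans (LinearEquiv.ofInjective g.fn gn).symm)
  have e1 : ∀ m, g.fp (ep m) = f.fp m := fun m => by
    show ((LinearEquiv.ofInjective g.fp gp) (ep m) : L.Mp) = _
    simp [ep]
  have e2 : ∀ m, g.fm (em m) = f.fm m := fun m => by
    show ((LinearEquiv.ofInjective g.fm gm) (em m) : L.Mm) = _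
    simp [em]
  have e3 : ∀ m, g.fn (en m) = f.fn m := fun m => by
    show ((LinearEquiv.ofInjective g.fn gn) (en m) : L.N) = _
    simp [en]
  refine ⟨⟨ep.toLinearMap, em.toLinearMap, en.toLinearMap, fun m => gn ?_, fun m => gn ?_⟩,
    ep.bijective, em.bijective, en.bijective⟩
  · show g.fn (en (L₁.ρp m)) = g.fn (L₂.ρp (ep m))
    rw [e3, f.comm_p, g.comm_p, e1]
  · show g.fn (en (L₁.ρm m)) = g.fn (L₂.ρm (em m))
    rw [e3, f.comm_m, g.comm_m, e2]

theorem IsSub.twist {L L' : LineData M A} {I : Ideal (M.Ap A)} {r : ℕ} (hI : IsDivDeg I r)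
    (h : IsSub L L' I) (i : ℤ) : IsSub (L.twist i) (L'.twist i) I := by
  clear hI
  obtain ⟨⟨fp, fm, fn, hcp, hcm⟩, hp, hm, hn, hr, hc⟩ := h
  refine ⟨⟨fp, fm, fn, hcp, fun m => ?_⟩, hp, hm, hn, hr, fun m => (hc m).trans ?_⟩
  · show fn ((↑(M.xU A ^ i) : M.Apm A) • L'.ρm m) = (↑(M.xU A ^ i) : M.Apm A) • L.ρm (fm m)
    rw [map_smul, hcm]
  · exact (Submodule.smul_mem_iff_of_isUnit (LinearMap.range fn) (M.xU A ^ i).isUnit).symm

theorem exists_isSub_of_right (L' : LineData M A) {I : Ideal (M.Ap A)} {r : ℕ}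
    (h : IsDivDeg I r) : ∃ L, IsSub L L' I := by
  obtain ⟨q, I', hq, hI⟩ := Ops.exists_partner h.finite h.projective
  have hI' : I' * I = Ideal.span {aeval (M.xA A) q} := (mul_comm I' I).trans hI
  obtain ⟨L'', hL''⟩ := Ops.exists_isSub_of_partner L' hq hI'
  exact ⟨L''.twist q.natDegree, IsSub.congr
    (IsSub.twist h (Ops.isSub_dual hL'' hq hI') q.natDegree) (Equivalent.refl _)
    (equivalent_twist_neg_twist L' q.natDegree)⟩

theorem IsSub.unique_left {L₁ L₂ L' : LineData M A} {I : Ideal (M.Ap A)} {r : ℕ}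
    (hI : IsDivDeg I r) (h₁ : IsSub L₁ L' I) (h₂ : IsSub L₂ L' I) : Equivalent L₁ L₂ := by
  obtain ⟨q, I', hq, hII⟩ := Ops.exists_partner hI.finite hI.projective
  exact (equivalent_twist_iff _).1
    (IsSub.unique (Ops.isSub_dual h₁ hq hII) (Ops.isSub_dual h₂ hq hII))

theorem IsSub.trans {L L' L'' : LineData M A} {I I' : Ideal (M.Ap A)} (h : IsSub L L' I)
    (h' : IsSub L' L'' I') : IsSub L L'' (I * I') := by
  obtain ⟨f, hp, hm, hn, hr, hc⟩ := h
  obtain ⟨g, gp, gm, gn, gr, gc⟩ := h'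
  refine ⟨⟨f.fp ∘ₗ g.fp, f.fm ∘ₗ g.fm, f.fn ∘ₗ g.fn, fun m => ?_, fun m => ?_⟩, hp.comp gp,
    hm.comp gm, hn.comp gn, ?_, fun m => ⟨?_, ?_⟩⟩
  · rw [LinearMap.comp_apply, g.comm_p, f.comm_p]; rfl
  · rw [LinearMap.comp_apply, g.comm_m, f.comm_m]; rfl
  · rw [LinearMap.range_comp, gr, Submodule.map_smul'', Submodule.map_top, hr,
      ← Submodule.smul_assoc, smul_eq_mul, mul_comm I I']
  · rintro ⟨a, rfl⟩
    exact ⟨L''.ρm a, by rw [LinearMap.comp_apply, g.comm_m, f.comm_m]; rfl⟩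
  · rintro ⟨n, hn'⟩
    obtain ⟨a, rfl⟩ := (hc m).2 ⟨g.fn n, hn'⟩
    obtain ⟨b, hb⟩ := (gc a).2 ⟨n, hn (hn'.trans (f.comm_m a).symm)⟩
    exact ⟨b, by rw [LinearMap.comp_apply, hb]⟩

theorem IsDivDeg.mul {I I' : Ideal (M.Ap A)} {r r' : ℕ} (h : IsDivDeg I r) (h' : IsDivDeg I' r') :
    IsDivDeg (I * I') (r + r') := h.mul' h'

theorem IsSub.bc {f : A →ₐ[k] B} {L L' : LineData M A} {L₂ L₂' : LineData M B}
    {I : Ideal (M.Ap A)} {r : ℕ} (hI : IsDivDeg I r) (h : IsSub L L' I) (b : IsBC f L L₂)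
    (b' : IsBC f L' L₂') : IsSub L₂ L₂' (I.map (M.mapP f)) := by
  obtain ⟨g, gp, gm, gn, gr, gc⟩ := h
  obtain ⟨φ, hp, hm⟩ := b
  obtain ⟨ψ, hp', hm'⟩ := b'
  obtain ⟨q, hq, hqI⟩ := exists_monic_mem M hI.finite
  obtain ⟨u, v, huv, hu⟩ := M.exists_unit_eq hq
  obtain ⟨lp, hlp, -⟩ := Semi.exists_unique_lift ψ.fp hp' (φ.fp.comp g.fp)
  obtain ⟨lm, hlm, -⟩ := Semi.exists_unique_lift ψ.fm hm' (φ.fm.comp g.fm)
  obtain ⟨ln, hln, -⟩ := Semi.exists_unique_lift ψ.fn (Ops.span_fn ψ hp') (φ.fn.comp g.fn)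
  simp only [LinearMap.comp_apply] at hlp hlm hln
  let F : Hom L₂' L₂ := ⟨lp, lm, ln, fun m => by
      have hm0 : m ∈ Submodule.span (M.Ap B) (Set.range ψ.fp) := hp' ▸ trivial
      induction hm0 using Submodule.span_induction with
      | mem x hx =>
        obtain ⟨a, rfl⟩ := hx
        rw [← ψ.comm_p, hln, hlp, g.comm_p, φ.comm_p]
      | zero => simp only [map_zero]
      | add x y _ _ hx hy => simp only [map_add, hx, hy]
      | smul r x _ hx => rw [Ops.ρp_smul, map_smul, hx, map_smul, Ops.ρp_smul],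
    fun m => by
      have hm0 : m ∈ Submodule.span (M.Am B) (Set.range ψ.fm) := hm' ▸ trivial
      induction hm0 using Submodule.span_induction with
      | mem x hx =>
        obtain ⟨a, rfl⟩ := hx
        rw [← ψ.comm_m, hln, hlm, g.comm_m, φ.comm_m]
      | zero => simp only [map_zero]
      | add x y _ _ hx hy => simp only [map_add, hx, hy]
      | smul r x _ hx => rw [Ops.ρm_smul, map_smul, hx, map_smul, Ops.ρm_smul]⟩
  have hrange : LinearMap.range lp = I.map (M.mapP f) • ⊤ := by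
    refine Eq.trans ?_ (Semi.span_image_smul_top φ.fp hp I)
    rw [← gr, LinearMap.range_eq_map, ← hp', Submodule.map_span, ← Set.range_comp]
    congr 1
    ext z
    constructor
    · rintro ⟨m, rfl⟩
      exact ⟨g.fp m, LinearMap.mem_range_self g.fp m, (hlp m).symm⟩
    · rintro ⟨_, ⟨m, rfl⟩, rfl⟩
      exact ⟨m, hlp m⟩
  have : Module.Invertible (M.Ap B) (I.map (M.mapP f)) := (hI.map' f).invertible'
  have : Module.Invertible (M.Ap B) (I.map (M.mapP f) • ⊤ : Submodule (M.Ap B) L₂.Mp) :=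
    Semi.invertible_smul_top _ L₂.Mp
  have hinj : Function.Injective F.fp := by
    let lp' : L₂'.Mp →ₗ[M.Ap B] (I.map (M.mapP f) • ⊤ : Submodule (M.Ap B) L₂.Mp) :=
      lp.codRestrict _ fun m => hrange ▸ LinearMap.mem_range_self lp m
    have hs : Function.Surjective lp' := fun z => by
      obtain ⟨m, hm⟩ : (z : L₂.Mp) ∈ LinearMap.range lp := hrange.symm ▸ z.2
      exact ⟨m, Subtype.ext hm⟩
    exact fun a c e => (Module.Invertible.bijective_of_surjective hs).1 (Subtype.ext e)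
  have hc : IsCoprime (M.yA B) (M.mapM f u) :=
    ⟨-M.mapM f v, 1, by rw [huv, map_add, map_one, map_mul, M.mapM_yA]; ring⟩
  refine Ops.isSub_of_range F hinj hrange hc fun m => ?_
  have hm0 : m ∈ Submodule.span (M.Am B) (Set.range φ.fm) := hm ▸ trivial
  induction hm0 using Submodule.span_induction with
  | mem x hx =>
    obtain ⟨a, rfl⟩ := hx
    obtain ⟨c, hc'⟩ := Ops.unit_smul_mem_range g gr gc hqI hu a
    refine ⟨ψ.fm c, ?_⟩
    show lm (ψ.fm c) = _
    rw [hlm, hc', map_smulₛₗ]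
    rfl
  | zero => rw [smul_zero]; exact zero_mem _
  | add x y _ _ hx hy => rw [smul_add]; exact add_mem hx hy
  | smul r x _ hx => rw [smul_comm]; exact Submodule.smul_mem _ _ hx

theorem Ops.ptM_map (e : M.Rm →ₐ[k] k) (f : A →ₐ[k] B) (r : M.Am A) :
    M.ptM (Model.constPt e B) (M.mapM f r) = f (M.ptM (Model.constPt e A) r) := by
  induction r using TensorProduct.induction_on with
  | zero => simp
  | add a b ha hb => simp only [map_add, ha, hb]
  | tmul a s => simp [Model.ptM, Model.constPt, Model.mapM]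

theorem rigidifiable_unit (e : M.Rm →ₐ[k] k) :
    Rigidifiable e (LineData.unit M A) := by
  refine ⟨⟨⟨M.ptM (Model.constPt e A), map_add _⟩, map_mul _⟩, fun a =>
    ⟨algebraMap A (M.Am A) a, ?_⟩⟩
  exact (M.ptM (Model.constPt e A)).commutes a

theorem Rigidifiable.congr {e : M.Rm →ₐ[k] k} {L L' : LineData M A} (h : Rigidifiable e L)
    (h' : Equivalent L L') : Rigidifiable e L' := by
  obtain ⟨φ, hφ⟩ := h
  obtain ⟨g, -, gm, -⟩ := Equivalent.symm h'
  exact ⟨φ.comp g.fm, hφ.comp gm.2⟩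

theorem Rigidifiable.bc {e : M.Rm →ₐ[k] k} {f : A →ₐ[k] B} {L : LineData M A} {L' : LineData M B}
    (h : Rigidifiable e L) (b : IsBC f L L') : Rigidifiable e L' := by
  obtain ⟨φ, hφ⟩ := h
  obtain ⟨ψ, -, hm⟩ := b
  letI : Module (M.Am B) B := Module.compHom B (M.ptM (Model.constPt e B)).toRingHom
  let h' : L.Mm →ₛₗ[(M.mapM f).toRingHom] B :=
    { toFun := fun m => f (φ m)
      map_add' := fun a c => by rw [map_add, map_add]
      map_smul' := fun r m => by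
        show f (φ (r • m)) = M.ptM (Model.constPt e B) (M.mapM f r) * f (φ m)
        rw [Ops.ptM_map, ← map_mul, map_smulₛₗ]
        rfl }
  obtain ⟨l, hl, -⟩ := Semi.exists_unique_lift ψ.fm hm h'
  refine ⟨{ toFun := l, map_add' := map_add l, map_smul' := fun r m => l.map_smul r m },
    fun c => ?_⟩
  obtain ⟨a, ha⟩ := hφ 1
  refine ⟨algebraMap B (M.Am B) c • ψ.fm a, ?_⟩
  show l (algebraMap B (M.Am B) c • ψ.fm a) = c
  rw [map_smul, hl]
  show M.ptM (Model.constPt e B) (algebraMap B (M.Am B) c) * f (φ a) = c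
  rw [ha, map_one, mul_one]
  exact (M.ptM (Model.constPt e B)).commutes c

theorem rigidifiable_isSub_iff {e : M.Rm →ₐ[k] k} (he : e M.y = 0) {L L' : LineData M A}
    {I : Ideal (M.Ap A)} {r : ℕ} (hI : IsDivDeg I r) (h : IsSub L L' I) :
    Rigidifiable e L ↔ Rigidifiable e L' := by
  obtain ⟨f, hp, hm, hn, hr, hc⟩ := h
  obtain ⟨q, hq, hqI⟩ := exists_monic_mem M hI.finite
  obtain ⟨u, v, huv, hu⟩ := M.exists_unit_eq hq
  have hu1 : M.ptM (Model.constPt e A) u = 1 := by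
    have hy : M.ptM (Model.constPt e A) (M.yA A) = 0 := by
      simp [Model.ptM, Model.constPt, Model.yA, he]
    rw [huv, map_add, map_one, map_mul, hy, zero_mul, add_zero]
  constructor
  · rintro ⟨φ, hφ⟩
    refine ⟨φ.comp f.fm, fun a => ?_⟩
    obtain ⟨m, rfl⟩ := hφ a
    obtain ⟨m', hm'⟩ := Ops.unit_smul_mem_range f hr hc hqI hu m
    refine ⟨m', ?_⟩
    show φ (f.fm m') = φ m
    rw [hm', map_smulₛₗ]
    show M.ptM (Model.constPt e A) u * φ m = φ m
    rw [hu1, one_mul]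
  · rintro ⟨φ, hφ⟩
    obtain ⟨g, hg⟩ := Ops.exists_preimageMap f.fm hm (u • LinearMap.id)
      fun m => Ops.unit_smul_mem_range f hr hc hqI hu m
    refine ⟨φ.comp g, fun a => ?_⟩
    obtain ⟨m, rfl⟩ := hφ a
    refine ⟨f.fm m, ?_⟩
    have : g (f.fm m) = u • m := hm ((hg _).trans (map_smul f.fm u m).symm)
    show φ (g (f.fm m)) = φ m
    rw [this, map_smulₛₗ]
    show M.ptM (Model.constPt e A) u * φ m = φ m
    rw [hu1, one_mul]

theorem rigidifiable_twist_iff {e : M.Rm →ₐ[k] k} {L : LineData M A} (i : ℤ) :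
    Rigidifiable e (L.twist i) ↔ Rigidifiable e L := Iff.rfl

end FLTAgent.Jac
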