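import Fermat.Agent.Jac.Glue
import Fermat.Agent.Jac.Dict
import Fermat.Agent.Jac.Ops
import Fermat.Agent.Jac.Coh

/-!
# S25: conditions on rigidified bundles coming from conditions on line bundle data
-/

set_option autoImplicit false

universe u

open CategoryTheory CategoryTheory.Limits AlgebraicGeometry AlgebraicGeometry.RelPicard
  NeronModelInfra

namespace FLTAgent.Jac

variable {k : Type u} [Field k] {C : Scheme.{u}} {c : C ⟶ Spec (CommRingCat.of k)}
  {ε : SchemeHomOver (𝟙 (Spec (CommRingCat.of k))) c} {M : Model k}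

/-- Pulling back in two steps. -/
theorem pullbackAlong_comp {T T' T'' : Scheme.{u}} {t : T ⟶ Spec (CommRingCat.of k)}
    {t' : T' ⟶ Spec (CommRingCat.of k)} {t'' : T'' ⟶ Spec (CommRingCat.of k)}
    (Mb : RigidifiedLineBundle c ε t) (ψ : SchemeHomOver t' t) (χ : SchemeHomOver t'' t') :
    Nonempty (((Mb.pullbackAlong ψ).pullbackAlong χ).L ≅
      (Mb.pullbackAlong (postComp ψ χ)).L) :=
  ⟨(Scheme.Modules.pullbackComp _ _).app Mb.L ≪≫
    (Scheme.Modules.pullbackCongr (baseChangeSnd_comp c ψ χ)).app Mb.L⟩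

/-- Morphisms of affine schemes over `k` come from algebra maps. -/
theorem exists_specHom {A B : Type u} [CommRing A] [Algebra k A] [CommRing B] [Algebra k B]
    (χ : SchemeHomOver (specOver k B) (specOver k A)) : ∃ f : A →ₐ[k] B, specHom f = χ := by
  obtain ⟨g, hg⟩ := Spec.map_surjective χ.1
  have h : CommRingCat.ofHom (algebraMap k A) ≫ g = CommRingCat.ofHom (algebraMap k B) := by
    apply Spec.map_injective
    rw [Spec.map_comp, hg]
    exact χ.2
  refine ⟨⟨g.hom, fun r => ?_⟩, ?_⟩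
  · exact congrArg (fun q : CommRingCat.of k ⟶ CommRingCat.of B => q.hom r) h
  · apply Subtype.ext
    exact hg

/-- An affine open neighbourhood, as a map over `k`. -/
theorem exists_affine_nhd {T : Scheme.{u}} (t : T ⟶ Spec (CommRingCat.of k)) (p : T)
    (U : T.Opens) (hp : p ∈ U) :
    ∃ (A : Type u) (_ : CommRing A) (_ : Algebra k A) (ψ : SchemeHomOver (specOver k A) t),
      IsOpenImmersion ψ.1 ∧ p ∈ Set.range ψ.1.base ∧ Set.range ψ.1.base ⊆ (U : Set T) := by
  obtain ⟨R, f, hf, hp', hU⟩ := Scheme.exists_affine_mem_range_and_range_subset hp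
  obtain ⟨g, hg⟩ := Spec.map_surjective (f ≫ t)
  let : Algebra k R := g.hom.toAlgebra
  exact ⟨R, inferInstance, g.hom.toAlgebra, ⟨f, hg.symm⟩, hf, hp', hU⟩

variable (φ : CurveChart c ε M)

/-- The data of a rigidified bundle over an affine test scheme. -/
theorem exists_realizes_pullback {T : Scheme.{u}} {t : T ⟶ Spec (CommRingCat.of k)}
    (Mb : RigidifiedLineBundle c ε t) {A : Type u} [CommRing A] [Algebra k A]
    (ψ : SchemeHomOver (specOver k A) t) :
    ∃ L : LineData M A, Realizes φ L (Mb.pullbackAlong ψ).L :=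
  exists_realizes φ (Mb.pullbackAlong ψ).isInvertible

theorem rigidifiable_of_realizes {A : Type u} [CommRing A] [Algebra k A]
    (Mb : RigidifiedLineBundle c ε (specOver k A)) {L : LineData M A}
    (h : Realizes φ L Mb.L) : L.Rigidifiable φ.e :=
  (realizes_rigidifiable_iff φ h).mp Mb.rigidified

/-- The data at a composite point is the base change. -/
theorem isBC_of_realizes {T : Scheme.{u}} {t : T ⟶ Spec (CommRingCat.of k)}
    (Mb : RigidifiedLineBundle c ε t) {A B : Type u} [CommRing A] [Algebra k A] [CommRing B]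
    [Algebra k B] (f : A →ₐ[k] B) (ψ : SchemeHomOver (specOver k A) t)
    (ψ' : SchemeHomOver (specOver k B) t) (hψ : postComp ψ (specHom f) = ψ')
    {L : LineData M A} {L' : LineData M B} (h : Realizes φ L (Mb.pullbackAlong ψ).L)
    (h' : Realizes φ L' (Mb.pullbackAlong ψ').L) : LineData.IsBC f L L' := by
  obtain ⟨L₂, hL₂⟩ := exists_bc f L
  have h₂ : Realizes φ L₂ ((Mb.pullbackAlong ψ).pullbackAlong (specHom f)).L :=
    realizes_pullback φ f h hL₂
  subst hψ
  have e := (realizes_iso_iff φ h₂ h').mp (pullbackAlong_comp Mb ψ (specHom f))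
  exact IsBC.congr hL₂ (Equivalent.refl L) e

/-- Degree zero on every geometric fibre. -/
def degZero : BundleCond c ε where
  P := fun {T} t Mb => ∀ (K : Type u) [Field K] [Algebra k K] [IsAlgClosed K]
    (ψ : SchemeHomOver (specOver k K) t) (L : LineData M K),
    Realizes φ L (Mb.pullbackAlong ψ).L → L.chi = (LineData.unit M k).chi
  congr := fun t Mb Mb' h hP K _ _ _ ψ L hL => by
    obtain ⟨L₀, hL₀⟩ := exists_realizes_pullback φ Mb ψ
    have e := (realizes_iso_iff φ hL₀ hL).mp (RigidifiedLineBundle.pullbackAlong_congr ψ h)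
    rw [← chi_congr e]
    exact hP K ψ L₀ hL₀
  pullback_mem := fun t t' ψ Mb hP K _ _ _ ψ' L hL => by
    obtain ⟨L₀, hL₀⟩ := exists_realizes_pullback φ Mb (postComp ψ ψ')
    have e := (realizes_iso_iff φ hL hL₀).mp (pullbackAlong_comp Mb ψ ψ')
    rw [chi_congr e]
    exact hP K _ L₀ hL₀

theorem fibreDeg_of_degZero {T : Scheme.{u}} {t : T ⟶ Spec (CommRingCat.of k)}
    {Mb : RigidifiedLineBundle c ε t} (hP : (degZero φ).P t Mb) {A : Type u} [CommRing A]
    [Algebra k A] (ψ : SchemeHomOver (specOver k A) t) {L : LineData M A}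
    (h : Realizes φ L (Mb.pullbackAlong ψ).L) : L.FibreDeg 0 := by
  intro K _ _ _ f L' hL'
  obtain ⟨L₀, hL₀⟩ := exists_realizes_pullback φ Mb (postComp ψ (specHom f))
  have hb := isBC_of_realizes φ Mb f ψ _ rfl h hL₀
  rw [chi_congr (IsBC.unique hL' hb), add_zero]
  exact hP K _ L₀ hL₀

theorem degZero_of_fibreDeg {A : Type u} [CommRing A] [Algebra k A]
    (Mb : RigidifiedLineBundle c ε (specOver k A)) {L : LineData M A} (h : Realizes φ L Mb.L)
    (hL : L.FibreDeg 0) : (degZero φ).P (specOver k A) Mb := by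
  intro K _ _ _ ψ L' hL'
  obtain ⟨f, rfl⟩ := exists_specHom ψ
  obtain ⟨L₂, hL₂⟩ := exists_bc f L
  have e := (realizes_iso_iff φ hL' (realizes_pullback φ f h hL₂)).mp ⟨Iso.refl _⟩
  rw [chi_congr e, hL K f L₂ hL₂, add_zero]

theorem degZero_isLocal : IsLocalCond (degZero φ) := by
  intro T t Mb 𝒰 hP K _ _ _ ψ L hL
  obtain ⟨i, y, hy⟩ := 𝒰.exists_eq (ψ.1.base (IsLocalRing.closedPoint K))
  have : IsOpenImmersion (𝒰.f i) := inferInstance
  have hr : Set.range ψ.1.base ⊆ Set.range (𝒰.f i).base := by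
    rintro _ ⟨x, rfl⟩
    rw [Subsingleton.elim x (IsLocalRing.closedPoint K), ← hy]
    exact ⟨y, rfl⟩
  let ψ' : SchemeHomOver (specOver k K) (𝒰.f i ≫ t) :=
    ⟨IsOpenImmersion.lift (𝒰.f i) ψ.1 hr,
      by rw [← Category.assoc, IsOpenImmersion.lift_fac]; exact ψ.2⟩
  have hψ : postComp (overMap t (𝒰.f i)) ψ' = ψ :=
    Subtype.ext (IsOpenImmersion.lift_fac _ _ _)
  obtain ⟨L₀, hL₀⟩ := exists_realizes_pullback φ (Mb.pullbackAlong (overMap t (𝒰.f i))) ψ'
  have e := pullbackAlong_comp Mb (overMap t (𝒰.f i)) ψ'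
  rw [hψ] at e
  rw [← chi_congr ((realizes_iso_iff φ hL₀ hL).mp e)]
  exact hP i K ψ' L₀ hL₀

/-- A condition on line bundle data cutting out an open subfunctor of the degree zero one. -/
structure AlgCond (φ : CurveChart c ε M) : Type (u + 1) where
  P : ∀ (A : Type u) [CommRing A] [Algebra k A], LineData M A → Prop
  congr : ∀ {A : Type u} [CommRing A] [Algebra k A] {L L' : LineData M A},
    LineData.Equivalent L L' → P A L → P A L'
  bc : ∀ {A B : Type u} [CommRing A] [Algebra k A] [CommRing B] [Algebra k B] {f : A →ₐ[k] B}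
    {L : LineData M A} {L' : LineData M B}, LineData.IsBC f L L' → P A L → P B L'
  deg : ∀ {A : Type u} [CommRing A] [Algebra k A] {L : LineData M A}, P A L → L.FibreDeg 0
  locus : ∀ {A : Type u} [CommRing A] [Algebra k A] (L : LineData M A), L.FibreDeg 0 →
    L.Rigidifiable φ.e → ∃ U : Set (PrimeSpectrum A), IsOpen U ∧
      ∀ {B : Type u} [CommRing B] [Algebra k B] (f : A →ₐ[k] B) (L' : LineData M B),
        LineData.IsBC f L L' → (P B L' ↔ Set.range (PrimeSpectrum.comap f.toRingHom) ⊆ U)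

variable {φ}

/-- The condition on rigidified bundles given by an `AlgCond`. -/
def AlgCond.cond (S : AlgCond φ) : BundleCond c ε where
  P := fun {T} t Mb => ∀ (A : Type u) [CommRing A] [Algebra k A]
    (ψ : SchemeHomOver (specOver k A) t) (L : LineData M A),
    Realizes φ L (Mb.pullbackAlong ψ).L → S.P A L
  congr := fun t Mb Mb' h hP A _ _ ψ L hL => by
    obtain ⟨L₀, hL₀⟩ := exists_realizes_pullback φ Mb ψ
    exact S.congr ((realizes_iso_iff φ hL₀ hL).mp (RigidifiedLineBundle.pullbackAlong_congr ψ h))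
      (hP A ψ L₀ hL₀)
  pullback_mem := fun t t' ψ Mb hP A _ _ ψ' L hL => by
    obtain ⟨L₀, hL₀⟩ := exists_realizes_pullback φ Mb (postComp ψ ψ')
    exact S.congr (Equivalent.symm ((realizes_iso_iff φ hL hL₀).mp (pullbackAlong_comp Mb ψ ψ')))
      (hP A _ L₀ hL₀)

theorem AlgCond.cond_of_alg (S : AlgCond φ) {A : Type u} [CommRing A] [Algebra k A]
    (Mb : RigidifiedLineBundle c ε (specOver k A)) {L : LineData M A} (h : Realizes φ L Mb.L)
    (hL : S.P A L) : S.cond.P (specOver k A) Mb := by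
  intro B _ _ ψ L' hL'
  obtain ⟨f, rfl⟩ := exists_specHom ψ
  obtain ⟨L₂, hL₂⟩ := exists_bc f L
  exact S.congr ((realizes_iso_iff φ (realizes_pullback φ f h hL₂) hL').mp ⟨Iso.refl _⟩)
    (S.bc hL₂ hL)

theorem AlgCond.isOpenSubCond (S : AlgCond φ) : IsOpenSubCond S.cond (degZero φ) := by
  refine ⟨fun {T} t Mb hP K _ _ _ ψ L hL => ?_, fun {T} t Mb hP => ?_⟩
  · have := S.deg (hP K ψ L hL) K (AlgHom.id k K) L (IsBC.refl L)
    rwa [add_zero] at this
  let Good : ∀ (A : Type u) [CommRing A] [Algebra k A], LineData M A → Set (PrimeSpectrum A) →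
      Prop := fun A _ _ L V => IsOpen V ∧ ∀ {B : Type u} [CommRing B] [Algebra k B]
        (f : A →ₐ[k] B) (L' : LineData M B), LineData.IsBC f L L' →
          (S.P B L' ↔ Set.range (PrimeSpectrum.comap f.toRingHom) ⊆ V)
  let W : Set T := {p | ∃ (A : Type u) (_ : CommRing A) (_ : Algebra k A)
    (ψ : SchemeHomOver (specOver k A) t) (L : LineData M A) (V : Set (PrimeSpectrum A)),
    IsOpenImmersion ψ.1 ∧ Realizes φ L (Mb.pullbackAlong ψ).L ∧ Good A L V ∧ p ∈ ψ.1.base '' V}
  have hW : IsOpen W := by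
    rw [isOpen_iff_forall_mem_open]
    rintro p ⟨A, _, _, ψ, L, V, hψ, hL, hV, hp⟩
    have := hψ
    exact ⟨ψ.1.base '' V, fun q hq => ⟨A, _, _, ψ, L, V, hψ, hL, hV, hq⟩,
      ψ.1.isOpenEmbedding.isOpenMap V hV.1, hp⟩
  refine ⟨⟨W, hW⟩, fun {T'} t' ψ => ⟨fun hP' => ?_, fun hr => ?_⟩⟩
  · rintro _ ⟨p', rfl⟩
    obtain ⟨A, _, _, ι, hι, hp, -⟩ := exists_affine_nhd t (ψ.1.base p') ⊤ trivial
    obtain ⟨A', _, _, ι', hι', ⟨a', ha'⟩, hsub⟩ :=
      exists_affine_nhd t' p' (ψ.1 ⁻¹ᵁ ι.1.opensRange) hp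
    have := hι
    have hr : Set.range (ι'.1 ≫ ψ.1).base ⊆ Set.range ι.1.base := by
      rintro _ ⟨x, rfl⟩
      exact hsub ⟨x, rfl⟩
    let χ : SchemeHomOver (specOver k A') (specOver k A) :=
      ⟨IsOpenImmersion.lift ι.1 (ι'.1 ≫ ψ.1) hr,
        (congrArg (IsOpenImmersion.lift ι.1 (ι'.1 ≫ ψ.1) hr ≫ ·) ι.2.symm).trans (by
          rw [← Category.assoc, IsOpenImmersion.lift_fac, Category.assoc, ψ.2, ι'.2])⟩
    obtain ⟨f, hf⟩ := exists_specHom χ
    have hcomp : postComp ι (specHom f) = postComp ψ ι' := by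
      rw [hf]; exact Subtype.ext (IsOpenImmersion.lift_fac _ _ _)
    obtain ⟨L, hL⟩ := exists_realizes_pullback φ Mb ι
    obtain ⟨L', hL'⟩ := exists_realizes_pullback φ Mb (postComp ψ ι')
    obtain ⟨V, hV⟩ := S.locus L (fibreDeg_of_degZero φ hP ι hL) (rigidifiable_of_realizes φ _ hL)
    obtain ⟨L'', hL''⟩ := exists_realizes_pullback φ (Mb.pullbackAlong ψ) ι'
    have hPL : S.P A' L' := S.congr
      ((realizes_iso_iff φ hL'' hL').mp (pullbackAlong_comp Mb ψ ι')) (hP' A' ι' L'' hL'')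
    have hb := isBC_of_realizes φ Mb f ι _ hcomp hL hL'
    refine ⟨A, _, _, ι, L, V, hι, hL, hV, PrimeSpectrum.comap f.toRingHom a',
      (hV.2 f L' hb).mp hPL ⟨a', rfl⟩, ?_⟩
    have := congrArg (fun g : SchemeHomOver (specOver k A') t => g.1.base a') hcomp
    exact this.trans (congrArg ψ.1.base ha')
  · intro A' _ _ ι' L'' hL''
    obtain ⟨L', hL'⟩ := exists_realizes_pullback φ Mb (postComp ψ ι')
    refine S.congr ((realizes_iso_iff φ hL' hL'').mp
      ((pullbackAlong_comp Mb ψ ι').map Iso.symm)) ?_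
    obtain ⟨V', hV'⟩ := S.locus L' (fibreDeg_of_degZero φ hP _ hL')
      (rigidifiable_of_realizes φ _ hL')
    rw [hV'.2 (AlgHom.id k A') L' (IsBC.refl L')]
    rintro _ ⟨a, rfl⟩
    obtain ⟨g, hg⟩ : ∃ g : A' →ₐ[k] a.asIdeal.ResidueField,
        Set.range (PrimeSpectrum.comap g.toRingHom) = {a} := by
      refine ⟨IsScalarTower.toAlgHom k A' a.asIdeal.ResidueField, ?_⟩
      ext q
      simp only [Set.mem_range, Set.mem_singleton_iff]
      refine ⟨?_, fun hq => ⟨⊥, ?_⟩⟩
      · rintro ⟨r, rfl⟩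
        rw [Subsingleton.elim r ⊥]
        apply PrimeSpectrum.ext
        exact Ideal.ker_algebraMap_residueField _
      · subst hq
        apply PrimeSpectrum.ext
        exact Ideal.ker_algebraMap_residueField _
    obtain ⟨LK, hLK⟩ := exists_realizes_pullback φ Mb (postComp (postComp ψ ι') (specHom g))
    have hb := isBC_of_realizes φ Mb g _ _ rfl hL' hLK
    have key : S.P _ LK := by
      obtain ⟨A, _, _, ι, L, V, hι, hL, hV, v, hv, hva⟩ := hr ⟨ι'.1.base a, rfl⟩
      have := hι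
      have hpt : ∀ x, (specHom g).1.base x = a := fun x => by
        have : PrimeSpectrum.comap g.toRingHom x ∈ ({a} : Set _) := hg ▸ ⟨x, rfl⟩
        exact this
      have hr' : Set.range (postComp (postComp ψ ι') (specHom g)).1.base ⊆
          Set.range ι.1.base := by
        rintro _ ⟨x, rfl⟩
        exact ⟨v, hva.trans (congrArg (fun z => ψ.1.base (ι'.1.base z)) (hpt x)).symm⟩
      let χ : SchemeHomOver (specOver k a.asIdeal.ResidueField) (specOver k A) :=
        ⟨IsOpenImmersion.lift ι.1 _ hr',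
          (congrArg (IsOpenImmersion.lift ι.1 _ hr' ≫ ·) ι.2.symm).trans (by
            rw [← Category.assoc, IsOpenImmersion.lift_fac]
            exact (postComp (postComp ψ ι') (specHom g)).2)⟩
      obtain ⟨f, hf⟩ := exists_specHom χ
      have hcomp : postComp ι (specHom f) = postComp (postComp ψ ι') (specHom g) := by
        rw [hf]; exact Subtype.ext (IsOpenImmersion.lift_fac _ _ _)
      refine (hV.2 f LK (isBC_of_realizes φ Mb f ι _ hcomp hL hLK)).mpr ?_
      rintro _ ⟨x, rfl⟩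
      have h1 := congrArg
        (fun z : SchemeHomOver (specOver k a.asIdeal.ResidueField) t => z.1.base x) hcomp
      have h2 : ι.1.base ((specHom f).1.base x) = ι.1.base v :=
        h1.trans ((congrArg (fun z => ψ.1.base (ι'.1.base z)) (hpt x)).trans hva.symm)
      rw [show PrimeSpectrum.comap f.toRingHom x = v from ι.1.isOpenEmbedding.injective h2]
      exact hv
    exact (hV'.2 g LK hb).mp key (by rw [hg]; exact rfl)

end FLTAgent.Jac
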