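import Fermat.Agent.Jac.Geom
import Fermat.Agent.Jac.CurveModel.Locus

/-!
# S25: every smooth proper integral curve has a two-chart model

The charts are the regular loci of `x = π⁻¹` and `x⁻¹`, `π` a uniformiser at the base point.
-/

set_option autoImplicit false

universe u

open CategoryTheory CategoryTheory.Limits AlgebraicGeometry AlgebraicGeometry.RelPicard
  NeronModelInfra TopologicalSpace

namespace FLTAgent.Jac

namespace Curve

variable {k : Type u} [Field k] [IsAlgClosed k] {C : Scheme.{u}} (c : C ⟶ Spec (CommRingCat.of k))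
  [IsIntegral C]

/-- A function which is not constant is transcendental. -/
theorem eval₂_injective_of_notMem {L : Type u} [Field L] (f : k →+* L) {y : L}
    (h : y ∉ Set.range f) : Function.Injective (Polynomial.eval₂RingHom f y) := by
  let _ := f.toAlgebra
  refine (injective_iff_map_eq_zero _).mpr fun q hq => ?_
  by_contra hq0
  have hint : IsIntegral k y := IsAlgebraic.isIntegral ⟨q, hq0, hq⟩
  exact h (minpoly.mem_range_of_degree_eq_one k y
    (IsAlgClosed.degree_eq_one_of_irreducible k (minpoly.irreducible hint)))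

theorem constHom_bijective [IsProper c] : Function.Bijective (constHom c (⊤ : C.Opens)) := by
  have : LocallyOfFiniteType c := inferInstance
  let _ := (isField_of_universallyClosed k c).toField
  refine IsAlgClosed.ringHom_bijective_of_isIntegral _ (RingHom.Finite.to_isIntegral ?_)
  have h : constHom c (⊤ : C.Opens) =
      c.appTop.hom.comp (Scheme.ΓSpecIso (CommRingCat.of k)).inv.hom := by
    rw [← CommRingCat.hom_comp, constHom, Scheme.Hom.appTop, Scheme.Hom.app_eq_appLE]
    rfl
  rw [h]
  exact (finite_appTop_of_universallyClosed k c).comp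
    (RingHom.Finite.of_surjective _
      (Scheme.ΓSpecIso (CommRingCat.of k)).symm.commRingCatIsoToRingEquiv.surjective)

theorem mem_regLocus_constK (r : k) (P : C) : P ∈ regLocus (constK c r) :=
  (le_sSup ⟨nonempty_top, constHom c ⊤ r, rfl⟩ : (⊤ : C.Opens) ≤ regLocus (constK c r))
    (trivial : P ∈ (⊤ : C.Opens))

/-- A point where the value of `x⁻¹` is a unit is a point where `x` is regular. -/
theorem mem_regLocus_of_isUnit_value {x : C.functionField} (hx : x ≠ 0) {R : CommRingCat.{u}}
    (g' : Spec R ⟶ (regLocus x⁻¹).toScheme) (hu : IsUnit (value g' (sec x⁻¹))) (z : Spec R) :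
    (g' ≫ (regLocus x⁻¹).ι) z ∈ regLocus x := by
  have hu' : IsUnit ((g' ≫ (regLocus x⁻¹).ι).appLE _ ⊤ (top_le_preimage g') (sec x⁻¹)) :=
    (MulEquiv.isUnit_map (Scheme.ΓSpecIso R).commRingCatIsoToRingEquiv).mp hu
  have hb := Scheme.basicOpen_of_isUnit _ hu'
  rw [Scheme.basicOpen_appLE] at hb
  have hmem : z ∈ (g' ≫ (regLocus x⁻¹).ι) ⁻¹ᵁ C.basicOpen (sec x⁻¹) :=
    ((congrArg (z ∈ ·) hb).mpr trivial).2
  have := (mem_basicOpen_sec (inv_ne_zero hx)).mp hmem
  rw [inv_inv] at this
  exact this.2

theorem fromSpec_comp {U : C.Opens} (hU : IsAffineOpen U) :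
    hU.fromSpec ≫ c = Spec.map (CommRingCat.ofHom (constHom c U)) := by
  rw [← hU.isoSpec_inv_ι, Category.assoc, ← toSpecΓ_constHom, hU.isoSpec_inv_toSpecΓ_assoc]

omit [IsIntegral C] in
theorem isPullback_fromSpec {U V : C.Opens} (hU : IsAffineOpen U) (hV : IsAffineOpen V)
    (hW : IsAffineOpen (U ⊓ V)) :
    IsPullback (Spec.map (C.presheaf.map (homOfLE (inf_le_left : U ⊓ V ≤ U)).op))
      (Spec.map (C.presheaf.map (homOfLE (inf_le_right : U ⊓ V ≤ V)).op)) hU.fromSpec
      hV.fromSpec := by
  refine (isPullback_opens_inf U V).of_iso hW.isoSpec hU.isoSpec hV.isoSpec (Iso.refl C)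
    ?_ ?_ ?_ ?_
  · exact ((U ⊓ V).toSpecΓ_SpecMap_presheaf_map U inf_le_left).symm
  · exact ((U ⊓ V).toSpecΓ_SpecMap_presheaf_map V inf_le_right).symm
  · simp
  · simp

variable [SmoothOfRelativeDimension 1 c]

include c in
/-- A function with a pole at a given closed point. -/
theorem exists_pole {P : C} (hP : IsClosed {P}) :
    ∃ x : C.functionField, P ∈ regLocus x⁻¹ ∧ P ∉ regLocus x ∧ x ≠ 0 := by
  have hne : P ≠ genericPoint C := fun h => not_isClosed_genericPoint c (h ▸ hP)
  have := isDVR_stalk c hne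
  obtain ⟨π, hπ⟩ := IsDiscreteValuationRing.exists_irreducible (C.presheaf.stalk P)
  have hπ0 : algebraMap (C.presheaf.stalk P) C.functionField π ≠ 0 :=
    (map_ne_zero_iff _ (IsFractionRing.injective _ _)).mpr hπ.ne_zero
  refine ⟨(algebraMap (C.presheaf.stalk P) C.functionField π)⁻¹,
    mem_regLocus.mpr ⟨π, (inv_inv _).symm⟩, fun h => ?_, inv_ne_zero hπ0⟩
  obtain ⟨a, ha⟩ := mem_regLocus.mp h
  refine hπ.not_isUnit (IsUnit.of_mul_eq_one a
    (IsFractionRing.injective (C.presheaf.stalk P) C.functionField ?_))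
  rw [map_mul, map_one, ha, mul_inv_cancel₀ hπ0]

variable [IsProper c]

theorem locally_regLocus {x : C.functionField}
    (htr : Function.Injective (Polynomial.eval₂RingHom (constK c) x)) :
    RingHom.Locally (RingHom.IsStandardSmoothOfRelativeDimension 1) (constHom c (regLocus x)) :=
  locally_constHom c (isAffineOpen_regLocus c htr)

theorem exists_basis_regLocus {x : C.functionField}
    (htr : Function.Injective (Polynomial.eval₂RingHom (constK c) x)) :
    ∃ d, 0 < d ∧ ∃ b : Fin d → Γ(C, regLocus x),
      Function.Bijective fun q : Fin d → Polynomial k =>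
        ∑ i, Polynomial.eval₂ (constHom c (regLocus x)) (sec x) (q i) * b i := by
  let _ := (constHom c (regLocus x)).toAlgebra
  exact exists_polynomial_basis (sec x) (evalSec_injective c htr) (finite_evalSec c htr)

end Curve

set_option maxHeartbeats 800000 in
open Curve in
theorem exists_curveChart (k : Type u) [Field k] [IsAlgClosed k] {C : Scheme.{u}}
    (c : C ⟶ Spec (CommRingCat.of k)) [IsProper c] [SmoothOfRelativeDimension 1 c] [IsIntegral C]
    (ε : SchemeHomOver (𝟙 (Spec (CommRingCat.of k))) c) :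
    ∃ M : Model k, Nonempty (CurveChart c ε M) := by
  classical
  let P₀ : C := ε.1 (IsLocalRing.closedPoint k)
  have hε : ∀ z, ε.1 z = P₀ := fun z => by rw [Subsingleton.elim z (IsLocalRing.closedPoint k)]
  have hP₀ : IsClosed ({P₀} : Set C) := by
    have : IsSeparated c := inferInstance
    have := isClosedImmersion_of_comp_eq_id c ε.1 ε.2
    have hr : Set.range ε.1 = ({P₀} : Set C) := Set.Subset.antisymm
      (Set.range_subset_iff.mpr hε) (Set.singleton_subset_iff.mpr ⟨_, rfl⟩)
    rw [← hr]
    exact ε.1.isClosedEmbedding.isClosed_range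
  obtain ⟨x, hP₀V, hP₀U, hx⟩ := exists_pole c hP₀
  have htr : Function.Injective (Polynomial.eval₂RingHom (constK c) x) :=
    eval₂_injective_of_notMem _ fun ⟨r, hr⟩ => hP₀U (hr ▸ mem_regLocus_constK c r P₀)
  have htr' : Function.Injective (Polynomial.eval₂RingHom (constK c) x⁻¹) :=
    eval₂_injective_of_notMem _ fun ⟨r, hr⟩ => hP₀U (by
      have := mem_regLocus_constK c r⁻¹ P₀
      rwa [map_inv₀, hr, inv_inv] at this)
  have hU := isAffineOpen_regLocus c htr
  have hV := isAffineOpen_regLocus c htr'
  let U := regLocus x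
  let V := regLocus x⁻¹
  let W := U ⊓ V
  have hWU : W = C.basicOpen (sec x) := (basicOpen_sec hx).symm
  have hWV : W = C.basicOpen (sec x⁻¹) := by
    rw [basicOpen_sec (inv_ne_zero hx), inv_inv, inf_comm]
  have hW : IsAffineOpen W := hWU ▸ hU.basicOpen (sec x)
  let aU : Algebra k Γ(C, U) := (constHom c U).toAlgebra
  let aV : Algebra k Γ(C, V) := (constHom c V).toAlgebra
  let aW : Algebra k Γ(C, W) := (constHom c W).toAlgebra
  let ip : Γ(C, U) →ₐ[k] Γ(C, W) :=
    { (C.presheaf.map (homOfLE (inf_le_left : W ≤ U)).op).hom with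
      commutes' := fun r => constHom_res c inf_le_left r }
  let im : Γ(C, V) →ₐ[k] Γ(C, W) :=
    { (C.presheaf.map (homOfLE (inf_le_right : W ≤ V)).op).hom with
      commutes' := fun r => constHom_res c inf_le_right r }
  have hipinj : Function.Injective ip := map_injective_of_isIntegral C (homOfLE inf_le_left)
  have himinj : Function.Injective im := map_injective_of_isIntegral C (homOfLE inf_le_right)
  have hxy : ip (sec x) * im (sec x⁻¹) = 1 := sec_mul_sec_inv hx
  have hipsurj : ∀ r, ∃ (i : ℕ) (s : Γ(C, U)), ip (sec x) ^ i * r = ip s := fun r => by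
    let _ := (C.presheaf.map (homOfLE (inf_le_left : W ≤ U)).op).hom.toAlgebra
    have := hU.isLocalization_of_eq_basicOpen (sec x) (homOfLE (inf_le_left : W ≤ U)) hWU
    obtain ⟨i, s, h⟩ := IsLocalization.Away.surj (S := Γ(C, W)) (sec x) r
    exact ⟨i, s, (mul_comm _ _).trans h⟩
  have himsurj : ∀ r, ∃ (i : ℕ) (s : Γ(C, V)), im (sec x⁻¹) ^ i * r = im s := fun r => by
    let _ := (C.presheaf.map (homOfLE (inf_le_right : W ≤ V)).op).hom.toAlgebra
    have := hV.isLocalization_of_eq_basicOpen (sec x⁻¹) (homOfLE (inf_le_right : W ≤ V)) hWV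
    obtain ⟨i, s, h⟩ := IsLocalization.Away.surj (S := Γ(C, W)) (sec x⁻¹) r
    exact ⟨i, s, (mul_comm _ _).trans h⟩
  obtain ⟨d, hd, b, hb⟩ := exists_basis_regLocus c htr
  obtain ⟨e, -, b', hb'⟩ := exists_basis_regLocus c htr'
  obtain rfl : d = e := le_antisymm
    (card_le_of_bases ip im hipinj hxy himsurj hb.1 hb')
    (card_le_of_bases im ip himinj ((mul_comm _ _).trans hxy) hipsurj hb'.1 hb)
  let M : Model k :=
    { Rp := Γ(C, U)
      Rm := Γ(C, V)
      Rpm := Γ(C, W)
      x := sec x
      y := sec x⁻¹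
      ip := ip
      im := im
      ip_inj := hipinj
      im_inj := himinj
      ip_x_mul_im_y := hxy
      ip_surj := hipsurj
      im_surj := himsurj
      d := d
      d_pos := hd
      basis_p := ⟨b, hb⟩
      basis_m := ⟨b', hb'⟩
      glob := fun a a' h => by
        let f := C.germToFunctionField U a
        have hf' : C.germToFunctionField V a' = f := by
          rw [← germToFunctionField_res (inf_le_right : W ≤ V) a',
            ← show ip a = C.presheaf.map (homOfLE (inf_le_right : W ≤ V)).op a' from h]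
          exact germToFunctionField_res (inf_le_left : W ≤ U) a
        have htop : (⊤ : C.Opens) ≤ regLocus f := by
          rw [← regLocus_sup_inv c x]
          exact sup_le (le_sSup ⟨inferInstance, a, rfl⟩) (le_sSup ⟨inferInstance, a', hf'⟩)
        obtain ⟨r, hr⟩ := (constHom_bijective c).2 (C.presheaf.map (homOfLE htop).op (sec f))
        refine ⟨r, C.germToFunctionField_injective U ?_⟩
        show f = C.germToFunctionField U (constHom c U r)
        rw [← constHom_res c (le_top : U ≤ ⊤), germToFunctionField_res, hr,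
          germToFunctionField_res, germ_sec]
      dedekind_p := fun K _ _ _ => dedekind_tensorProduct (locally_regLocus c htr) K
      dedekind_m := fun K _ _ _ => dedekind_tensorProduct (locally_regLocus c htr') K }
  have hrange : Set.range ε.1 ⊆ Set.range V.ι := by
    rintro _ ⟨z, rfl⟩
    rw [Scheme.Opens.range_ι, hε]
    exact hP₀V
  let εV := IsOpenImmersion.lift V.ι ε.1 hrange
  have hεV : εV ≫ V.ι = ε.1 := IsOpenImmersion.lift_fac _ _ _
  have hval : CommRingCat.ofHom (constHom c V) ≫ value εV = 𝟙 _ := Spec.map_injective (by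
    rw [Spec.map_comp, ← comp_toSpecΓ, Category.assoc, toSpecΓ_constHom, ← Category.assoc, hεV,
      ε.2, Spec.map_id])
  have key : ∀ r : k, value εV (constHom c V r) = r := fun r =>
    DFunLike.congr_fun (congrArg CommRingCat.Hom.hom hval) r
  let eV : Γ(C, V) →ₐ[k] k := { (value εV).hom with commutes' := key }
  refine ⟨M, ⟨{
    e := eV
    e_y := ?_
    jp := hU.fromSpec
    jm := hV.fromSpec
    jp_over := ?_
    jm_over := ?_
    cover := fun P => ?_
    overlap := ?_
    eps := ?_ }⟩⟩
  · by_contra hne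
    refine hP₀U ?_
    have := mem_regLocus_of_isUnit_value hx εV (isUnit_iff_ne_zero.mpr hne)
      (IsLocalRing.closedPoint k)
    rwa [hεV] at this
  · exact fromSpec_comp c hU
  · exact fromSpec_comp c hV
  · have h : P ∈ U ⊔ V := by rw [regLocus_sup_inv c x]; trivial
    exact h.imp (fun h => hU.range_fromSpec ▸ h) (fun h => hV.range_fromSpec ▸ h)
  · exact isPullback_fromSpec hU hV hW
  · show Spec.map (value εV) ≫ hV.fromSpec = ε.1
    rw [← comp_toSpecΓ, Category.assoc, hV.toSpecΓ_fromSpec, hεV]

end FLTAgent.Jac
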