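import Fermat.Agent.Jac.Cond

/-!
# S25: algebraically equivalent to zero = degree zero
-/

set_option autoImplicit false

universe u

open CategoryTheory CategoryTheory.Limits AlgebraicGeometry AlgebraicGeometry.RelPicard
  NeronModelInfra

namespace FLTAgent.Jac

variable {k : Type u} [Field k] {C : Scheme.{u}} {c : C ⟶ Spec (CommRingCat.of k)}
  {ε : SchemeHomOver (𝟙 (Spec (CommRingCat.of k))) c} {M : Model k}
  (φ : CurveChart c ε M)

/-- Pulling back a module in two steps along a given factorisation. -/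
theorem nonempty_pullback_iso_of_comp {X Y Z : Scheme.{u}} (f : X ⟶ Y) (g : Y ⟶ Z) (h : X ⟶ Z)
    (hfg : f ≫ g = h) (F : Z.Modules) :
    Nonempty ((Scheme.Modules.pullback f).obj ((Scheme.Modules.pullback g).obj F) ≅
      (Scheme.Modules.pullback h).obj F) :=
  ⟨(Scheme.Modules.pullbackComp _ _).app F ≪≫ (Scheme.Modules.pullbackCongr hfg).app F⟩

/-- Base change of the data of an invertible sheaf which need not be rigidified. -/
theorem exists_isBC_of_sheaf {T : Scheme.{u}} {τ : T ⟶ Spec (CommRingCat.of k)}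
    (F : (pullback c τ).Modules) (hF : Scheme.Modules.IsInvertible F) {A B : Type u} [CommRing A]
    [Algebra k A] [CommRing B] [Algebra k B] (f : A →ₐ[k] B)
    (ψ : SchemeHomOver (specOver k A) τ) (ψ' : SchemeHomOver (specOver k B) τ)
    (hψ : postComp ψ (specHom f) = ψ') {L : LineData M A}
    (h : Realizes φ L ((Scheme.Modules.pullback (baseChangeSnd c ψ)).obj F)) {L' : LineData M B}
    (h' : Realizes φ L' ((Scheme.Modules.pullback (baseChangeSnd c ψ')).obj F)) :
    LineData.IsBC f L L' := by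
  obtain ⟨L₂, hL₂⟩ := exists_bc f L
  have h₂ := realizes_pullback φ f h hL₂
  subst hψ
  have e := (realizes_iso_iff φ h₂ h').mp
    (nonempty_pullback_iso_of_comp _ _ _ (baseChangeSnd_comp c ψ (specHom f)) F)
  exact IsBC.congr hL₂ (Equivalent.refl L) e

/-- The Euler characteristic is constant in a family over an irreducible base. -/
theorem chi_eq_of_family {T : Scheme.{u}} [IrreducibleSpace T]
    {τ : T ⟶ Spec (CommRingCat.of k)}
    (F : (pullback c τ).Modules) (hF : Scheme.Modules.IsInvertible F) (K : Type u) [Field K]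
    [Algebra k K] (w₀ w₁ : SchemeHomOver (specOver k K) τ) {L₀ L₁ : LineData M K}
    (h₀ : Realizes φ L₀ ((Scheme.Modules.pullback (baseChangeSnd c w₀)).obj F))
    (h₁ : Realizes φ L₁ ((Scheme.Modules.pullback (baseChangeSnd c w₁)).obj F)) :
    L₀.chi = L₁.chi := by
  have key : ∀ p : T, ∃ (U : Set T), IsOpen U ∧ p ∈ U ∧ ∃ m : ℤ,
      ∀ (F' : Type u) [Field F'] [Algebra k F'] (z : SchemeHomOver (specOver k F') τ)
        (L : LineData M F'), z.1.base (IsLocalRing.closedPoint F') ∈ U →
          Realizes φ L ((Scheme.Modules.pullback (baseChangeSnd c z)).obj F) → L.chi = m := by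
    intro p
    obtain ⟨A, _, _, ι, hι, ⟨a, ha⟩, -⟩ := exists_affine_nhd τ p ⊤ trivial
    have := hι
    obtain ⟨LA, hLA⟩ := exists_realizes φ (hF.pullback (baseChangeSnd c ι))
    obtain ⟨χ, hχ, hχf⟩ := exists_isLocallyConstant_chi LA
    have hirr : PreirreducibleSpace (PrimeSpectrum A) := by
      refine ⟨fun U V hU hV ⟨x, _, hx⟩ ⟨y, _, hy⟩ => ?_⟩
      obtain ⟨z, ⟨x', hx', rfl⟩, y', hy', hyz⟩ := nonempty_preirreducible_inter
        (ι.1.isOpenEmbedding.isOpenMap U hU) (ι.1.isOpenEmbedding.isOpenMap V hV)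
        ⟨_, x, hx, rfl⟩ ⟨_, y, hy, rfl⟩
      exact ⟨x', trivial, hx', ι.1.isOpenEmbedding.injective hyz ▸ hy'⟩
    refine ⟨Set.range ι.1.base, ι.1.isOpenEmbedding.isOpen_range, ⟨a, ha⟩, χ a,
      fun F' _ _ z L hz hL => ?_⟩
    have hr : Set.range z.1.base ⊆ Set.range ι.1.base := by
      rintro _ ⟨x, rfl⟩
      rwa [Subsingleton.elim x (IsLocalRing.closedPoint F')]
    let ξ : SchemeHomOver (specOver k F') (specOver k A) :=
      ⟨IsOpenImmersion.lift ι.1 z.1 hr,
        (congrArg (IsOpenImmersion.lift ι.1 z.1 hr ≫ ·) ι.2.symm).trans (by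
          rw [← Category.assoc, IsOpenImmersion.lift_fac]; exact z.2)⟩
    obtain ⟨f, hf⟩ := exists_specHom ξ
    have hb := exists_isBC_of_sheaf φ F hF f ι z
      (by rw [hf]; exact Subtype.ext (IsOpenImmersion.lift_fac _ _ _)) hLA hL
    rw [hχf f L hb (PrimeSpectrum.comap f.toRingHom ⊥) rfl]
    exact hχ.apply_eq_of_isPreconnected PreirreducibleSpace.isPreirreducible_univ.isPreconnected
      trivial trivial
  obtain ⟨U₀, hU₀, hp₀, m₀, hm₀⟩ := key (w₀.1.base (IsLocalRing.closedPoint K))
  obtain ⟨U₁, hU₁, hp₁, m₁, hm₁⟩ := key (w₁.1.base (IsLocalRing.closedPoint K))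
  obtain ⟨q, hq₀, hq₁⟩ := nonempty_preirreducible_inter hU₀ hU₁ ⟨_, hp₀⟩ ⟨_, hp₁⟩
  obtain ⟨γ, hγ⟩ := Spec.map_surjective (T.fromSpecResidueField q ≫ τ)
  let : Algebra k (T.residueField q) := γ.hom.toAlgebra
  let z : SchemeHomOver (specOver k (T.residueField q)) τ :=
    ⟨T.fromSpecResidueField q, hγ.symm⟩
  obtain ⟨Lq, hLq⟩ := exists_realizes φ (hF.pullback (baseChangeSnd c z))
  have hz : z.1.base (IsLocalRing.closedPoint (T.residueField q)) = q :=
    T.fromSpecResidueField_apply q _
  rw [hm₀ K w₀ L₀ hp₀ h₀, hm₁ K w₁ L₁ hp₁ h₁, ← hm₀ _ z Lq (Set.mem_of_eq_of_mem hz hq₀) hLq,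
    ← hm₁ _ z Lq (Set.mem_of_eq_of_mem hz hq₁) hLq]

@[reassoc]
theorem baseChangeSnd_fst {R : Type u} [CommRing R] {X T T' : Scheme.{u}}
    (a : X ⟶ Spec (CommRingCat.of R)) {t : T ⟶ Spec (CommRingCat.of R)}
    {t' : T' ⟶ Spec (CommRingCat.of R)} (s : SchemeHomOver t' t) :
    baseChangeSnd a s ≫ pullback.fst a t = pullback.fst a t' := by
  simp only [baseChangeSnd, pullback.lift_fst, Category.comp_id]

@[reassoc]
theorem baseChangeSnd_snd {R : Type u} [CommRing R] {X T T' : Scheme.{u}}
    (a : X ⟶ Spec (CommRingCat.of R)) {t : T ⟶ Spec (CommRingCat.of R)}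
    {t' : T' ⟶ Spec (CommRingCat.of R)} (s : SchemeHomOver t' t) :
    baseChangeSnd a s ≫ pullback.snd a t = pullback.snd a t' ≫ s.1 := by
  simp only [baseChangeSnd, pullback.lift_snd]

variable {K : Type u} [Field K] [Algebra k K]

/-- An algebraically trivial bundle on the curve over `K` has degree zero. -/
theorem chi_eq_of_isAlgEquivZero {F : (pullback c (specOver k K)).Modules}
    (hz : IsAlgEquivZero (pullback.snd c (specOver k K)) F) {L : LineData M K}
    (hL : Realizes φ L F) : L.chi = (LineData.unit M k).chi := by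
  obtain ⟨T', h, _, _, M', hM', t₀, t₁, ⟨e₀⟩, ⟨e₁⟩⟩ := hz
  have hint : IsIntegral T' :=
    GeometricallyIntegral.isIntegral_of_subsingleton h
  let τ : T' ⟶ Spec (CommRingCat.of k) := h ≫ specOver k K
  let ι : pullback c τ ⟶ pullback (pullback.snd c (specOver k K)) h :=
    pullback.lift (baseChangeSnd c (⟨h, rfl⟩ : SchemeHomOver τ (specOver k K))) (pullback.snd c τ)
      (by simp [baseChangeSnd_snd])
  let e₁' : pullback c (specOver k K) ⟶
      pullback (pullback.snd c (specOver k K)) (𝟙 (Spec (CommRingCat.of K))) :=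
    pullback.lift (𝟙 _) (pullback.snd _ _) (by simp)
  let w : SchemeHomOver (𝟙 (Spec (CommRingCat.of K))) h → SchemeHomOver (specOver k K) τ :=
    fun t => ⟨t.1, by
      show t.1 ≫ h ≫ specOver k K = _
      rw [← Category.assoc, t.2, Category.id_comp]⟩
  have hsq : ∀ t, baseChangeSnd c (w t) ≫ ι =
      e₁' ≫ baseChangeSnd (pullback.snd c (specOver k K)) t := by
    intro t
    have ht : t.1 ≫ h = 𝟙 _ := t.2
    apply pullback.hom_ext
    · show (baseChangeSnd c (w t) ≫ ι) ≫ pullback.fst _ _ = _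
      rw [Category.assoc, show ι ≫ pullback.fst _ _ = baseChangeSnd c _ from pullback.lift_fst _ _ _,
        Category.assoc, baseChangeSnd_fst, show e₁' ≫ pullback.fst _ _ = 𝟙 _ from
        pullback.lift_fst _ _ _]
      apply pullback.hom_ext
      · rw [Category.assoc, baseChangeSnd_fst, baseChangeSnd_fst, Category.id_comp]
      · rw [Category.assoc, baseChangeSnd_snd, baseChangeSnd_snd_assoc, Category.id_comp]
        show pullback.snd c (specOver k K) ≫ t.1 ≫ h = _
        rw [ht, Category.comp_id]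
    · rw [Category.assoc, show ι ≫ pullback.snd _ _ = pullback.snd c τ from pullback.lift_snd _ _ _,
        baseChangeSnd_snd, Category.assoc, baseChangeSnd_snd, ← Category.assoc,
        show e₁' ≫ pullback.snd _ _ = pullback.snd c (specOver k K) from pullback.lift_snd _ _ _]
  have hiso : ∀ t, Nonempty ((Scheme.Modules.pullback (baseChangeSnd c (w t))).obj
      ((Scheme.Modules.pullback ι).obj M') ≅ (Scheme.Modules.pullback e₁').obj
        ((Scheme.Modules.pullback (baseChangeSnd (pullback.snd c (specOver k K)) t)).obj M')) :=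
    fun t => ⟨(nonempty_pullback_iso_of_comp _ _ _ (hsq t) M').some ≪≫
      (nonempty_pullback_iso_of_comp _ _ _ rfl M').some.symm⟩
  have he₁' : e₁' ≫ pullback.fst _ _ = 𝟙 _ := pullback.lift_fst _ _ _
  obtain ⟨L₀, hL₀⟩ := exists_realizes φ ((hM'.pullback ι).pullback (baseChangeSnd c (w t₀)))
  obtain ⟨L₁, hL₁⟩ := exists_realizes φ ((hM'.pullback ι).pullback (baseChangeSnd c (w t₁)))
  have hc := chi_eq_of_family φ _ (hM'.pullback ι) K (w t₀) (w t₁) hL₀ hL₁
  have hu : LineData.Equivalent L₀ (LineData.unit M K) :=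
    (realizes_iso_iff φ hL₀ (realizes_unit φ)).mp
      ⟨(hiso t₀).some ≪≫ (Scheme.Modules.pullback e₁').mapIso e₀ ≪≫
        Scheme.Modules.pullbackUnitIso e₁'⟩
  have h1 : LineData.Equivalent L₁ L :=
    (realizes_iso_iff φ hL₁ hL).mp
      ⟨(hiso t₁).some ≪≫ (Scheme.Modules.pullback e₁').mapIso e₁ ≪≫
        (nonempty_pullback_iso_of_comp _ _ _ he₁' F).some ≪≫
        (Scheme.Modules.pullbackId _).app F⟩
  rw [← chi_congr h1, ← hc, chi_congr hu, chi_unit, chi_unit]

theorem degZero_unit (t : Spec (CommRingCat.of K) ⟶ Spec (CommRingCat.of k)) :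
    (degZero φ).P t (RigidifiedLineBundle.unit (c := c) (ε := ε) t) := by
  intro K' _ _ _ ψ L hL
  have e := (realizes_iso_iff φ hL (realizes_unit φ)).mp
    ⟨Scheme.Modules.pullbackUnitIso (baseChangeSnd c ψ)⟩
  rw [chi_congr e, chi_unit, chi_unit]

/-- A bundle of degree zero is connected to the trivial one inside the representing scheme. -/
theorem isAlgEquivZero_of_degZero [IsAlgClosed K] (E : SubRep (degZero φ))
    [LocallyOfFiniteType E.toBase] [GeometricallyIntegral E.toBase]
    (Mb : RigidifiedLineBundle c ε (specOver k K)) (hMb : (degZero φ).P (specOver k K) Mb) :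
    IsAlgEquivZero (pullback.snd c (specOver k K)) Mb.L := by
  obtain ⟨g₀, ⟨i₀⟩, -⟩ := E.univ (specOver k K) _ (degZero_unit φ (specOver k K))
  obtain ⟨g₁, ⟨i₁⟩, -⟩ := E.univ (specOver k K) Mb hMb
  let h : pullback E.toBase (specOver k K) ⟶ Spec (CommRingCat.of K) := pullback.snd _ _
  let ψT : SchemeHomOver (h ≫ specOver k K) E.toBase := ⟨pullback.fst _ _, pullback.condition⟩
  let e' : pullback (pullback.snd c (specOver k K)) h ⟶ pullback c (h ≫ specOver k K) :=
    pullback.lift (pullback.fst _ _ ≫ pullback.fst _ _) (pullback.snd _ _) (by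
      rw [Category.assoc, pullback.condition, ← Category.assoc, pullback.condition,
        Category.assoc])
  let pt : SchemeHomOver (specOver k K) E.toBase →
      SchemeHomOver (𝟙 (Spec (CommRingCat.of K))) h :=
    fun g => ⟨pullback.lift g.1 (𝟙 _) (g.2.trans (Category.id_comp _).symm),
      pullback.lift_snd _ _ _⟩
  have hsq : ∀ g, baseChangeSnd (pullback.snd c (specOver k K)) (pt g) ≫ e' ≫
      baseChangeSnd c ψT = pullback.fst _ _ ≫ baseChangeSnd c g := by
    intro g
    have hc' : pullback.fst (pullback.snd c (specOver k K)) (𝟙 _) ≫ pullback.snd c (specOver k K) =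
        pullback.snd _ _ := pullback.condition.trans (Category.comp_id _)
    apply pullback.hom_ext
    · rw [Category.assoc, Category.assoc, baseChangeSnd_fst,
        show e' ≫ pullback.fst _ _ = pullback.fst _ _ ≫ pullback.fst _ _ from
          pullback.lift_fst _ _ _,
        baseChangeSnd_fst_assoc, Category.assoc, baseChangeSnd_fst]
    · rw [Category.assoc, Category.assoc, baseChangeSnd_snd, ← Category.assoc e',
        show e' ≫ pullback.snd _ _ = pullback.snd (pullback.snd c (specOver k K)) h from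
          pullback.lift_snd _ _ _,
        baseChangeSnd_snd_assoc, Category.assoc, baseChangeSnd_snd, reassoc_of% hc']
      exact congrArg (pullback.snd _ _ ≫ ·) (pullback.lift_fst _ _ _)
  refine ⟨_, h, inferInstance, inferInstance,
    (Scheme.Modules.pullback e').obj (E.poincare.pullbackAlong ψT).L,
    (E.poincare.pullbackAlong ψT).isInvertible.pullback e', pt g₀, pt g₁, ?_, ?_⟩
  · exact ⟨(Scheme.Modules.pullback _).mapIso (nonempty_pullback_iso_of_comp _ _ _ rfl _).some ≪≫
      (nonempty_pullback_iso_of_comp _ _ _ (hsq g₀) _).some ≪≫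
      (nonempty_pullback_iso_of_comp _ _ _ rfl _).some.symm ≪≫
      (Scheme.Modules.pullback _).mapIso i₀ ≪≫ Scheme.Modules.pullbackUnitIso _⟩
  · exact ⟨(Scheme.Modules.pullback _).mapIso (nonempty_pullback_iso_of_comp _ _ _ rfl _).some ≪≫
      (nonempty_pullback_iso_of_comp _ _ _ (hsq g₁) _).some ≪≫
      (nonempty_pullback_iso_of_comp _ _ _ rfl _).some.symm ≪≫
      (Scheme.Modules.pullback _).mapIso i₁⟩

/-- The cut of the statement is the degree zero condition. -/
theorem algEquivZeroCut_iff (E : SubRep (degZero φ)) [LocallyOfFiniteType E.toBase]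
    [GeometricallyIntegral E.toBase] {T : Scheme.{u}} (t : T ⟶ Spec (CommRingCat.of k))
    (Mb : RigidifiedLineBundle c ε t) :
    (algEquivZeroCut c ε).P t Mb ↔ (degZero φ).P t Mb := by
  constructor
  · intro hP K _ _ _ ψ L hL
    let e : pullback c (specOver k K) ⟶ pullback (pullback.snd c t) ψ.1 :=
      pullback.lift (baseChangeSnd c ψ) (pullback.snd _ _) (by simp [baseChangeSnd_snd])
    have he : e ≫ fibreAt c t ψ.1 = pullback.snd c (specOver k K) := pullback.lift_snd _ _ _
    have hz := (hP K ψ.1).pullback e he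
    exact chi_eq_of_isAlgEquivZero φ (hz.of_iso
      (nonempty_pullback_iso_of_comp e (pullback.fst (pullback.snd c t) ψ.1) _
        (pullback.lift_fst _ _ _) Mb.L).some) hL
  · intro hP K _ _ s
    obtain ⟨γ, hγ⟩ := Spec.map_surjective (s ≫ t)
    let : Algebra k K := γ.hom.toAlgebra
    let ψ : SchemeHomOver (specOver k K) t := ⟨s, hγ.symm⟩
    have hz := isAlgEquivZero_of_degZero φ E (Mb.pullbackAlong ψ)
      ((degZero φ).pullback_mem t _ ψ Mb hP)
    let e : pullback (pullback.snd c t) s ⟶ pullback c (specOver k K) :=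
      pullback.lift (pullback.fst _ _ ≫ pullback.fst _ _) (pullback.snd _ _) (by
        rw [Category.assoc, pullback.condition, ← Category.assoc, pullback.condition,
          Category.assoc]
        exact congrArg (pullback.snd _ _ ≫ ·) ψ.2)
    have he : e ≫ pullback.snd c (specOver k K) = fibreAt c t s := pullback.lift_snd _ _ _
    refine (hz.pullback e he).of_iso (nonempty_pullback_iso_of_comp e (baseChangeSnd c ψ) _ ?_
      Mb.L).some
    apply pullback.hom_ext
    · rw [Category.assoc, baseChangeSnd_fst]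
      exact pullback.lift_fst _ _ _
    · rw [Category.assoc, baseChangeSnd_snd, pullback.condition, ← Category.assoc,
        show e ≫ pullback.snd _ _ = pullback.snd (pullback.snd c t) s from pullback.lift_snd _ _ _]

end FLTAgent.Jac
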