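import Mathlib

/-!
# S25: algebraic interface for line bundles on a curve covered by two affines

`Model k`: a smooth proper integral curve over `k` given by two affine charts `Rp` (where `x` is
regular) and `Rm` (where `y = 1/x` is regular) with common localisation `Rpm`, both finite free
over the polynomial rings in `x`, resp. `y`.

`LineData M A`: a line bundle on the base change to a `k`-algebra `A`, i.e. invertible modules on
the two charts inside a common module on the overlap.
-/

set_option autoImplicit false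

universe u

open TensorProduct Polynomial

namespace FLTAgent.Jac

variable (k : Type u) [Field k]

structure Model : Type (u + 1) where
  Rp : Type u
  Rm : Type u
  Rpm : Type u
  [ringRp : CommRing Rp]
  [algRp : Algebra k Rp]
  [ringRm : CommRing Rm]
  [algRm : Algebra k Rm]
  [ringRpm : CommRing Rpm]
  [algRpm : Algebra k Rpm]
  [domRpm : IsDomain Rpm]
  x : Rp
  y : Rm
  ip : Rp →ₐ[k] Rpm
  im : Rm →ₐ[k] Rpm
  ip_inj : Function.Injective ip
  im_inj : Function.Injective im
  ip_x_mul_im_y : ip x * im y = 1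
  ip_surj : ∀ r : Rpm, ∃ (i : ℕ) (s : Rp), ip x ^ i * r = ip s
  im_surj : ∀ r : Rpm, ∃ (i : ℕ) (s : Rm), im y ^ i * r = im s
  d : ℕ
  d_pos : 0 < d
  basis_p : ∃ b : Fin d → Rp,
    Function.Bijective fun c : Fin d → k[X] => ∑ i, Polynomial.aeval x (c i) * b i
  basis_m : ∃ b : Fin d → Rm,
    Function.Bijective fun c : Fin d → k[X] => ∑ i, Polynomial.aeval y (c i) * b i
  glob : ∀ (a : Rp) (b : Rm), ip a = im b → ∃ c : k, a = algebraMap k Rp c
  dedekind_p : ∀ (K : Type u) [Field K] [Algebra k K] [IsAlgClosed K],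
    IsDomain (K ⊗[k] Rp) ∧ IsDedekindDomain (K ⊗[k] Rp)
  dedekind_m : ∀ (K : Type u) [Field K] [Algebra k K] [IsAlgClosed K],
    IsDomain (K ⊗[k] Rm) ∧ IsDedekindDomain (K ⊗[k] Rm)

attribute [instance] Model.ringRp Model.algRp Model.ringRm Model.algRm Model.ringRpm
  Model.algRpm Model.domRpm

variable {k}

namespace Model

variable (M : Model k)

/-- The same model with the two charts exchanged. -/
@[reducible] def swap : Model k where
  Rp := M.Rm
  Rm := M.Rp
  Rpm := M.Rpm
  x := M.y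
  y := M.x
  ip := M.im
  im := M.ip
  ip_inj := M.im_inj
  im_inj := M.ip_inj
  ip_x_mul_im_y := (mul_comm _ _).trans M.ip_x_mul_im_y
  ip_surj := M.im_surj
  im_surj := M.ip_surj
  d := M.d
  d_pos := M.d_pos
  basis_p := M.basis_m
  basis_m := M.basis_p
  glob := fun a b h => by
    obtain ⟨c, hc⟩ := M.glob b a h.symm
    refine ⟨c, M.im_inj ?_⟩
    rw [h, hc, AlgHom.commutes, AlgHom.commutes]
  dedekind_p := M.dedekind_m
  dedekind_m := M.dedekind_p

variable (A : Type u) [CommRing A] [Algebra k A]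

/-- `Γ(U₊ ×ₖ Spec A, O)`. -/
abbrev Ap : Type u := A ⊗[k] M.Rp

/-- `Γ(U₋ ×ₖ Spec A, O)`. -/
abbrev Am : Type u := A ⊗[k] M.Rm

/-- `Γ(U₊₋ ×ₖ Spec A, O)`. -/
abbrev Apm : Type u := A ⊗[k] M.Rpm

noncomputable def ipA : M.Ap A →ₐ[A] M.Apm A :=
  Algebra.TensorProduct.map (AlgHom.id A A) M.ip

noncomputable def imA : M.Am A →ₐ[A] M.Apm A :=
  Algebra.TensorProduct.map (AlgHom.id A A) M.im

/-- The coordinate `x` as a unit on the overlap. -/
noncomputable def xU : (M.Apm A)ˣ :=
  Units.map (Algebra.TensorProduct.includeRight (R := k) (A := A) (B := M.Rpm)).toMonoidHom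
    ⟨M.ip M.x, M.im M.y, M.ip_x_mul_im_y, (mul_comm _ _).trans M.ip_x_mul_im_y⟩

variable {A}
variable {B : Type u} [CommRing B] [Algebra k B]

noncomputable def mapP (f : A →ₐ[k] B) : M.Ap A →ₐ[k] M.Ap B :=
  Algebra.TensorProduct.map f (AlgHom.id k M.Rp)

noncomputable def mapM (f : A →ₐ[k] B) : M.Am A →ₐ[k] M.Am B :=
  Algebra.TensorProduct.map f (AlgHom.id k M.Rm)

noncomputable def mapPM (f : A →ₐ[k] B) : M.Apm A →ₐ[k] M.Apm B :=
  Algebra.TensorProduct.map f (AlgHom.id k M.Rpm)

/-- An `A`-valued point of `U₊` as an `A`-algebra map. -/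
noncomputable def ptP (σ : M.Rp →ₐ[k] A) : M.Ap A →ₐ[A] A :=
  Algebra.TensorProduct.lift (AlgHom.id A A) σ fun _ _ => mul_comm _ _

/-- An `A`-valued point of `U₋` as an `A`-algebra map. -/
noncomputable def ptM (σ : M.Rm →ₐ[k] A) : M.Am A →ₐ[A] A :=
  Algebra.TensorProduct.lift (AlgHom.id A A) σ fun _ _ => mul_comm _ _

/-- A constant `A`-point from a `k`-point. -/
noncomputable def constPt {R : Type u} [CommRing R] [Algebra k R] (q : R →ₐ[k] k)
    (A : Type u) [CommRing A] [Algebra k A] : R →ₐ[k] A :=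
  (Algebra.ofId k A).comp q

variable (A)

/-- The constant family of an ideal of `Rp`. -/
noncomputable def constIdeal (J : Ideal M.Rp) : Ideal (M.Ap A) :=
  J.map (Algebra.TensorProduct.includeRight (R := k) (A := A) (B := M.Rp))

end Model

variable {M : Model k}

/-- An effective relative divisor contained in the chart `U₊`, of degree `r`. -/
structure IsDivDeg {A : Type u} [CommRing A] [Algebra k A] (I : Ideal (M.Ap A)) (r : ℕ) :
    Prop where
  finite : Module.Finite A (M.Ap A ⧸ I)
  projective : Module.Projective A (M.Ap A ⧸ I)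
  rank : ∀ p : PrimeSpectrum A, Module.rankAtStalk (R := A) (M.Ap A ⧸ I) p = r

/-- The images of `b` form a basis of the quotient by `I`. -/
def HasBasis {A : Type u} [CommRing A] [Algebra k A] (I : Ideal (M.Ap A)) {r : ℕ}
    (b : Fin r → M.Rp) : Prop :=
  Function.Bijective fun a : Fin r → A => Ideal.Quotient.mk I (∑ i, a i ⊗ₜ[k] b i)

variable (M) in
/-- A line bundle on the curve over `A`: modules on the two charts inside a module on the overlap. -/
structure LineData (A : Type u) [CommRing A] [Algebra k A] : Type (u + 1) where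
  Mp : Type u
  Mm : Type u
  N : Type u
  [addMp : AddCommGroup Mp]
  [modMp : Module (M.Ap A) Mp]
  [modAMp : Module A Mp]
  [towMp : IsScalarTower A (M.Ap A) Mp]
  [invMp : Module.Invertible (M.Ap A) Mp]
  [addMm : AddCommGroup Mm]
  [modMm : Module (M.Am A) Mm]
  [modAMm : Module A Mm]
  [towMm : IsScalarTower A (M.Am A) Mm]
  [invMm : Module.Invertible (M.Am A) Mm]
  [addN : AddCommGroup N]
  [modN : Module (M.Apm A) N]
  [modAN : Module A N]
  [towN : IsScalarTower A (M.Apm A) N]
  [invN : Module.Invertible (M.Apm A) N]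
  ρp : Mp →ₛₗ[(M.ipA A).toRingHom] N
  ρm : Mm →ₛₗ[(M.imA A).toRingHom] N
  ρp_inj : Function.Injective ρp
  ρm_inj : Function.Injective ρm
  ρp_surj : ∀ n : N, ∃ (i : ℕ) (m : Mp), (M.xU A : M.Apm A) ^ i • n = ρp m
  ρm_surj : ∀ n : N, ∃ (i : ℕ) (m : Mm), (↑(M.xU A)⁻¹ : M.Apm A) ^ i • n = ρm m

attribute [instance] LineData.addMp LineData.modMp LineData.modAMp LineData.towMp LineData.invMp
  LineData.addMm LineData.modMm LineData.modAMm LineData.towMm LineData.invMm
  LineData.addN LineData.modN LineData.modAN LineData.towN LineData.invN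

theorem Model.swap_xU (M : Model k) (A : Type u) [CommRing A] [Algebra k A] :
    (M.swap.xU A : M.Apm A) = ↑(M.xU A)⁻¹ := rfl

namespace LineData

variable {A : Type u} [CommRing A] [Algebra k A]

/-- `(a, b) ↦ a - b` on the overlap; its kernel is `H⁰`, its cokernel `H¹`. -/
noncomputable def diff (L : LineData M A) : (L.Mp × L.Mm) →ₗ[A] L.N where
  toFun v := L.ρp v.1 - L.ρm v.2
  map_add' v w := by simp only [Prod.fst_add, Prod.snd_add, map_add]; abel
  map_smul' a v := by
    rw [RingHom.id_apply, Prod.smul_fst, Prod.smul_snd, smul_sub,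
      ← IsScalarTower.algebraMap_smul (M.Ap A) a v.1,
      ← IsScalarTower.algebraMap_smul (M.Am A) a v.2, map_smulₛₗ, map_smulₛₗ]
    simp only [AlgHom.toRingHom_eq_coe, RingHom.coe_coe, AlgHom.commutes,
      IsScalarTower.algebraMap_smul]

noncomputable abbrev H0 (L : LineData M A) : Submodule A (L.Mp × L.Mm) := LinearMap.ker L.diff

noncomputable abbrev H1 (L : LineData M A) : Type u := L.N ⧸ LinearMap.range L.diff

/-- `H¹ = 0`. -/
def Acyclic (L : LineData M A) : Prop := Function.Surjective L.diff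

/-- The Euler characteristic (meaningful over a field). -/
noncomputable def chi (L : LineData M A) : ℤ :=
  (Module.finrank A L.H0 : ℤ) - (Module.finrank A L.H1 : ℤ)

/-- The same bundle seen in the exchanged model. -/
@[reducible] noncomputable def swap (L : LineData M A) : LineData M.swap A where
  Mp := L.Mm
  Mm := L.Mp
  N := L.N
  addMp := L.addMm
  modMp := L.modMm
  modAMp := L.modAMm
  towMp := L.towMm
  invMp := L.invMm
  addMm := L.addMp
  modMm := L.modMp
  modAMm := L.modAMp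
  towMm := L.towMp
  invMm := L.invMp
  addN := L.addN
  modN := L.modN
  modAN := L.modAN
  towN := L.towN
  invN := L.invN
  ρp := L.ρm
  ρm := L.ρp
  ρp_inj := L.ρm_inj
  ρm_inj := L.ρp_inj
  ρp_surj := fun n => L.ρm_surj n
  ρm_surj := fun n => L.ρp_surj n

/-- Twist by `i` times the polar divisor of `x`. -/
@[reducible] noncomputable def twist (L : LineData M A) (i : ℤ) : LineData M A where
  Mp := L.Mp
  Mm := L.Mm
  N := L.N
  ρp := L.ρp
  ρm :=
    { toFun := fun m => (↑(M.xU A ^ i) : M.Apm A) • L.ρm m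
      map_add' := fun m m' => by rw [map_add, smul_add]
      map_smul' := fun r m => by rw [map_smulₛₗ, smul_comm] }
  ρp_inj := L.ρp_inj
  ρm_inj := fun m m' h => L.ρm_inj ((M.xU A ^ i).isUnit.smul_left_cancel.mp h)
  ρp_surj := L.ρp_surj
  ρm_surj := fun n => by
    obtain ⟨j, m, hm⟩ := L.ρm_surj ((↑(M.xU A ^ i)⁻¹ : M.Apm A) • n)
    refine ⟨j, m, ?_⟩
    show _ = (↑(M.xU A ^ i) : M.Apm A) • L.ρm m
    rw [← hm, smul_smul, smul_smul, mul_comm _ ((↑(M.xU A)⁻¹ : M.Apm A) ^ j), mul_assoc,
      Units.mul_inv, mul_one]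

structure Hom (L' L : LineData M A) : Type u where
  fp : L'.Mp →ₗ[M.Ap A] L.Mp
  fm : L'.Mm →ₗ[M.Am A] L.Mm
  fn : L'.N →ₗ[M.Apm A] L.N
  comm_p : ∀ m, fn (L'.ρp m) = L.ρp (fp m)
  comm_m : ∀ m, fn (L'.ρm m) = L.ρm (fm m)

/-- Isomorphism of line bundles. -/
def Equivalent (L' L : LineData M A) : Prop :=
  ∃ f : Hom L' L, Function.Bijective f.fp ∧ Function.Bijective f.fm ∧ Function.Bijective f.fn

/-- `L' = L(-Z)` for the divisor `Z ⊆ U₊` with ideal `I`. -/
def IsSub (L L' : LineData M A) (I : Ideal (M.Ap A)) : Prop :=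
  ∃ f : Hom L' L, Function.Injective f.fp ∧ Function.Injective f.fm ∧ Function.Injective f.fn ∧
    LinearMap.range f.fp = I • ⊤ ∧
    ∀ m : L.Mm, m ∈ LinearMap.range f.fm ↔ L.ρm m ∈ LinearMap.range f.fn

/-- `L' = L(-Z)` for the divisor `Z ⊆ U₋` with ideal `J`. -/
def IsSubm (L L' : LineData M A) (J : Ideal (M.Am A)) : Prop :=
  ∃ f : Hom L' L, Function.Injective f.fp ∧ Function.Injective f.fm ∧ Function.Injective f.fn ∧
    LinearMap.range f.fm = J • ⊤ ∧
    ∀ m : L.Mp, m ∈ LinearMap.range f.fp ↔ L.ρp m ∈ LinearMap.range f.fn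

/-- Trivial along the section given by `e`. -/
def Rigidifiable (e : M.Rm →ₐ[k] k) (L : LineData M A) : Prop :=
  ∃ φ : L.Mm →ₛₗ[(M.ptM (Model.constPt e A)).toRingHom] A, Function.Surjective φ

variable {B : Type u} [CommRing B] [Algebra k B]

structure BCHom (f : A →ₐ[k] B) (L : LineData M A) (L' : LineData M B) : Type u where
  fp : L.Mp →ₛₗ[(M.mapP f).toRingHom] L'.Mp
  fm : L.Mm →ₛₗ[(M.mapM f).toRingHom] L'.Mm
  fn : L.N →ₛₗ[(M.mapPM f).toRingHom] L'.N
  comm_p : ∀ m, fn (L.ρp m) = L'.ρp (fp m)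
  comm_m : ∀ m, fn (L.ρm m) = L'.ρm (fm m)

/-- `L'` is the base change of `L` along `f`. -/
def IsBC (f : A →ₐ[k] B) (L : LineData M A) (L' : LineData M B) : Prop :=
  ∃ φ : BCHom f L L', Submodule.span (M.Ap B) (Set.range φ.fp) = ⊤ ∧
    Submodule.span (M.Am B) (Set.range φ.fm) = ⊤

end LineData

namespace LineData

variable {A : Type u} [CommRing A] [Algebra k A]

theorem exists_ipA_eq (n : M.Apm A) :
    ∃ (i : ℕ) (m : M.Ap A), (M.xU A : M.Apm A) ^ i * n = M.ipA A m := by
  induction n using TensorProduct.induction_on with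
  | zero => exact ⟨0, 0, by simp⟩
  | tmul a r =>
    obtain ⟨i, s, hs⟩ := M.ip_surj r
    refine ⟨i, a ⊗ₜ s, ?_⟩
    rw [Model.ipA, Algebra.TensorProduct.map_tmul, ← hs]
    simp [Model.xU, Algebra.TensorProduct.tmul_mul_tmul, Algebra.TensorProduct.tmul_pow]
  | add n n' h h' =>
    obtain ⟨i, m, hm⟩ := h
    obtain ⟨i', m', hm'⟩ := h'
    refine ⟨i + i', (1 ⊗ₜ M.x) ^ i' * m + (1 ⊗ₜ M.x) ^ i * m', ?_⟩
    have hx : M.ipA A ((1 : A) ⊗ₜ M.x) = (M.xU A : M.Apm A) := by
      simp [Model.ipA, Model.xU]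
    rw [map_add, map_mul, map_mul, map_pow, map_pow, hx, ← hm, ← hm', pow_add]
    ring

end LineData

variable (M)

/-- The structure sheaf. -/
@[reducible] noncomputable def LineData.unit (A : Type u) [CommRing A] [Algebra k A] :
    LineData M A where
  Mp := M.Ap A
  Mm := M.Am A
  N := M.Apm A
  ρp :=
    { toFun := M.ipA A
      map_add' := map_add _
      map_smul' := fun r m => map_mul (M.ipA A) r m }
  ρm :=
    { toFun := M.imA A
      map_add' := map_add _
      map_smul' := fun r m => map_mul (M.imA A) r m }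
  ρp_inj := Module.Flat.lTensor_preserves_injective_linearMap M.ip.toLinearMap M.ip_inj
  ρm_inj := Module.Flat.lTensor_preserves_injective_linearMap M.im.toLinearMap M.im_inj
  ρp_surj := fun n => LineData.exists_ipA_eq n
  ρm_surj := fun n => by
    obtain ⟨i, m, hm⟩ := LineData.exists_ipA_eq (M := M.swap) n
    exact ⟨i, m, hm⟩

/-- The genus. -/
noncomputable def Model.genus : ℕ := Module.finrank k (LineData.unit M k).H1

variable {M}

/-- All geometric fibres have degree `r`. -/
def LineData.FibreDeg {A : Type u} [CommRing A] [Algebra k A] (L : LineData M A) (r : ℤ) : Prop :=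
  ∀ (K : Type u) [Field K] [Algebra k K] [IsAlgClosed K] (f : A →ₐ[k] K) (L' : LineData M K),
    LineData.IsBC f L L' → L'.chi = (LineData.unit M k).chi + r

/-- The open chart attached to the twist `n` and the constant divisor with ideal `J`. -/
def LineData.InChart {A : Type u} [CommRing A] [Algebra k A] (n : ℕ) (J : Ideal M.Rp)
    (L : LineData M A) : Prop :=
  L.FibreDeg 0 ∧ ∀ q : M.Rm →ₐ[k] k, q M.y = 0 → ∀ L₁ L₂ : LineData M A,
    LineData.IsSub (L.twist n) L₁ (M.constIdeal A J) →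
    LineData.IsSubm L₁ L₂ (RingHom.ker (M.ptM (Model.constPt q A))) → L₂.Acyclic

/-- `L` corresponds to the divisor with ideal `I` in the chart `(n, J)`:
`L(nD - E) ≅ O(Z)`. -/
def LineData.Corresp {A : Type u} [CommRing A] [Algebra k A] (n : ℕ) (J : Ideal M.Rp)
    (L : LineData M A) (I : Ideal (M.Ap A)) : Prop :=
  ∃ L₁ : LineData M A, LineData.IsSub (L.twist n) L₁ (M.constIdeal A J) ∧
    LineData.IsSub L₁ (LineData.unit M A) I

end FLTAgent.Jac
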