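import Fermat.Agent.Jac.Defs
import Fermat.Prelude.Def_AlgebraicGeometry_RelPicardAlgEquivZeroCut

/-!
# S25: scheme-theoretic interface
-/

set_option autoImplicit false

universe u

open CategoryTheory CategoryTheory.Limits AlgebraicGeometry AlgebraicGeometry.RelPicard
  NeronModelInfra TensorProduct

namespace FLTAgent.Jac

variable {k : Type u} [Field k] {C : Scheme.{u}}

/-- A model of `C` by two affine charts, the section landing at the zero `e` of `y`. -/
structure CurveChart (c : C ⟶ Spec (CommRingCat.of k))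
    (ε : SchemeHomOver (𝟙 (Spec (CommRingCat.of k))) c) (M : Model k) : Type u where
  e : M.Rm →ₐ[k] k
  e_y : e M.y = 0
  jp : Spec (CommRingCat.of M.Rp) ⟶ C
  jm : Spec (CommRingCat.of M.Rm) ⟶ C
  [jp_open : IsOpenImmersion jp]
  [jm_open : IsOpenImmersion jm]
  jp_over : jp ≫ c = Spec.map (CommRingCat.ofHom (algebraMap k M.Rp))
  jm_over : jm ≫ c = Spec.map (CommRingCat.ofHom (algebraMap k M.Rm))
  cover : ∀ p : C, p ∈ Set.range jp.base ∨ p ∈ Set.range jm.base
  overlap : IsPullback (Spec.map (CommRingCat.ofHom M.ip.toRingHom))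
    (Spec.map (CommRingCat.ofHom M.im.toRingHom)) jp jm
  eps : Spec.map (CommRingCat.ofHom e.toRingHom) ≫ jm = ε.1

attribute [instance] CurveChart.jp_open CurveChart.jm_open

/-- The structure map of an affine test scheme. -/
noncomputable abbrev specOver (k : Type u) [Field k] (A : Type u) [CommRing A] [Algebra k A] :
    Spec (CommRingCat.of A) ⟶ Spec (CommRingCat.of k) :=
  Spec.map (CommRingCat.ofHom (algebraMap k A))

namespace CurveChart

variable {c : C ⟶ Spec (CommRingCat.of k)}
  {ε : SchemeHomOver (𝟙 (Spec (CommRingCat.of k))) c} {M : Model k}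

/-- The chart `U₊ × Spec A ⟶ C × Spec A`. -/
noncomputable def jpA (φ : CurveChart c ε M) (A : Type u) [CommRing A] [Algebra k A] :
    Spec (CommRingCat.of (M.Ap A)) ⟶ pullback c (specOver k A) :=
  pullback.lift
    (Spec.map (CommRingCat.ofHom
      (Algebra.TensorProduct.includeRight (R := k) (A := A) (B := M.Rp)).toRingHom) ≫ φ.jp)
    (Spec.map (CommRingCat.ofHom (algebraMap A (M.Ap A))))
    (by
      rw [Category.assoc, φ.jp_over, specOver, ← Spec.map_comp, ← Spec.map_comp]
      congr 1
      ext r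
      exact ((Algebra.TensorProduct.includeRight (R := k) (A := A) (B := M.Rp)).commutes r).trans
        (IsScalarTower.algebraMap_apply k A (M.Ap A) r))

/-- The chart `U₋ × Spec A ⟶ C × Spec A`. -/
noncomputable def jmA (φ : CurveChart c ε M) (A : Type u) [CommRing A] [Algebra k A] :
    Spec (CommRingCat.of (M.Am A)) ⟶ pullback c (specOver k A) :=
  pullback.lift
    (Spec.map (CommRingCat.ofHom
      (Algebra.TensorProduct.includeRight (R := k) (A := A) (B := M.Rm)).toRingHom) ≫ φ.jm)
    (Spec.map (CommRingCat.ofHom (algebraMap A (M.Am A))))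
    (by
      rw [Category.assoc, φ.jm_over, specOver, ← Spec.map_comp, ← Spec.map_comp]
      congr 1
      ext r
      exact ((Algebra.TensorProduct.includeRight (R := k) (A := A) (B := M.Rm)).commutes r).trans
        (IsScalarTower.algebraMap_apply k A (M.Am A) r))

end CurveChart

section Rep

variable {R : Type u} [CommRing R] {c : C ⟶ Spec (CommRingCat.of R)}
  {ε : SchemeHomOver (𝟙 (Spec (CommRingCat.of R))) c}

/-- Automorphisms of rigidified bundles that are trivial along the section are trivial. -/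
def RigidAut (c : C ⟶ Spec (CommRingCat.of R))
    (ε : SchemeHomOver (𝟙 (Spec (CommRingCat.of R))) c) : Prop :=
  ∀ {T : Scheme.{u}} (t : T ⟶ Spec (CommRingCat.of R)) (M : RigidifiedLineBundle c ε t)
    (a : M.L ≅ M.L),
    (Scheme.Modules.pullback (rigSection c t ε)).map a.hom = 𝟙 _ → a.hom = 𝟙 _

/-- A condition on rigidified bundles, stable under isomorphism and pullback (unlike
`SubPicCondition`, it need not hold for the trivial bundle). -/
structure BundleCond (c : C ⟶ Spec (CommRingCat.of R))
    (ε : SchemeHomOver (𝟙 (Spec (CommRingCat.of R))) c) : Type (u + 1) where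
  P : ∀ {T : Scheme.{u}} (t : T ⟶ Spec (CommRingCat.of R)), RigidifiedLineBundle c ε t → Prop
  congr : ∀ {T : Scheme.{u}} (t : T ⟶ Spec (CommRingCat.of R))
    (M M' : RigidifiedLineBundle c ε t), Nonempty (M.L ≅ M'.L) → P t M → P t M'
  pullback_mem : ∀ {T T' : Scheme.{u}} (t : T ⟶ Spec (CommRingCat.of R))
    (t' : T' ⟶ Spec (CommRingCat.of R)) (ψ : SchemeHomOver t' t)
    (M : RigidifiedLineBundle c ε t), P t M → P t' (M.pullbackAlong ψ)

/-- Forget that the trivial bundle satisfies the condition. -/
def BundleCond.ofSubPic (S : SubPicCondition c ε) : BundleCond c ε where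
  P := S.P
  congr := S.congr
  pullback_mem := S.pullback_mem

/-- `g : T' ⟶ T` as a morphism over the base, with source structure map `g ≫ t`. -/
def overMap {T T' : Scheme.{u}} (t : T ⟶ Spec (CommRingCat.of R)) (g : T' ⟶ T) :
    SchemeHomOver (g ≫ t) t :=
  ⟨g, rfl⟩

/-- A condition that can be checked on an open cover of the test scheme. -/
def IsLocalCond (S : BundleCond c ε) : Prop :=
  ∀ {T : Scheme.{u}} (t : T ⟶ Spec (CommRingCat.of R)) (M : RigidifiedLineBundle c ε t)
    (𝒰 : Scheme.OpenCover.{u} T),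
    (∀ i, S.P (𝒰.f i ≫ t) (M.pullbackAlong (overMap t (𝒰.f i)))) → S.P t M

/-- `S'` is an open subcondition of `S`. -/
def IsOpenSubCond (S' S : BundleCond c ε) : Prop :=
  (∀ {T : Scheme.{u}} (t : T ⟶ Spec (CommRingCat.of R)) (M : RigidifiedLineBundle c ε t),
    S'.P t M → S.P t M) ∧
  ∀ {T : Scheme.{u}} (t : T ⟶ Spec (CommRingCat.of R)) (M : RigidifiedLineBundle c ε t),
    S.P t M → ∃ U : T.Opens, ∀ {T' : Scheme.{u}} (t' : T' ⟶ Spec (CommRingCat.of R))
      (ψ : SchemeHomOver t' t),
      S'.P t' (M.pullbackAlong ψ) ↔ Set.range ψ.1.base ⊆ (U : Set T)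

/-- A scheme representing a subcondition. -/
structure SubRep (S : BundleCond c ε) : Type (u + 1) where
  P : Scheme.{u}
  toBase : P ⟶ Spec (CommRingCat.of R)
  poincare : RigidifiedLineBundle c ε toBase
  poincare_mem : S.P toBase poincare
  univ : ∀ {T : Scheme.{u}} (t : T ⟶ Spec (CommRingCat.of R)) (M : RigidifiedLineBundle c ε t),
    S.P t M → ∃! g : SchemeHomOver t toBase, Nonempty ((poincare.pullbackAlong g).L ≅ M.L)

end Rep

end FLTAgent.Jac
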