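import Fermat.Agent.Jac.TensorDomain

/-!
# Integral schemes over an algebraically closed field are geometrically integral
-/

set_option autoImplicit false

universe u

open CategoryTheory CategoryTheory.Limits AlgebraicGeometry TensorProduct

namespace FLTAgent.Jac

theorem geometricallyIntegral_of_isIntegral {k : Type u} [Field k] [IsAlgClosed k] {X : Scheme.{u}}
    (f : X ⟶ Spec (CommRingCat.of k)) [IsIntegral X] : GeometricallyIntegral f := by
  constructor
  intro K _ y Z fst snd hP
  suffices IsIntegral (pullback f y) from IsIntegral.of_isIso hP.isoPullback.inv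
  let 𝒜 := X.affineOpenCover
  let 𝒱 : Scheme.OpenCover.{u} (pullback f y) :=
    Scheme.Pullback.openCoverOfLeft 𝒜.openCover f y
  obtain ⟨γ, rfl⟩ := Spec.map_surjective y
  let : Algebra k K := γ.hom.toAlgebra
  have key : ∀ i : 𝒜.I₀, IsReduced (pullback (𝒜.f i ≫ f) (Spec.map γ)) ∧
      (Nonempty (Spec (𝒜.X i) : Scheme) →
        IrreducibleSpace (pullback (𝒜.f i ≫ f) (Spec.map γ) : Scheme)) := by
    intro i
    obtain ⟨ρ, hρ⟩ := Spec.map_surjective (𝒜.f i ≫ f)
    by_cases hne : Nonempty (Spec (𝒜.X i) : Scheme)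
    · have : IsOpenImmersion (𝒜.f i) := 𝒜.openCover.map_prop i
      have hint : IsIntegral (Spec (𝒜.X i)) := isIntegral_of_isOpenImmersion (𝒜.f i)
      have hd : IsDomain (𝒜.X i) := (affine_isIntegral_iff _).mp hint
      let : Algebra k (𝒜.X i) := ρ.hom.toAlgebra
      have hd' : IsDomain ((𝒜.X i) ⊗[k] K) := isDomain_tensor
      have : IsIntegral (Spec (CommRingCat.of ((𝒜.X i) ⊗[k] K))) :=
        (affine_isIntegral_iff _).mpr hd'
      have hint' : IsIntegral (pullback (𝒜.f i ≫ f) (Spec.map γ)) := by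
        rw [← hρ]
        exact IsIntegral.of_isIso (pullbackSpecIso k (𝒜.X i) K).inv
      exact ⟨inferInstance, fun _ => inferInstance⟩
    · refine ⟨?_, fun h => absurd h hne⟩
      have : IsEmpty (pullback (𝒜.f i ≫ f) (Spec.map γ) : Scheme) :=
        ⟨fun z => hne ⟨(pullback.fst (𝒜.f i ≫ f) (Spec.map γ)).base z⟩⟩
      exact @isReduced_of_isReduced_stalk _ fun x => isEmptyElim x
  have hred : IsReduced (pullback f (Spec.map γ)) :=
    (IsReduced.iff_of_openCover _ 𝒱).mpr fun i => (key i).1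
  have hsurj : Surjective (pullback.fst f (Spec.map γ)) := by
    have : Surjective (Spec.map γ) :=
      ⟨fun x => ⟨(inferInstance : Nonempty (Spec (CommRingCat.of K))).some,
        Subsingleton.elim _ _⟩⟩
    infer_instance
  have : IrreducibleSpace (pullback f (Spec.map γ) : Scheme) := by
    have hne : Nonempty (pullback f (Spec.map γ) : Scheme) := by
      obtain ⟨z, -⟩ := (pullback.fst f (Spec.map γ)).surjective (Classical.arbitrary X)
      exact ⟨z⟩
    have hpre : PreirreducibleSpace (pullback f (Spec.map γ) : Scheme) := by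
      refine ⟨fun O₁ O₂ hO₁ hO₂ ⟨a, _, ha⟩ ⟨b, _, hb⟩ => ?_⟩
      obtain ⟨i, a', rfl⟩ := 𝒱.exists_eq a
      obtain ⟨j, b', rfl⟩ := 𝒱.exists_eq b
      have hi : IrreducibleSpace (𝒱.X i) := (key i).2
        ⟨(pullback.fst (𝒜.f i ≫ f) (Spec.map γ)).base a'⟩
      have hj : IrreducibleSpace (𝒱.X j) := (key j).2
        ⟨(pullback.fst (𝒜.f j ≫ f) (Spec.map γ)).base b'⟩
      have hVi := (𝒱.f i).isOpenEmbedding
      have hVj := (𝒱.f j).isOpenEmbedding
      have : IsOpenImmersion (𝒜.f i) := 𝒜.openCover.map_prop i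
      have : IsOpenImmersion (𝒜.f j) := 𝒜.openCover.map_prop j
      -- the two pieces meet
      obtain ⟨x, hxi, hxj⟩ : (Set.range (𝒜.f i).base ∩
          Set.range (𝒜.f j).base).Nonempty :=
        nonempty_preirreducible_inter (𝒜.f i).isOpenEmbedding.isOpen_range
          (𝒜.f j).isOpenEmbedding.isOpen_range
          ⟨_, ⟨(pullback.fst (𝒜.f i ≫ f) (Spec.map γ)).base a', rfl⟩⟩
          ⟨_, ⟨(pullback.fst (𝒜.f j ≫ f) (Spec.map γ)).base b', rfl⟩⟩
      obtain ⟨z, hz⟩ := (pullback.fst f (Spec.map γ)).surjective x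
      have hmem : ∀ l, x ∈ Set.range (𝒜.f l).base → z ∈ Set.range (𝒱.f l).base := by
        intro l hl
        have heq : Set.range (𝒱.f l).base =
            (pullback.fst f (Spec.map γ)).base ⁻¹' Set.range (𝒜.f l).base := by
          show Set.range (pullback.map (𝒜.f l ≫ f) (Spec.map γ) f (Spec.map γ)
            (𝒜.f l) (𝟙 _) (𝟙 _) (Category.comp_id _) (by simp)).base = _
          rw [Scheme.Pullback.range_map]
          simp
        rw [heq, Set.mem_preimage, hz]
        exact hl
      obtain ⟨i', hi'⟩ := hmem i hxi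
      obtain ⟨w, hw₁, hw₂⟩ := nonempty_preirreducible_inter
        (hVi.isOpen_range.preimage hVi.continuous |>.inter
          ((hVj.isOpen_range.preimage hVi.continuous)))
        (hO₁.preimage hVi.continuous)
        ⟨i', ⟨i', rfl⟩, by
          show (𝒱.f i).base i' ∈ Set.range (𝒱.f j).base
          rw [hi']; exact hmem j hxj⟩ ⟨a', ha⟩
      obtain ⟨w', hw'⟩ := hw₁.2
      obtain ⟨v, hv₁, hv₂⟩ := nonempty_preirreducible_inter
        (hO₁.preimage hVj.continuous) (hO₂.preimage hVj.continuous)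
        ⟨w', by show _ ∈ O₁; rw [hw']; exact hw₂⟩ ⟨b', hb⟩
      exact ⟨(𝒱.f j).base v, trivial, hv₁, hv₂⟩
    exact { hpre with toNonempty := hne }
  exact (isIntegral_iff_irreducibleSpace_and_isReduced _).mpr ⟨this, hred⟩

end FLTAgent.Jac
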