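import Fermat.Agent.Jac.Glue.RepGlue

/-! # S25: gluing rigidified bundles and representing a condition -/

set_option autoImplicit false

universe u

open CategoryTheory CategoryTheory.Limits AlgebraicGeometry AlgebraicGeometry.RelPicard
  NeronModelInfra

namespace FLTAgent.Jac

variable {R : Type u} [CommRing R] {C : Scheme.{u}} {c : C ⟶ Spec (CommRingCat.of R)}
  {ε : SchemeHomOver (𝟙 (Spec (CommRingCat.of R))) c}

/-- It is enough to test the universal property on affine schemes. -/
theorem univ_of_affine (hR : RigidAut c ε) (S : BundleCond c ε)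
    {P : Scheme.{u}} (toBase : P ⟶ Spec (CommRingCat.of R))
    (poincare : RigidifiedLineBundle c ε toBase) (hmem : S.P toBase poincare)
    (huniv : ∀ (A : CommRingCat.{u}) (t : Spec A ⟶ Spec (CommRingCat.of R))
      (M : RigidifiedLineBundle c ε t), S.P t M →
        ∃! g : SchemeHomOver t toBase, Nonempty ((poincare.pullbackAlong g).L ≅ M.L))
    {T : Scheme.{u}} (t : T ⟶ Spec (CommRingCat.of R)) (M : RigidifiedLineBundle c ε t)
    (hM : S.P t M) :
    ∃! g : SchemeHomOver t toBase, Nonempty ((poincare.pullbackAlong g).L ≅ M.L) :=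
  univ_of_affine' hR S toBase poincare hmem huniv t M hM

/-- An open subcondition of a represented condition is represented by an open subscheme. -/
theorem SubRep.restrict {S' S : BundleCond c ε} (h : IsOpenSubCond S' S) (D : SubRep S) :
    ∃ (D' : SubRep S') (f : D'.P ⟶ D.P), IsOpenImmersion f ∧ f ≫ D.toBase = D'.toBase :=
  SubRep.restrict' h D

/-- A local condition covered by open represented subconditions is represented; the pieces are
open subschemes covering the representing scheme. -/
theorem exists_subRep_of_cover (hR : RigidAut c ε) (S : BundleCond c ε) (hS : IsLocalCond S)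
    {ι : Type u} (Si : ι → BundleCond c ε) (hopen : ∀ i, IsOpenSubCond (Si i) S)
    (D : ∀ i, SubRep (Si i))
    (hcover : ∀ (K : Type u) [Field K] [IsAlgClosed K]
      (t : Spec (CommRingCat.of K) ⟶ Spec (CommRingCat.of R)) (M : RigidifiedLineBundle c ε t),
      S.P t M → ∃ i, (Si i).P t M) :
    ∃ (E : SubRep S) (f : ∀ i, (D i).P ⟶ E.P), (∀ i, IsOpenImmersion (f i)) ∧
      (∀ i, f i ≫ E.toBase = (D i).toBase) ∧ (∀ p : E.P, ∃ i, p ∈ Set.range (f i).base) :=
  exists_subRep_of_cover' S Si hopen D hR hS hcover

end FLTAgent.Jac
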