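import Fermat.Agent.Jac.Hilb.Locus
import Fermat.Agent.Jac.Hilb.Generic

/-! # S25: divisor charts, lifting, valuative uniqueness -/

set_option autoImplicit false

universe u

open TensorProduct

namespace FLTAgent.Jac

open LineData

variable {k : Type u} [Field k] {M : Model k} {A : Type u} [CommRing A] [Algebra k A]
  {B : Type u} [CommRing B] [Algebra k B]

/-- Divisors with a prescribed basis of the quotient are represented by an affine scheme. -/
theorem exists_hilb_chart (M : Model k) {r : ℕ} (b : Fin r → M.Rp) :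
    ∃ (H : Type u) (_ : CommRing H) (_ : Algebra k H) (I : Ideal (M.Ap H)),
      Algebra.FiniteType k H ∧ HasBasis I b ∧
        ∀ (A : Type u) [CommRing A] [Algebra k A] (I' : Ideal (M.Ap A)), HasBasis I' b →
          ∃! f : H →ₐ[k] A, I.map (M.mapP f) = I' := by
  refine ⟨HilbRing b, inferInstance, inferInstance, (hilbUniv b).ideal, finiteType_hilbRing b,
    (hilbUniv b).hasBasis, fun A _ _ I' h => exists_unique_hilbUniv h⟩

theorem HasBasis.isDivDeg {I : Ideal (M.Ap A)} {r : ℕ} {b : Fin r → M.Rp} (h : HasBasis I b) :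
    IsDivDeg I r := isDivDeg_of_hasBasis h

theorem HasBasis.map {I : Ideal (M.Ap A)} {r : ℕ} {b : Fin r → M.Rp} (h : HasBasis I b)
    (f : A →ₐ[k] B) : HasBasis (I.map (M.mapP f)) b := hasBasis_map h f

/-- The locus where a given family has a prescribed basis is open. -/
theorem exists_hasBasis_locus {I : Ideal (M.Ap A)} {r : ℕ} (h : IsDivDeg I r)
    (b : Fin r → M.Rp) :
    ∃ U : Set (PrimeSpectrum A), IsOpen U ∧
      ∀ {B : Type u} [CommRing B] [Algebra k B] (f : A →ₐ[k] B),
        (HasBasis (I.map (M.mapP f)) b ↔ Set.range (PrimeSpectrum.comap f.toRingHom) ⊆ U) := exists_hasBasis_open h b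

theorem exists_hasBasis {K : Type u} [Field K] [Algebra k K] {I : Ideal (M.Ap K)} {r : ℕ}
    (h : IsDivDeg I r) : ∃ b : Fin r → M.Rp, HasBasis I b := exists_hasBasis_of_field h

/-- Line bundles lift along nilpotent thickenings. -/
theorem exists_lift (f : A →ₐ[k] B) (hf : Function.Surjective f)
    (hnil : IsNilpotent (RingHom.ker f)) (L' : LineData M B) :
    ∃ L : LineData M A, IsBC f L L' := exists_lift_lineData f hf hnil L'

theorem rigidifiable_of_lift (e : M.Rm →ₐ[k] k) (f : A →ₐ[k] B) (hf : Function.Surjective f)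
    (hnil : IsNilpotent (RingHom.ker f)) {L : LineData M A} {L' : LineData M B}
    (b : IsBC f L L') (h : Rigidifiable e L') : Rigidifiable e L := rigidifiable_lift e f hf hnil b h

/-- Uniqueness of limits: bundles of degree zero over a valuation ring with isomorphic generic
fibres are isomorphic. -/
theorem equivalent_of_generic {V : Type u} [CommRing V] [IsDomain V] [ValuationRing V]
    [Algebra k V] {F : Type u} [Field F] [Algebra k F] [Algebra V F] [IsScalarTower k V F]
    [IsFractionRing V F] {L₁ L₂ : LineData M V} (h₁ : L₁.FibreDeg 0) (h₂ : L₂.FibreDeg 0)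
    {G₁ G₂ : LineData M F} (b₁ : IsBC (IsScalarTower.toAlgHom k V F) L₁ G₁)
    (b₂ : IsBC (IsScalarTower.toAlgHom k V F) L₂ G₂) (e : Equivalent G₁ G₂) :
    Equivalent L₁ L₂ := equivalent_of_generic_fibre h₁ h₂ b₁ b₂ e

end FLTAgent.Jac
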