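import Mathlib

/-!
# Smooth schemes over a field are reduced
(same proof as in `AbScheme/Group/Integral`)
-/

set_option autoImplicit false

universe u

open CategoryTheory AlgebraicGeometry

namespace FLTAgent.Jac

/-- An etale algebra over a domain is reduced. -/
theorem reduced_of_etale_domain {R S : Type u} [CommRing R] [IsDomain R] [CommRing S]
    [Algebra R S] [Algebra.Etale R S] : _root_.IsReduced S := by
  let F := FractionRing R
  have : _root_.IsReduced (TensorProduct R F S) :=
    Algebra.FormallyUnramified.isReduced_of_field F (TensorProduct R F S)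
  refine isReduced_of_injective
    (Algebra.TensorProduct.includeRight : S →ₐ[R] TensorProduct R F S) ?_
  have h : Function.Injective
      (LinearMap.rTensor S (Algebra.linearMap R F) : TensorProduct R R S →ₗ[R] _) :=
    Module.Flat.rTensor_preserves_injective_linearMap _ (IsFractionRing.injective R F)
  intro a b hab
  apply (TensorProduct.lid R S).symm.injective
  apply h
  simpa using hab

/-- A smooth scheme over a field is reduced. -/
theorem reduced_of_smooth {K : Type u} [Field K] {X : Scheme.{u}}
    (f : X ⟶ Spec (CommRingCat.of K)) [Smooth f] : IsReduced X := by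
  have : ∀ x : X, _root_.IsReduced (X.presheaf.stalk x) := fun x => by
    obtain ⟨U, hU, V, hV, hx, e, hs⟩ := Smooth.exists_isStandardSmooth f x
    obtain ⟨n, g, -, hg⟩ := RingHom.IsStandardSmooth.exists_etale_mvPolynomial hs
    have : IsDomain Γ(Spec (CommRingCat.of K), U) := by
      have : Nonempty U := ⟨⟨f x, e hx⟩⟩
      infer_instance
    algebraize [g]
    have : _root_.IsReduced Γ(X, V) :=
      reduced_of_etale_domain (R := MvPolynomial (Fin n) Γ(Spec (CommRingCat.of K), U))
    let := TopCat.Presheaf.algebra_section_stalk X.presheaf ⟨x, hx⟩
    have := hV.isLocalization_stalk ⟨x, hx⟩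
    exact isReduced_localizationPreserves (hV.primeIdealOf ⟨x, hx⟩).asIdeal.primeCompl
      (X.presheaf.stalk x) ‹_›
  exact isReduced_of_isReduced_stalk X

end FLTAgent.Jac
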