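import Fermat.Agent.Jac.Cond
import Fermat.Agent.Jac.Deg
import Fermat.Agent.Jac.GeomIntegral
import Fermat.Agent.Jac.Surj.Induction

/-!
# S25: the representing scheme is the image of a power of the curve
-/

set_option autoImplicit false

universe u

open CategoryTheory CategoryTheory.Limits AlgebraicGeometry AlgebraicGeometry.RelPicard
  NeronModelInfra

namespace FLTAgent.Jac

variable {k : Type u} [Field k] [IsAlgClosed k] {C : Scheme.{u}}
  {c : C ⟶ Spec (CommRingCat.of k)}
  {ε : SchemeHomOver (𝟙 (Spec (CommRingCat.of k))) c} {M : Model k}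

/-- An integral proper scheme surjecting onto the representing scheme. -/
theorem exists_surjection [IsProper c] [SmoothOfRelativeDimension 1 c] [IsIntegral C]
    (φ : CurveChart c ε M) (E : SubRep (degZero φ)) [LocallyOfFiniteType E.toBase] :
    ∃ (X : Scheme.{u}) (p : X ⟶ E.P), IsIntegral X ∧ IsProper (p ≫ E.toBase) ∧ Surjective p := by
  obtain ⟨X, x, p, hX, hx, hp⟩ := exists_coversReach φ E M.genus
  haveI : IsProper (p.1 ≫ E.toBase) := by rw [p.2]; exact hx
  refine ⟨X, p.1, hX, inferInstance, surjective_of_points p.1 E.toBase fun s hs => ?_⟩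
  let ψ : SchemeHomOver (specOver k k) E.toBase := ⟨s, hs.trans specOver_self.symm⟩
  obtain ⟨L, hL⟩ := exists_realizes_pullback φ E.poincare ψ
  obtain ⟨t, L', hL', e⟩ :=
    hp L (reach_of_chi φ.e_y (E.poincare_mem k ψ L hL))
  exact ⟨t.1, congrArg Subtype.val (subRep_point_unique φ E hL' hL e)⟩

end FLTAgent.Jac
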