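import Fermat.Agent.Jac.Cond
import Fermat.Agent.Jac.Hilb
import Fermat.Agent.Jac.Reduced
import Fermat.Agent.Jac.Surj

/-!
# S25: the representing scheme is smooth, separated, proper and geometrically integral
-/

set_option autoImplicit false

universe u

open CategoryTheory CategoryTheory.Limits AlgebraicGeometry AlgebraicGeometry.RelPicard
  NeronModelInfra

namespace FLTAgent.Jac

variable {k : Type u} [Field k] {C : Scheme.{u}} {c : C ⟶ Spec (CommRingCat.of k)}
  {ε : SchemeHomOver (𝟙 (Spec (CommRingCat.of k))) c} {M : Model k}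
  {φ : CurveChart c ε M}

/-- Two points of the representing scheme with equivalent data agree. -/
theorem SubRep.eq_of_equivalent (E : SubRep (degZero φ)) {A : Type u} [CommRing A] [Algebra k A]
    (ψ ψ' : SchemeHomOver (specOver k A) E.toBase) {L L' : LineData M A}
    (h : Realizes φ L (E.poincare.pullbackAlong ψ).L)
    (h' : Realizes φ L' (E.poincare.pullbackAlong ψ').L) (e : LineData.Equivalent L L') :
    ψ = ψ' :=
  (E.univ _ (E.poincare.pullbackAlong ψ') ((degZero φ).pullback_mem _ _ ψ' _ E.poincare_mem)).unique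
    ((realizes_iso_iff φ h h').mpr e) ⟨Iso.refl _⟩

theorem SubRep.isSeparated (E : SubRep (degZero φ)) [LocallyOfFiniteType E.toBase] :
    IsSeparated E.toBase := by
  have : IsLocallyNoetherian E.P := LocallyOfFiniteType.isLocallyNoetherian E.toBase
  refine IsSeparated.of_valuativeCriterion _ fun S => ⟨fun l l' => ?_⟩
  obtain ⟨γ, hγ⟩ := Spec.map_surjective S.i₂
  let : Algebra k S.R := γ.hom.toAlgebra
  let : Algebra k S.K := ((algebraMap S.R S.K).comp γ.hom).toAlgebra
  have : IsScalarTower k S.R S.K := IsScalarTower.of_algebraMap_eq fun _ => rfl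
  let ψ : SchemeHomOver (specOver k S.R) E.toBase := ⟨l.l, l.fac_right.trans hγ.symm⟩
  let ψ' : SchemeHomOver (specOver k S.R) E.toBase := ⟨l'.l, l'.fac_right.trans hγ.symm⟩
  let i := IsScalarTower.toAlgHom k S.R S.K
  have hgen : postComp ψ (specHom i) = postComp ψ' (specHom i) :=
    Subtype.ext (l.fac_left.trans l'.fac_left.symm)
  obtain ⟨L, hL⟩ := exists_realizes_pullback φ E.poincare ψ
  obtain ⟨L', hL'⟩ := exists_realizes_pullback φ E.poincare ψ'
  obtain ⟨G, hG⟩ := exists_realizes_pullback φ E.poincare (postComp ψ (specHom i))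
  have hψ : ψ = ψ' := E.eq_of_equivalent ψ ψ' hL hL'
    (equivalent_of_generic (fibreDeg_of_degZero φ E.poincare_mem ψ hL)
      (fibreDeg_of_degZero φ E.poincare_mem ψ' hL')
      (isBC_of_realizes φ E.poincare i ψ _ rfl hL hG)
      (isBC_of_realizes φ E.poincare i ψ' _ hgen.symm hL' hG) (Equivalent.refl G))
  exact CommSq.LiftStruct.ext (congrArg Subtype.val hψ)

theorem SubRep.formallySmooth (E : SubRep (degZero φ)) {B : Type u} [CommRing B] [Algebra k B]
    (ι : SchemeHomOver (specOver k B) E.toBase) [IsOpenImmersion ι.1] :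
    Algebra.FormallySmooth k B := by
  rw [Algebra.FormallySmooth.iff_comp_surjective]
  intro A _ _ I hI g
  let q := Ideal.Quotient.mkₐ k I
  have hq : Function.Surjective q := Ideal.Quotient.mkₐ_surjective k I
  have hnil : IsNilpotent (RingHom.ker q) := by
    refine ⟨2, ?_⟩
    rw [show RingHom.ker q = I from Ideal.Quotient.mkₐ_ker k I]
    exact hI
  let ψ₀ : SchemeHomOver (specOver k (A ⧸ I)) E.toBase := postComp ι (specHom g)
  obtain ⟨L₀, hL₀⟩ := exists_realizes_pullback φ E.poincare ψ₀
  obtain ⟨L, hL⟩ := exists_lift q hq hnil L₀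
  have hr : L.Rigidifiable φ.e :=
    rigidifiable_of_lift φ.e q hq hnil hL (rigidifiable_of_realizes φ _ hL₀)
  have hdeg : L.FibreDeg 0 := by
    intro K _ _ _ f L' hL'
    have hfI : ∀ a ∈ I, f a = 0 := fun a ha => by
      have h2 : a * a ∈ I ^ 2 := by rw [pow_two]; exact Ideal.mul_mem_mul ha ha
      rw [hI] at h2
      exact mul_self_eq_zero.mp (by rw [← map_mul, show a * a = 0 from h2, map_zero])
    obtain ⟨f', hf'⟩ : ∃ f' : (A ⧸ I) →ₐ[k] K, f'.comp q = f :=
      ⟨Ideal.Quotient.liftₐ I f hfI, Ideal.Quotient.liftₐ_comp I f hfI⟩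
    obtain ⟨L'', hL''⟩ := exists_bc f' L₀
    rw [chi_congr (IsBC.unique hL' (hf' ▸ IsBC.trans hL hL''))]
    exact fibreDeg_of_degZero φ E.poincare_mem ψ₀ hL₀ K f' L'' hL''
  obtain ⟨F, hF, hFr⟩ := exists_sheaf φ L
  let Mb : RigidifiedLineBundle c ε (specOver k A) :=
    ⟨F, hF, (realizes_rigidifiable_iff φ hFr).mpr hr⟩
  obtain ⟨G, ⟨iG⟩, -⟩ := E.univ _ Mb (degZero_of_fibreDeg φ Mb hFr hdeg)
  obtain ⟨LG, hLG⟩ := exists_realizes_pullback φ E.poincare G
  have eG : LineData.Equivalent L LG := (realizes_iso_iff φ hFr hLG).mp ⟨iG.symm⟩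
  obtain ⟨L₁, hL₁⟩ := exists_realizes_pullback φ E.poincare (postComp G (specHom q))
  have hres : postComp G (specHom q) = ψ₀ :=
    E.eq_of_equivalent _ _ hL₁ hL₀ (IsBC.unique
      (IsBC.congr (isBC_of_realizes φ E.poincare q G _ rfl hLG hL₁) (Equivalent.symm eG)
        (Equivalent.refl L₁)) hL)
  have hr' : Set.range G.1.base ⊆ Set.range ι.1.base := by
    rintro _ ⟨p, rfl⟩
    obtain ⟨p', hp'⟩ : ∃ p' : PrimeSpectrum (A ⧸ I), PrimeSpectrum.comap q.toRingHom p' = p := by
      have hle : I ≤ p.asIdeal := fun a ha => p.isPrime.mem_of_pow_mem 2 (by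
        have h2 : a * a ∈ I ^ 2 := by rw [pow_two]; exact Ideal.mul_mem_mul ha ha
        rw [hI] at h2
        rw [pow_two, show a * a = 0 from h2]
        exact p.asIdeal.zero_mem)
      have := range_comap_of_surjective (S := A ⧸ I) q.toRingHom hq
      have hp : p ∈ Set.range (PrimeSpectrum.comap q.toRingHom) := by
        rw [this]
        show (RingHom.ker q.toRingHom : Set A) ⊆ p.asIdeal
        intro a ha
        exact hle (Ideal.Quotient.eq_zero_iff_mem.mp ha)
      exact hp
    refine ⟨(specHom g).1.base p', ?_⟩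
    have := congrArg (fun z : SchemeHomOver (specOver k (A ⧸ I)) E.toBase => z.1.base p') hres
    rw [← hp']
    exact this.symm
  let ξ : SchemeHomOver (specOver k A) (specOver k B) :=
    ⟨IsOpenImmersion.lift ι.1 G.1 hr',
      (congrArg (IsOpenImmersion.lift ι.1 G.1 hr' ≫ ·) ι.2.symm).trans (by
        rw [← Category.assoc, IsOpenImmersion.lift_fac]; exact G.2)⟩
  obtain ⟨f, hf⟩ := exists_specHom ξ
  refine ⟨f, ?_⟩
  have h1 : (specHom q).1 ≫ (specHom f).1 = (specHom g).1 := by
    rw [← cancel_mono ι.1, Category.assoc]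
    rw [show (specHom f).1 = IsOpenImmersion.lift ι.1 G.1 hr' from congrArg Subtype.val hf,
      IsOpenImmersion.lift_fac]
    exact congrArg Subtype.val hres
  apply AlgHom.ext
  intro b
  have h2 : CommRingCat.ofHom (f.toRingHom) ≫ CommRingCat.ofHom (q.toRingHom) =
      CommRingCat.ofHom g.toRingHom := Spec.map_injective (by rw [Spec.map_comp]; exact h1)
  exact congrArg (fun z : CommRingCat.of B ⟶ CommRingCat.of (A ⧸ I) => z.hom b) h2

theorem SubRep.smooth (E : SubRep (degZero φ)) [LocallyOfFiniteType E.toBase] :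
    Smooth E.toBase := by
  have : IsZariskiLocalAtSource (@Smooth : MorphismProperty Scheme.{u}) :=
    HasRingHomProperty.instIsZariskiLocalAtSource (P := @Smooth) (Q := RingHom.Smooth)
  refine (IsZariskiLocalAtSource.iff_of_openCover (P := @Smooth) E.P.affineCover).mpr fun i => ?_
  obtain ⟨γ, hγ⟩ := Spec.map_surjective (E.P.affineCover.f i ≫ E.toBase)
  erw [← hγ]
  refine (HasRingHomProperty.Spec_iff (P := @Smooth)).mpr ?_
  let : Algebra k (E.P.affineOpenCover.X i : CommRingCat.{u}) := γ.hom.toAlgebra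
  let ι : SchemeHomOver (specOver k (E.P.affineOpenCover.X i : CommRingCat.{u})) E.toBase :=
    ⟨E.P.affineCover.f i, hγ.symm⟩
  have : IsOpenImmersion ι.1 := E.P.affineCover.map_prop i
  have hfs := E.formallySmooth ι
  have hft : Algebra.FiniteType k (E.P.affineOpenCover.X i : CommRingCat.{u}) := by
    have h1 : LocallyOfFiniteType (E.P.affineCover.f i ≫ E.toBase) :=
      @locallyOfFiniteType_comp _ _ _ _ _
        (@locallyOfFiniteType_of_isOpenImmersion _ _ _ (E.P.affineCover.map_prop i)) ‹_›
    erw [← hγ] at h1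
    exact RingHom.finiteType_algebraMap.mp
      ((HasRingHomProperty.Spec_iff (P := @LocallyOfFiniteType)).mp h1)
  have hs : Algebra.Smooth k (E.P.affineOpenCover.X i : CommRingCat.{u}) :=
    { formallySmooth := hfs, finitePresentation := Algebra.FinitePresentation.of_finiteType.mp hft }
  exact (RingHom.smooth_algebraMap (R := k)).mpr hs

/-- Proper and geometrically integral. -/
theorem SubRep.isProper_and_geometricallyIntegral [IsAlgClosed k] [IsProper c]
    [SmoothOfRelativeDimension 1 c] [IsIntegral C] (E : SubRep (degZero φ))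
    [LocallyOfFiniteType E.toBase] :
    IsProper E.toBase ∧ GeometricallyIntegral E.toBase := by
  obtain ⟨X, p, hX, hprop, hsurj⟩ := exists_surjection φ E
  have := E.smooth
  have := E.isSeparated
  have huc : UniversallyClosed E.toBase := UniversallyClosed.of_comp_surjective p E.toBase
  have hqc : QuasiCompact E.toBase := inferInstance
  refine ⟨⟨⟩, ?_⟩
  have hred : IsReduced E.P := reduced_of_smooth E.toBase
  have hirr : IrreducibleSpace E.P := by
    have h1 : IsIrreducible (Set.univ : Set E.P) := by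
      rw [← hsurj.surj.range_eq, ← Set.image_univ]
      exact (IrreducibleSpace.isIrreducible_univ X).image _ p.continuous.continuousOn
    exact (irreducibleSpace_def _).mpr h1
  have := (isIntegral_iff_irreducibleSpace_and_isReduced E.P).mpr ⟨hirr, hred⟩
  exact geometricallyIntegral_of_isIntegral E.toBase

end FLTAgent.Jac
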