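import Fermat.Agent.Jac.Cond
import Fermat.Agent.Jac.Deg
import Fermat.Agent.Jac.Hilb
import Fermat.Agent.Jac.Chart

/-!
# S25: the degree zero condition is represented
-/

set_option autoImplicit false

universe u

open CategoryTheory CategoryTheory.Limits AlgebraicGeometry AlgebraicGeometry.RelPicard
  NeronModelInfra

namespace FLTAgent.Jac

variable {k : Type u} [Field k] {M : Model k}

section Algebra

variable {A B : Type u} [CommRing A] [Algebra k A] [CommRing B] [Algebra k B]

/-- Base change data factor. -/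
theorem isBC_of_comp {D : Type u} [CommRing D] [Algebra k D] {i : A →ₐ[k] B} {g : B →ₐ[k] D}
    {L : LineData M A} {L' : LineData M B} {L'' : LineData M D} (h : LineData.IsBC i L L')
    (h'' : LineData.IsBC (g.comp i) L L'') : LineData.IsBC g L' L'' := by
  obtain ⟨L₂, hL₂⟩ := exists_bc g L'
  exact IsBC.congr hL₂ (Equivalent.refl L') (IsBC.unique (IsBC.trans h hL₂) h'')

/-- A map whose image avoids the zeros of `h` factors through the localisation at `h`. -/
theorem exists_lift_away (h : A) (f : A →ₐ[k] B)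
    (hf : Set.range (PrimeSpectrum.comap f.toRingHom) ⊆ (PrimeSpectrum.basicOpen h : Set _)) :
    ∃ g : Localization.Away h →ₐ[k] B,
      g.comp (IsScalarTower.toAlgHom k A (Localization.Away h)) = f := by
  have hu : IsUnit (f h) := by
    by_contra hn
    obtain ⟨m, hm, hfm⟩ := exists_max_ideal_of_mem_nonunits hn
    exact hf ⟨⟨m, hm.isPrime⟩, rfl⟩ hfm
  let g₀ : Localization.Away h →+* B := IsLocalization.Away.lift h (g := f.toRingHom) hu
  have hg₀ : ∀ a, g₀ (algebraMap A (Localization.Away h) a) = f a :=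
    fun a => IsLocalization.Away.lift_eq h hu a
  refine ⟨⟨g₀, fun r => ?_⟩, AlgHom.ext hg₀⟩
  show g₀ _ = _
  rw [IsScalarTower.algebraMap_apply k A (Localization.Away h) r, hg₀, f.commutes]

theorem range_comap_away (h : A) :
    Set.range (PrimeSpectrum.comap
      (IsScalarTower.toAlgHom k A (Localization.Away h)).toRingHom) =
      (PrimeSpectrum.basicOpen h : Set _) :=
  PrimeSpectrum.localization_away_comap_range (Localization.Away h) h

/-- A residue field as a test point. -/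
theorem exists_point (a : PrimeSpectrum A) :
    Set.range (PrimeSpectrum.comap
      (IsScalarTower.toAlgHom k A a.asIdeal.ResidueField).toRingHom) = {a} := by
  ext q
  refine ⟨?_, fun hq => ⟨⊥, ?_⟩⟩
  · rintro ⟨r, rfl⟩
    rw [Subsingleton.elim r ⊥]
    exact PrimeSpectrum.ext (Ideal.ker_algebraMap_residueField _)
  · rw [Set.mem_singleton_iff.mp hq]
    exact PrimeSpectrum.ext (Ideal.ker_algebraMap_residueField _)

theorem comap_algHom_comp {D : Type u} [CommRing D] [Algebra k D] (f : A →ₐ[k] B) (g : B →ₐ[k] D)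
    (r : PrimeSpectrum D) :
    PrimeSpectrum.comap (g.comp f).toRingHom r =
      PrimeSpectrum.comap f.toRingHom (PrimeSpectrum.comap g.toRingHom r) :=
  PrimeSpectrum.ext rfl

end Algebra

variable {n : ℕ} {J : Ideal M.Rp} {e : M.Rm →ₐ[k] k}

/-- In the chart, with a prescribed basis of the quotient by the divisor. -/
def InBasisChart (n : ℕ) (J : Ideal M.Rp) (b : Fin M.genus → M.Rp) {A : Type u} [CommRing A]
    [Algebra k A] (L : LineData M A) : Prop :=
  L.InChart n J ∧ ∃ I : Ideal (M.Ap A), IsDivDeg I M.genus ∧ L.Corresp n J I ∧ HasBasis I b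

theorem InBasisChart.bc (hD : ChartData M n J) {b : Fin M.genus → M.Rp} {A B : Type u}
    [CommRing A] [Algebra k A] [CommRing B] [Algebra k B] {f : A →ₐ[k] B} {L : LineData M A}
    {L' : LineData M B} (h : LineData.IsBC f L L') (hL : InBasisChart n J b L) :
    InBasisChart n J b L' := by
  obtain ⟨h₁, I, hI, hc, hb⟩ := hL
  exact ⟨InChart.bc hD h₁ h, I.map (M.mapP f), IsDivDeg.map hI f, Corresp.bc hD hI hc h,
    HasBasis.map hb f⟩

/-- For a bundle in the chart, the basis condition is about its unique divisor. -/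
theorem InBasisChart.hasBasis [IsAlgClosed k] (hD : ChartData M n J) (he : e M.y = 0)
    {b : Fin M.genus → M.Rp} {A : Type u} [CommRing A] [Algebra k A] {L : LineData M A}
    (hr : L.Rigidifiable e) (hL : InBasisChart n J b L) {I : Ideal (M.Ap A)}
    (hI : IsDivDeg I M.genus) (hc : L.Corresp n J I) : HasBasis I b := by
  obtain ⟨h₁, I', hI', hc', hb⟩ := hL
  rwa [(exists_unique_corresp hD he h₁ hr).unique ⟨hI, hc⟩ ⟨hI', hc'⟩]

theorem exists_inBasisChart_locus [IsAlgClosed k] (hD : ChartData M n J) (he : e M.y = 0)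
    (b : Fin M.genus → M.Rp) {A : Type u} [CommRing A] [Algebra k A] (L : LineData M A)
    (hL : L.FibreDeg 0) (hr : L.Rigidifiable e) :
    ∃ U : Set (PrimeSpectrum A), IsOpen U ∧
      ∀ {B : Type u} [CommRing B] [Algebra k B] (f : A →ₐ[k] B) (L' : LineData M B),
        LineData.IsBC f L L' →
          (InBasisChart n J b L' ↔ Set.range (PrimeSpectrum.comap f.toRingHom) ⊆ U) := by
  obtain ⟨U₁, hU₁, h₁⟩ := exists_inChart_locus hD hL
  let U : Set (PrimeSpectrum A) := {p | ∃ h : A, p ∈ PrimeSpectrum.basicOpen h ∧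
    ∃ Lh : LineData M (Localization.Away h),
      LineData.IsBC (IsScalarTower.toAlgHom k A (Localization.Away h)) L Lh ∧
        InBasisChart n J b Lh}
  have hUU₁ : U ⊆ U₁ := by
    rintro p ⟨h, hp, Lh, hb, hP⟩
    have := (h₁ _ Lh hb).mp hP.1
    rw [range_comap_away] at this
    exact this hp
  refine ⟨U, ?_, fun {B} _ _ f L' hf => ⟨fun hP => ?_, fun hr' => ?_⟩⟩
  · rw [isOpen_iff_forall_mem_open]
    rintro p ⟨h, hp, Lh, hb, hP⟩
    exact ⟨PrimeSpectrum.basicOpen h, fun q hq => ⟨h, hq, Lh, hb, hP⟩,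
      (PrimeSpectrum.basicOpen h).isOpen, hp⟩
  · rintro _ ⟨q, rfl⟩
    set p := PrimeSpectrum.comap f.toRingHom q
    obtain ⟨LK, hLK⟩ := exists_bc ((IsScalarTower.toAlgHom k B q.asIdeal.ResidueField).comp f) L
    have hPK : InBasisChart n J b LK := InBasisChart.bc hD (isBC_of_comp hf hLK) hP
    obtain ⟨_, ⟨h₀, rfl⟩, hp₀, hsub₀⟩ :=
      PrimeSpectrum.isTopologicalBasis_basic_opens.exists_subset_of_mem_open
        ((h₁ f L' hf).mp hP.1 ⟨q, rfl⟩) hU₁
    obtain ⟨L₀, hL₀⟩ := exists_bc (IsScalarTower.toAlgHom k A (Localization.Away h₀)) L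
    have hc₀ : L₀.InChart n J := (h₁ _ L₀ hL₀).mpr (by rw [range_comap_away]; exact hsub₀)
    obtain ⟨I₀, ⟨hI₀, hI₀c⟩, -⟩ := exists_unique_corresp hD he hc₀ (Rigidifiable.bc hr hL₀)
    obtain ⟨V, hV, hVb⟩ := exists_hasBasis_locus hI₀ b
    have hqp : Set.range (PrimeSpectrum.comap
        ((IsScalarTower.toAlgHom k B q.asIdeal.ResidueField).comp f).toRingHom) ⊆
        (PrimeSpectrum.basicOpen h₀ : Set _) := by
      rintro _ ⟨r, rfl⟩
      have : PrimeSpectrum.comap
          (IsScalarTower.toAlgHom k B q.asIdeal.ResidueField).toRingHom r ∈ ({q} : Set _) :=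
        exists_point (k := k) q ▸ ⟨r, rfl⟩
      rw [comap_algHom_comp, Set.mem_singleton_iff.mp this]
      exact hp₀
    obtain ⟨g, hg⟩ := exists_lift_away h₀ _ hqp
    have hb₀ : LineData.IsBC g L₀ LK := isBC_of_comp hL₀ (by rw [hg]; exact hLK)
    have hgV : Set.range (PrimeSpectrum.comap g.toRingHom) ⊆ V :=
      (hVb g).mp (InBasisChart.hasBasis hD he (Rigidifiable.bc hr hLK) hPK
        (IsDivDeg.map hI₀ g) (Corresp.bc hD hI₀ hI₀c hb₀))
    let j := IsScalarTower.toAlgHom k A (Localization.Away h₀)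
    have hemb : Topology.IsOpenEmbedding (PrimeSpectrum.comap j.toRingHom) :=
      PrimeSpectrum.localization_away_isOpenEmbedding (Localization.Away h₀) h₀
    have hpV : p ∈ PrimeSpectrum.comap j.toRingHom '' V := by
      refine ⟨PrimeSpectrum.comap g.toRingHom ⊥, hgV ⟨⊥, rfl⟩, ?_⟩
      have := congrArg (fun z : A →ₐ[k] _ => PrimeSpectrum.comap z.toRingHom ⊥) hg
      rw [comap_algHom_comp] at this
      refine this.trans ?_
      have hq' : PrimeSpectrum.comap
          (IsScalarTower.toAlgHom k B q.asIdeal.ResidueField).toRingHom ⊥ ∈ ({q} : Set _) :=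
        exists_point (k := k) q ▸ ⟨⊥, rfl⟩
      rw [comap_algHom_comp, Set.mem_singleton_iff.mp hq']
    obtain ⟨_, ⟨h, rfl⟩, hph, hsubh⟩ :=
      PrimeSpectrum.isTopologicalBasis_basic_opens.exists_subset_of_mem_open hpV
        (hemb.isOpenMap V hV)
    obtain ⟨Lh, hLh⟩ := exists_bc (IsScalarTower.toAlgHom k A (Localization.Away h)) L
    have hh₀ : (PrimeSpectrum.basicOpen h : Set (PrimeSpectrum A)) ⊆
        PrimeSpectrum.basicOpen h₀ := by
      intro z hz
      obtain ⟨z', -, rfl⟩ := hsubh hz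
      exact (range_comap_away (k := k) h₀) ▸ ⟨z', rfl⟩
    obtain ⟨t, ht⟩ := exists_lift_away h₀ (IsScalarTower.toAlgHom k A (Localization.Away h))
      (by rw [range_comap_away]; exact hh₀)
    have hbt : LineData.IsBC t L₀ Lh := isBC_of_comp hL₀ (by rw [ht]; exact hLh)
    refine ⟨h, hph, Lh, hLh, InChart.bc hD hc₀ hbt, I₀.map (M.mapP t), IsDivDeg.map hI₀ t,
      Corresp.bc hD hI₀ hI₀c hbt, (hVb t).mpr ?_⟩
    rintro _ ⟨z, rfl⟩
    have hz : PrimeSpectrum.comap j.toRingHom (PrimeSpectrum.comap t.toRingHom z) ∈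
        PrimeSpectrum.comap j.toRingHom '' V := by
      refine hsubh ?_
      have := congrArg (fun w : A →ₐ[k] _ => PrimeSpectrum.comap w.toRingHom z) ht
      rw [comap_algHom_comp] at this
      show _ ∈ ((PrimeSpectrum.basicOpen h : TopologicalSpace.Opens (PrimeSpectrum A)) :
        Set (PrimeSpectrum A))
      rw [← range_comap_away (k := k) h]
      exact ⟨z, this.symm⟩
    obtain ⟨z', hz', hzz⟩ := hz
    exact hemb.injective hzz ▸ hz'
  · have hc : L'.InChart n J := (h₁ f L' hf).mpr (hr'.trans hUU₁)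
    obtain ⟨I, ⟨hI, hIc⟩, -⟩ := exists_unique_corresp hD he hc (Rigidifiable.bc hr hf)
    refine ⟨hc, I, hI, hIc, ?_⟩
    obtain ⟨V, -, hVb⟩ := exists_hasBasis_locus hI b
    have hid : I.map (M.mapP (AlgHom.id k B)) = I := by
      simp [Model.mapP, Algebra.TensorProduct.map_id]
    rw [← hid, hVb]
    rintro _ ⟨q, rfl⟩
    let i := IsScalarTower.toAlgHom k B q.asIdeal.ResidueField
    obtain ⟨LK, hLK⟩ := exists_bc i L'
    obtain ⟨h, hph, Lh, hLh, hP⟩ := hr' ⟨q, rfl⟩
    obtain ⟨g, hg⟩ := exists_lift_away h (i.comp f) (by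
      rintro _ ⟨r, rfl⟩
      have : PrimeSpectrum.comap i.toRingHom r ∈ ({q} : Set _) :=
        exists_point (k := k) q ▸ ⟨r, rfl⟩
      rw [comap_algHom_comp, Set.mem_singleton_iff.mp this]
      exact hph)
    have hb' : LineData.IsBC g Lh LK :=
      isBC_of_comp hLh (by rw [hg]; exact IsBC.trans hf hLK)
    have hPK : InBasisChart n J b LK := InBasisChart.bc hD hb' hP
    have hsub := (hVb i).mp (InBasisChart.hasBasis hD he
      (Rigidifiable.bc hr (IsBC.trans hf hLK)) hPK (IsDivDeg.map hI i) (Corresp.bc hD hI hIc hLK))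
    exact hsub (exists_point (k := k) q ▸ rfl)

section Geometry

variable {C : Scheme.{u}} {c : C ⟶ Spec (CommRingCat.of k)}
  {ε : SchemeHomOver (𝟙 (Spec (CommRingCat.of k))) c}

variable (φ : CurveChart c ε M)

/-- The chart `(n, J)` with basis `b`, as an algebraic condition. -/
def chartCond [IsAlgClosed k] (hD : ChartData M n J) (b : Fin M.genus → M.Rp) : AlgCond φ where
  P := fun A _ _ L => InBasisChart n J b L
  congr := fun h ⟨h₁, I, hI, hc, hb⟩ => ⟨InChart.congr h₁ h, I, hI, Corresp.congr hc h, hb⟩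
  bc := fun h hL => InBasisChart.bc hD h hL
  deg := fun h => h.1.1
  locus := fun L hL hr => exists_inBasisChart_locus hD φ.e_y b L hL hr

theorem pullbackAlong_id {T : Scheme.{u}} {t : T ⟶ Spec (CommRingCat.of k)}
    (Mb : RigidifiedLineBundle c ε t) :
    Nonempty ((Mb.pullbackAlong (⟨𝟙 T, Category.id_comp t⟩ : SchemeHomOver t t)).L ≅ Mb.L) :=
  ⟨(Scheme.Modules.pullbackCongr (baseChangeSnd_id c t)).app Mb.L ≪≫
    (Scheme.Modules.pullbackId _).app Mb.L⟩

/-- Each chart is represented by a scheme locally of finite type. -/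
theorem exists_subRep_chart [IsAlgClosed k] (hD : ChartData M n J) (b : Fin M.genus → M.Rp) :
    ∃ D : SubRep (chartCond φ hD b).cond, LocallyOfFiniteType D.toBase := by
  obtain ⟨H, _, _, I, hft, hIb, hHuniv⟩ := exists_hilb_chart M b
  have hI : IsDivDeg I M.genus := HasBasis.isDivDeg hIb
  obtain ⟨Lh, hLc, hLr, hLd⟩ := exists_of_divisor hD φ.e_y hI
  obtain ⟨F, hF, hFr⟩ := exists_sheaf φ Lh
  let Mb : RigidifiedLineBundle c ε (specOver k H) :=
    ⟨F, hF, (realizes_rigidifiable_iff φ hFr).mpr hLr⟩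
  have hdeg : (degZero φ).P (specOver k H) Mb := degZero_of_fibreDeg φ Mb hFr hLd
  obtain ⟨U, hU⟩ := (chartCond φ hD b).isOpenSubCond.2 (specOver k H) Mb hdeg
  have : LocallyOfFiniteType (specOver k H) :=
    (HasRingHomProperty.Spec_iff (P := @LocallyOfFiniteType)).mpr
      (RingHom.finiteType_algebraMap.mpr hft)
  refine ⟨⟨U, U.ι ≫ specOver k H, Mb.pullbackAlong (overMap (specOver k H) U.ι),
    (hU _ (overMap (specOver k H) U.ι)).mpr (le_of_eq U.range_ι), ?_⟩, inferInstance⟩
  refine univ_of_affine (rigidAut φ) (chartCond φ hD b).cond _ _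
    ((hU _ (overMap (specOver k H) U.ι)).mpr (le_of_eq U.range_ι)) fun R t N hN => ?_
  obtain ⟨ρ, rfl⟩ := Spec.map_surjective t
  let : Algebra k R := ρ.hom.toAlgebra
  obtain ⟨L, hL⟩ := exists_realizes_pullback φ N
    (⟨𝟙 _, Category.id_comp _⟩ : SchemeHomOver (specOver k R) (Spec.map ρ))
  obtain ⟨hc, IA, hIA, hIAc, hIAb⟩ := hN R _ L hL
  have hr : L.Rigidifiable φ.e :=
    rigidifiable_of_realizes φ (N.pullbackAlong _) hL
  obtain ⟨f, hf, hfu⟩ := hHuniv R IA hIAb
  obtain ⟨L₂, hL₂⟩ := exists_bc f Lh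
  have hL₂r : Realizes φ L₂ (Mb.pullbackAlong (specHom f)).L := realizes_pullback φ f hFr hL₂
  have heq : LineData.Equivalent L₂ L :=
    Corresp.equivalent hD hIA (hf ▸ Corresp.bc hD hI hLc hL₂) hIAc
  obtain ⟨iso⟩ : Nonempty ((Mb.pullbackAlong (specHom f)).L ≅ N.L) :=
    ⟨((realizes_iso_iff φ hL₂r hL).mpr heq).some ≪≫ (pullbackAlong_id N).some⟩
  have hrange : Set.range (specHom f).1.base ⊆ (U : Set _) :=
    (hU _ (specHom f)).mp ((chartCond φ hD b).cond.congr _ N _ ⟨iso.symm⟩ hN)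
  let g : SchemeHomOver (Spec.map ρ) (U.ι ≫ specOver k H) :=
    ⟨IsOpenImmersion.lift U.ι (specHom f).1 (by rwa [U.range_ι]), by
      rw [← Category.assoc, IsOpenImmersion.lift_fac]; exact (specHom f).2⟩
  have hg : postComp (overMap (specOver k H) U.ι) g = specHom f :=
    Subtype.ext (IsOpenImmersion.lift_fac _ _ _)
  refine ⟨g, ?_, fun g' hg' => ?_⟩
  · obtain ⟨e⟩ := pullbackAlong_comp Mb (overMap (specOver k H) U.ι) g
    rw [hg] at e
    exact ⟨e ≪≫ iso⟩
  · obtain ⟨i'⟩ := hg'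
    let χ : SchemeHomOver (specOver k R) (specOver k H) :=
      postComp (overMap (specOver k H) U.ι) g'
    obtain ⟨f', hf'⟩ := exists_specHom χ
    obtain ⟨L₃, hL₃⟩ := exists_bc f' Lh
    have hL₃r : Realizes φ L₃ (Mb.pullbackAlong (specHom f')).L := realizes_pullback φ f' hFr hL₃
    have e₃ : Nonempty ((Mb.pullbackAlong (specHom f')).L ≅ (N.pullbackAlong
        (⟨𝟙 _, Category.id_comp _⟩ : SchemeHomOver (specOver k R) (Spec.map ρ))).L) := by
      rw [hf']
      exact ⟨(pullbackAlong_comp Mb (overMap (specOver k H) U.ι) g').some.symm ≪≫ i' ≪≫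
        (pullbackAlong_id N).some.symm⟩
    have hc' : L.Corresp n J (I.map (M.mapP f')) :=
      Corresp.congr (Corresp.bc hD hI hLc hL₃) ((realizes_iso_iff φ hL₃r hL).mp e₃)
    have hI' : I.map (M.mapP f') = IA :=
      (exists_unique_corresp hD φ.e_y hc hr).unique ⟨IsDivDeg.map hI f', hc'⟩ ⟨hIA, hIAc⟩
    apply Subtype.ext
    rw [← cancel_mono U.ι]
    have h1 : χ = specHom f := hf'.symm.trans (congrArg specHom (hfu f' hI'))
    exact (congrArg Subtype.val h1).trans (IsOpenImmersion.lift_fac _ _ _).symm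

/-- The degree zero condition is represented by a scheme locally of finite type. -/
theorem exists_subRep_degZero [IsAlgClosed k] :
    ∃ E : SubRep (degZero φ), LocallyOfFiniteType E.toBase := by
  obtain ⟨n, hn, hcov⟩ := exists_chart_param M
  let ι := {J : Ideal M.Rp // ChartData M n J} × (Fin M.genus → M.Rp)
  choose D hD using fun i : ι => exists_subRep_chart φ i.1.2 i.2
  obtain ⟨E, f, hf, hfE, hfc⟩ := exists_subRep_of_cover (rigidAut φ) (degZero φ)
    (degZero_isLocal φ) (fun i : ι => (chartCond φ i.1.2 i.2).cond)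
    (fun i => (chartCond φ i.1.2 i.2).isOpenSubCond) D (by
      intro K _ _ t N hN
      obtain ⟨ρ, rfl⟩ := Spec.map_surjective t
      let : Algebra k K := ρ.hom.toAlgebra
      obtain ⟨L, hL⟩ := exists_realizes_pullback φ N
        (⟨𝟙 _, Category.id_comp _⟩ : SchemeHomOver (specOver k K) (Spec.map ρ))
      obtain ⟨J, hJf, hJr, hJc⟩ := hcov K L (hN K _ L hL)
      have hJ : ChartData M n J := ⟨hn, hJf, hJr⟩
      have hr : L.Rigidifiable φ.e := rigidifiable_of_realizes φ (N.pullbackAlong _) hL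
      obtain ⟨I, ⟨hI, hIc⟩, -⟩ := exists_unique_corresp hJ φ.e_y hJc hr
      obtain ⟨b, hb⟩ := exists_hasBasis hI
      refine ⟨⟨⟨J, hJ⟩, b⟩, ?_⟩
      refine (chartCond φ hJ b).cond.congr _ _ N (pullbackAlong_id N) ?_
      exact (chartCond φ hJ b).cond_of_alg (N.pullbackAlong _) hL ⟨hJc, I, hI, hIc, hb⟩)
  refine ⟨E, ?_⟩
  let 𝒰 : Scheme.OpenCover.{u} E.P := Scheme.Cover.mkOfCovers ι (fun i => (D i).P) f
    (fun p => by
      obtain ⟨i, y, hy⟩ := hfc p
      exact ⟨i, y, hy⟩) hf
  have : IsZariskiLocalAtSource (@LocallyOfFiniteType : MorphismProperty Scheme.{u}) :=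
    HasRingHomProperty.instIsZariskiLocalAtSource (P := @LocallyOfFiniteType)
      (Q := RingHom.FiniteType)
  refine (IsZariskiLocalAtSource.iff_of_openCover (P := @LocallyOfFiniteType) 𝒰).mpr fun i => ?_
  show LocallyOfFiniteType (f i ≫ E.toBase)
  rw [hfE i]
  exact hD i

end Geometry

end FLTAgent.Jac
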